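import Fermat.Agent.FF.Degree

/-!
# `IsCurveOver` for function fields with a separating element, and ways to get the bundle
-/

noncomputable section

namespace Fermat.Agent.FF

open AlgebraicCurve IntermediateField KaehlerDifferential Module

variable {K F : Type*} [Field K] [Field F] [Algebra K F]

/-- `x` is a separating element. -/
structure IsSeparatingElement (K : Type*) {F : Type*} [Field K] [Field F] [Algebra K F]
    (x : F) : Prop where
  transcendental : Transcendental K x
  isSeparable : Algebra.IsSeparable K⟮x⟯ F

theorem exists_basis_kaehler_of_separating {ι : Type*} {v : ι → F}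
    (hv : AlgebraicIndependent K v)
    [Algebra.IsSeparable (IntermediateField.adjoin K (Set.range v)) F] :
    ∃ b : Basis ι F Ω[F⁄K], ∀ i, b i = D K F (v i) := by
  classical
  set L := IntermediateField.adjoin K (Set.range v) with hL
  let g : ι → L := fun i => ⟨v i, IntermediateField.subset_adjoin K _ ⟨i, rfl⟩⟩
  let : Algebra (MvPolynomial ι K) L := (MvPolynomial.aeval (R := K) g).toRingHom.toAlgebra
  let : Algebra (MvPolynomial ι K) F := (MvPolynomial.aeval (R := K) v).toRingHom.toAlgebra
  have hgv : ∀ p : MvPolynomial ι K,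
      ((MvPolynomial.aeval (R := K) g p : L) : F) = MvPolynomial.aeval v p := fun p =>
    (MvPolynomial.comp_aeval_apply (R := K) g L.val p)
  have : IsScalarTower (MvPolynomial ι K) L F :=
    IsScalarTower.of_algebraMap_eq fun p => (hgv p).symm
  have : IsScalarTower K (MvPolynomial ι K) L :=
    IsScalarTower.of_algebraMap_eq fun a => (AlgHom.commutes (MvPolynomial.aeval g) a).symm
  have : IsScalarTower K (MvPolynomial ι K) F :=
    IsScalarTower.of_algebraMap_eq fun a => (AlgHom.commutes (MvPolynomial.aeval v) a).symm
  have : FaithfulSMul (MvPolynomial ι K) L :=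
    (faithfulSMul_iff_algebraMap_injective _ _).mpr fun p q h => by
      apply hv
      show MvPolynomial.aeval v p = MvPolynomial.aeval v q
      rw [← hgv, ← hgv]
      exact congrArg Subtype.val h
  have : IsFractionRing (MvPolynomial ι K) L := by
    refine IsFractionRing.of_field _ _ fun y => ?_
    obtain ⟨r, s, hrs⟩ := (IntermediateField.mem_adjoin_range_iff K v (y : F)).mp y.2
    refine ⟨r, s, Subtype.ext ?_⟩
    rw [hrs]
    show (MvPolynomial.aeval v r / MvPolynomial.aeval v s : F) = _
    rw [← hgv, ← hgv]
    rfl
  have : Algebra.FormallyEtale (MvPolynomial ι K) L :=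
    Algebra.FormallyEtale.of_isLocalization (nonZeroDivisors _)
  have : Algebra.FormallyEtale L F := Algebra.FormallyEtale.of_isSeparable _ _
  have : Algebra.FormallyEtale (MvPolynomial ι K) F :=
    Algebra.FormallyEtale.comp (MvPolynomial ι K) L F
  refine ⟨((KaehlerDifferential.mvPolynomialBasis K ι).baseChange F).map
    (KaehlerDifferential.tensorKaehlerEquivOfFormallyEtale K (MvPolynomial ι K) F), fun i => ?_⟩
  simp only [Basis.map_apply, Basis.baseChange_apply, mvPolynomialBasis_apply,
    tensorKaehlerEquivOfFormallyEtale_apply, mapBaseChange_tmul, one_smul, map_D]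
  congr 1
  exact MvPolynomial.aeval_X v i

theorem IsSeparatingElement.exists_basis {x : F} (hx : IsSeparatingElement K x) :
    ∃ b : Basis (Fin 1) F Ω[F⁄K], ∀ i, b i = D K F x := by
  have hi : AlgebraicIndependent K ![x] :=
    algebraicIndependent_iff_transcendental.mpr hx.transcendental
  have hr : Set.range ![x] = {x} := by simp
  have : Algebra.IsSeparable (IntermediateField.adjoin K (Set.range ![x])) F := by
    rw [hr]; exact hx.isSeparable
  obtain ⟨b, hb⟩ := exists_basis_kaehler_of_separating hi
  exact ⟨b, fun i => by rw [hb i, Fin.eq_zero i]; rfl⟩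

theorem IsSeparatingElement.D_ne_zero {x : F} (hx : IsSeparatingElement K x) :
    KaehlerDifferential.D K F x ≠ 0 := by
  obtain ⟨b, hb⟩ := hx.exists_basis
  exact hb 0 ▸ b.ne_zero 0

theorem IsSeparatingElement.span_D_eq_top {x : F} (hx : IsSeparatingElement K x) :
    Submodule.span F {KaehlerDifferential.D K F x} = ⊤ := by
  obtain ⟨b, hb⟩ := hx.exists_basis
  have h : Set.range b = {D K F x} := by
    ext y; simp [Set.range, hb, eq_comm]
  rw [← h, b.span_eq]

theorem IsSeparatingElement.kaehler_free_rank_one {x : F} (hx : IsSeparatingElement K x) :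
    Module.Free F Ω[F⁄K] ∧ Module.finrank F Ω[F⁄K] = 1 := by
  obtain ⟨b, -⟩ := hx.exists_basis
  exact ⟨Module.Free.of_basis b, by rw [Module.finrank_eq_card_basis b, Fintype.card_fin]⟩

theorem isCurveOver_of_isSeparatingElement [IsFunctionField K F] {x : F}
    (hx : IsSeparatingElement K x) : IsCurveOver K F where
  finiteResidue v := instFiniteResidueField v
  kaehler_free_rank_one := hx.kaehler_free_rank_one

theorem exists_isSeparatingElement (K F : Type*) [Field K] [Field F] [Algebra K F]
    [IsFunctionField K F] [PerfectField K] : ∃ x : F, IsSeparatingElement K x := by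
  have : Algebra.EssFiniteType K F := IsFunctionField.essFiniteType
  obtain ⟨s, hs, hsep⟩ := exists_isTranscendenceBasis_and_isSeparable_of_perfectField K F
  have hc := hs.lift_cardinalMk_eq_trdeg
  rw [IsFunctionField.trdeg_eq_one] at hc
  have hc' : s.card = 1 := by simpa using hc
  obtain ⟨x, rfl⟩ := Finset.card_eq_one.mp hc'
  refine ⟨x, hs.1.transcendental ⟨x, by simp⟩, ?_⟩
  rwa [Finset.coe_singleton] at hsep

instance (priority := 100) instIsCurveOver [IsFunctionField K F] [PerfectField K] :
    IsCurveOver K F :=
  let ⟨_, hx⟩ := exists_isSeparatingElement K F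
  isCurveOver_of_isSeparatingElement hx

theorem IsFunctionField.of_trdeg_eq_one [Algebra.EssFiniteType K F]
    (h : Algebra.trdeg K F = 1) : IsFunctionField K F := by
  obtain ⟨s, hs⟩ := exists_isTranscendenceBasis K F
  obtain ⟨x, hxs⟩ := Cardinal.mk_ne_zero_iff.mp
    (by rw [hs.cardinalMk_eq_trdeg, h]; exact one_ne_zero : Cardinal.mk s ≠ 0)
  have hx : Transcendental K x := hs.1.transcendental ⟨x, hxs⟩
  have hi : AlgebraicIndependent K ![x] := algebraicIndependent_iff_transcendental.mpr hx
  have hb : IsTranscendenceBasis K ![x] :=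
    hi.isTranscendenceBasis_of_lift_trdeg_le_of_finite (by simp [h])
  have hr : Set.range ![x] = {x} := by simp
  have := hb.isAlgebraic_field
  rw [hr] at this
  exact IsFunctionField.of_isAlgebraic hx

theorem isFunctionField_of_isCurveOver [IsCurveOver K F] [Algebra.EssFiniteType K F]
    [CharZero K] : IsFunctionField K F := by
  obtain ⟨s, hs, hsep⟩ := exists_isTranscendenceBasis_and_isSeparable_of_perfectField K F
  have : Algebra.IsSeparable (IntermediateField.adjoin K (Set.range ((↑) : s → F))) F := by
    convert! hsep <;> simp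
  obtain ⟨b, -⟩ := exists_basis_kaehler_of_separating hs.1
  have hc := Module.finrank_eq_card_basis b
  rw [IsCurveOver.finrank_kaehler, Fintype.card_coe] at hc
  refine IsFunctionField.of_trdeg_eq_one ?_
  have := hs.lift_cardinalMk_eq_trdeg
  simpa [← hc] using this.symm

/-! ## Sub- and superfields -/

theorem linearIndependent_map {L : Type*} [Field L] [Algebra K L] (φ : F →ₐ[K] L) {x : F}
    (hx : Transcendental K x) {ι : Type*} [Fintype ι] {b : ι → F}
    (hb : LinearIndependent K⟮x⟯ b) : LinearIndependent K⟮φ x⟯ (φ ∘ b) := by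
  refine linearIndependent_adjoin_of_polynomial ?_ _ fun p hp i => ?_
  · exact fun h => hx ((isAlgebraic_algHom_iff φ φ.injective).mp h)
  have h0 : ∑ j, Polynomial.aeval x (p j) * b j = 0 := φ.injective (by
    rw [map_zero, ← hp, map_sum]
    exact Finset.sum_congr rfl fun j _ => by
      rw [map_mul, Polynomial.aeval_algHom_apply]; rfl)
  have := Fintype.linearIndependent_iff.mp hb
    (fun j => Polynomial.aeval (AdjoinSimple.gen K x) (p j)) (by
      rw [← h0]
      exact Finset.sum_congr rfl fun j _ => by
        rw [IntermediateField.smul_def, Polynomial.aeval_def, Polynomial.aeval_def, smul_eq_mul]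
        congr 1
        exact (Polynomial.hom_eval₂ _ _ (K⟮x⟯.val.toRingHom) _).trans rfl) i
  refine transcendental_iff.mp hx _ ?_
  have h1 := congrArg K⟮x⟯.val this
  rwa [map_zero, ← Polynomial.aeval_algHom_apply] at h1

theorem IsFunctionField.of_bound {x : F} (hx : Transcendental K x) (n : ℕ)
    (h : ∀ s : Finset F, LinearIndependent K⟮x⟯ ((↑) : s → F) → s.card ≤ n) :
    IsFunctionField K F :=
  ⟨x, hx, Module.rank_lt_aleph0_iff.mp ((rank_le h).trans_lt Cardinal.natCast_lt_aleph0)⟩

/-- The source of an embedding into a function field is one, if it is not algebraic over `K`. -/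
theorem IsFunctionField.of_algHom {F' : Type*} [Field F'] [Algebra K F'] [IsFunctionField K F']
    (φ : F →ₐ[K] F') {x : F} (hx : Transcendental K x) : IsFunctionField K F := by
  refine .of_bound hx (Module.finrank K⟮φ x⟯ F') fun s hs => ?_
  simpa using card_le_finrank_adjoin
    (fun h => hx ((isAlgebraic_algHom_iff φ φ.injective).mp h)) (linearIndependent_map φ hx hs)

/-- A finite extension of a function field is a function field. -/
theorem IsFunctionField.of_finite (K F : Type*) [Field K] [Field F] [Algebra K F]
    [IsFunctionField K F] (F' : Type*) [Field F'] [Algebra K F'] [Algebra F F']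
    [IsScalarTower K F F'] [Module.Finite F F'] : IsFunctionField K F' := by
  have : Algebra.EssFiniteType K F := IsFunctionField.essFiniteType
  have : Algebra.EssFiniteType K F' := Algebra.EssFiniteType.comp K F F'
  refine IsFunctionField.of_trdeg_eq_one ?_
  have h := lift_trdeg_add_eq K F F'
  rw [IsFunctionField.trdeg_eq_one, trdeg_eq_zero (R := F) (A := F')] at h
  simpa using h.symm

/-- An embedding of function fields is finite. -/
theorem finite_of_isScalarTower (K F F' : Type*) [Field K] [Field F] [Field F'] [Algebra K F]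
    [Algebra K F'] [Algebra F F'] [IsScalarTower K F F'] [IsFunctionField K F]
    [IsFunctionField K F'] : Module.Finite F F' := by
  obtain ⟨x, hx, -⟩ := IsFunctionField.exists_transcendental (K := K) (F := F)
  have hx' : Transcendental K (algebraMap F F' x) := fun h =>
    hx ((isAlgebraic_algebraMap_iff (algebraMap F F').injective).mp h)
  have := finiteDimensional_adjoin hx'
  let u := Module.finBasis K⟮algebraMap F F' x⟯ F'
  classical
  refine ⟨⟨Finset.univ.image u, ?_⟩⟩
  rw [Finset.coe_image, Finset.coe_univ, Set.image_univ, eq_top_iff]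
  intro y _
  rw [← u.sum_repr y]
  refine Submodule.sum_mem _ fun i _ => ?_
  have hle : K⟮algebraMap F F' x⟯ ≤ (IsScalarTower.toAlgHom K F F').fieldRange :=
    adjoin_simple_le_iff.mpr ⟨x, rfl⟩
  obtain ⟨a, ha⟩ := hle (u.repr y i).2
  have hsm : u.repr y i • u i = a • u i := by
    rw [IntermediateField.smul_def, ← ha, smul_eq_mul, Algebra.smul_def]; rfl
  rw [hsm]
  exact Submodule.smul_mem _ a (Submodule.subset_span ⟨i, rfl⟩)

theorem IsFunctionField.of_algHom_finite {L : Type*} [Field L] [Algebra K L] (φ : F →ₐ[K] L)
    {x : F} (hx : Transcendental K x) (E : IntermediateField K⟮φ x⟯ L)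
    [FiniteDimensional K⟮φ x⟯ E] (hE : ∀ z : F, φ z ∈ E) : IsFunctionField K F := by
  refine IsFunctionField.of_bound hx (Module.finrank K⟮φ x⟯ E) fun s hs => ?_
  have h1 : LinearIndependent K⟮φ x⟯ (φ ∘ fun i : s => (i : F)) :=
    linearIndependent_map φ hx hs
  have h2 : LinearIndependent K⟮φ x⟯ (fun i : s => (⟨φ i, hE i⟩ : E)) :=
    LinearIndependent.of_comp E.val.toLinearMap h1
  exact (Fintype.card_coe s).symm.trans_le h2.fintype_card_le_finrank

theorem IsFunctionField.of_intermediateField_le {L : Type*} [Field L] [Algebra K L]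
    (M : IntermediateField K L) {x : L} (hxM : x ∈ M) (hx : Transcendental K x)
    (E : IntermediateField K⟮x⟯ L) [FiniteDimensional K⟮x⟯ E] (hE : M ≤ E.restrictScalars K) :
    IsFunctionField K M := by
  obtain ⟨x', rfl⟩ : ∃ x' : M, M.val x' = x := ⟨⟨x, hxM⟩, rfl⟩
  have hx0 : Transcendental K x' := fun h =>
    hx ((isAlgebraic_algHom_iff M.val M.val.injective).mpr h)
  exact IsFunctionField.of_algHom_finite M.val hx0 E fun z => hE z.2

theorem IsFunctionField.of_adjoin {L : Type*} [Field L] [Algebra K L] {S : Set L}
    (hS : S.Finite) {x : L} (hxS : x ∈ IntermediateField.adjoin K S) (hx : Transcendental K x)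
    (halg : ∀ y ∈ S, IsAlgebraic K⟮x⟯ y) :
    IsFunctionField K (IntermediateField.adjoin K S) := by
  have : Finite S := hS
  have : FiniteDimensional K⟮x⟯ (IntermediateField.adjoin K⟮x⟯ S) :=
    IntermediateField.finiteDimensional_adjoin fun y hy => (halg y hy).isIntegral
  exact IsFunctionField.of_intermediateField_le (IntermediateField.adjoin K S) hxS hx
    (IntermediateField.adjoin K⟮x⟯ S)
    (IntermediateField.adjoin_le_iff.mpr fun y hy =>
      IntermediateField.subset_adjoin K⟮x⟯ S hy)

end Fermat.Agent.FF
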