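import Fermat.Prelude.Def_AlgebraicCurve_Repartitions
import Mathlib.LinearAlgebra.Dimension.RankNullity
import Mathlib.LinearAlgebra.FiniteDimensional.Lemmas
import Mathlib.Algebra.Order.GroupWithZero.Canonical

/-!
# Riemann-Roch spaces and first cohomology of repartitions: basic exactness

For a divisor `D` and a place `v` we build the six-term sequence
`0 → L(D) → L(D + v) → k_v → H¹(D) → H¹(D + v) → 0`.
-/

set_option autoImplicit false

noncomputable section

open AlgebraicCurve WithZero

namespace Fermat.Agent.FF

variable {K F : Type*} [Field K] [Field F] [Algebra K F]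

/-! ### Auxiliary lemmas on a single place -/

theorem mem_toValuationSubring_of_adicValuation_le_one (v : Place K F) {x : F}
    (hx : v.adicValuation x ≤ 1) : x ∈ v.toValuationSubring := by
  by_contra h
  have hx0 : x ≠ 0 := fun h0 => h (h0 ▸ zero_mem _)
  have hinv : x⁻¹ ∈ v.toValuationSubring :=
    (v.toValuationSubring.mem_or_inv_mem x).resolve_left h
  have h1 : v.adicValuation ((⟨x⁻¹, hinv⟩ : v.toValuationSubring) : F) ≠ 1 := by
    intro he
    obtain ⟨u, hu⟩ := (v.adicValuation_coe_eq_one_iff _).mp he
    apply h
    have hprod : x⁻¹ * ((↑u⁻¹ : v.toValuationSubring) : F) = 1 := by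
      have hmul : ((u : v.toValuationSubring) : F) * ((↑u⁻¹ : v.toValuationSubring) : F) = 1 :=
        congrArg Subtype.val u.mul_inv
      rwa [hu] at hmul
    have : ((↑u⁻¹ : v.toValuationSubring) : F) = x := by
      field_simp at hprod
      exact hprod
    exact this ▸ ((↑u⁻¹ : v.toValuationSubring)).2
  have h2 : v.adicValuation x⁻¹ ≤ 1 := v.adicValuation_le_one_of_mem hinv
  rw [map_inv₀] at h2
  have h3 : 1 ≤ v.adicValuation x := (inv_le_one₀ (zero_lt_iff.mpr (v.adicValuation_ne_zero hx0))).mp h2
  apply h1
  show v.adicValuation x⁻¹ = 1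
  rw [map_inv₀, le_antisymm hx h3, inv_one]

theorem placeDeg_pos (v : Place K F) [v.FiniteResidue] : 0 < v.deg := by
  have : Module.Finite K v.ResidueField := Place.FiniteResidue.finite
  exact Module.finrank_pos

/-! ### Level submodules and leading coefficient maps -/

/-- Elements of `F` with pole order at most `n` at `v`. -/
def placeLevel (v : Place K F) (n : ℤ) : Submodule K F where
  carrier := {f | v.adicValuation f ≤ exp n}
  zero_mem' := by simp
  add_mem' := by
    intro f g hf hg
    exact (Valuation.map_add v.adicValuation f g).trans (max_le hf hg)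
  smul_mem' := by
    intro c f hf
    show v.adicValuation (c • f) ≤ exp n
    rw [Algebra.smul_def, map_mul]
    exact (mul_le_of_le_one_left' (v.adicValuation_algebraMap_le_one c)).trans hf

theorem mem_placeLevel {v : Place K F} {n : ℤ} {f : F} :
    f ∈ placeLevel v n ↔ v.adicValuation f ≤ exp n := Iff.rfl

/-- A chosen uniformizer at `v`. -/
def placeUnif (v : Place K F) : v.toValuationSubring :=
  (IsDiscreteValuationRing.exists_irreducible v.toValuationSubring).choose

theorem placeUnif_irreducible (v : Place K F) : Irreducible (placeUnif v) :=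
  (IsDiscreteValuationRing.exists_irreducible v.toValuationSubring).choose_spec

theorem adicValuation_placeUnif_zpow (v : Place K F) (n : ℤ) :
    v.adicValuation ((placeUnif v : F) ^ n) = exp (-n) := by
  rw [map_zpow₀, v.adicValuation_coe_irreducible (placeUnif_irreducible v), ← exp_zsmul]
  simp

theorem mul_unif_zpow_mem (v : Place K F) (n : ℤ) (f : placeLevel v n) :
    (f : F) * (placeUnif v : F) ^ n ∈ v.toValuationSubring := by
  refine mem_toValuationSubring_of_adicValuation_le_one v ?_
  rw [map_mul, adicValuation_placeUnif_zpow]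
  calc v.adicValuation (f : F) * exp (-n) ≤ exp n * exp (-n) := by gcongr; exact f.2
    _ = 1 := by rw [← exp_add, add_neg_cancel, exp_zero]

/-- The leading coefficient of an element with pole order at most `n` at `v`. -/
def leadMap (v : Place K F) (n : ℤ) : placeLevel v n →ₗ[K] v.ResidueField where
  toFun f := IsLocalRing.residue _ ⟨_, mul_unif_zpow_mem v n f⟩
  map_add' f g := by
    rw [← map_add]
    congr 1
    ext
    exact add_mul (f : F) g _
  map_smul' c f := by
    rw [RingHom.id_apply, Algebra.smul_def, IsScalarTower.algebraMap_apply K v.toValuationSubring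
      v.ResidueField, IsLocalRing.ResidueField.algebraMap_eq, ← map_mul]
    congr 1
    ext
    show ((c • f : placeLevel v n) : F) * _ = algebraMap K F c * _
    rw [Submodule.coe_smul, Algebra.smul_def, mul_assoc]

theorem leadMap_eq_zero_iff (v : Place K F) (n : ℤ) (f : placeLevel v n) :
    leadMap v n f = 0 ↔ (f : F) ∈ placeLevel v (n - 1) := by
  show IsLocalRing.residue v.toValuationSubring _ = 0 ↔ _
  rw [IsLocalRing.residue_eq_zero_iff, mem_placeLevel, IsLocalRing.mem_maximalIdeal, mem_nonunits_iff,
    ← v.adicValuation_coe_eq_one_iff]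
  show v.adicValuation ((f : F) * (placeUnif v : F) ^ n) ≠ 1 ↔ _
  rw [map_mul, adicValuation_placeUnif_zpow]
  rcases eq_or_ne (f : F) 0 with hf | hf
  · simp [hf]
  · have hle : v.adicValuation (f : F) ≤ exp n := f.2
    rw [v.adicValuation_eq_exp_neg_ord hf] at hle ⊢
    rw [← exp_add, ← exp_zero, ne_eq, exp_inj, exp_le_exp]
    rw [exp_le_exp] at hle
    omega

theorem leadMap_surjective (v : Place K F) (n : ℤ) : Function.Surjective (leadMap v n) := by
  intro r
  obtain ⟨a, rfl⟩ := IsLocalRing.residue_surjective r
  refine ⟨⟨(a : F) * (placeUnif v : F) ^ (-n), ?_⟩, ?_⟩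
  · rw [mem_placeLevel, map_mul, adicValuation_placeUnif_zpow, neg_neg]
    exact mul_le_of_le_one_left' (v.adicValuation_le_one_of_mem a.2)
  · show IsLocalRing.residue _ _ = _
    congr 1
    ext
    show (a : F) * _ * _ = _
    rw [mul_assoc, ← zpow_add₀ (by
      have := (placeUnif_irreducible v).ne_zero
      simpa [ZeroMemClass.coe_eq_zero] using this), neg_add_cancel, zpow_zero, mul_one]

/-! ### The repartition ring -/

theorem finite_setOf_ord_ne_zero [HasPrincipalDivisors K F] {f : F} (hf : f ≠ 0) :
    {v : Place K F | v.ord f ≠ 0}.Finite := by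
  obtain ⟨D, hD, -⟩ := HasPrincipalDivisors.exists_divisor (K := K) f hf
  refine D.support.finite_toSet.subset fun v hv => ?_
  simp only [Finset.mem_coe, Finsupp.mem_support_iff, hD v]
  exact hv

theorem finite_setOf_not_adicValuation_le_one [HasPrincipalDivisors K F] (f : F) :
    {v : Place K F | ¬v.adicValuation f ≤ 1}.Finite := by
  rcases eq_or_ne f 0 with rfl | hf
  · simp
  refine (finite_setOf_ord_ne_zero hf).subset fun v hv => ?_
  rw [Set.mem_ofPred_eq, v.not_adicValuation_le_one_iff] at hv
  exact ne_of_lt hv

theorem mem_repartitions_iff [HasPrincipalDivisors K F] {α : Place K F → F} :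
    α ∈ repartitions K F ↔ {v : Place K F | ¬v.adicValuation (α v) ≤ 1}.Finite := by
  refine ⟨fun h => ?_, mem_repartitions_of_finite⟩
  refine Algebra.adjoin_induction (fun x hx => hx) (fun r => ?_) (fun x y _ _ hx hy => ?_)
    (fun x y _ _ hx hy => ?_) h
  · exact finite_setOf_not_adicValuation_le_one r
  · refine (hx.union hy).subset fun v hv => ?_
    by_contra hc
    rw [Set.mem_union, Set.mem_ofPred_eq, Set.mem_ofPred_eq, not_or, not_not, not_not] at hc
    exact hv ((Valuation.map_add _ _ _).trans (max_le hc.1 hc.2))
  · refine (hx.union hy).subset fun v hv => ?_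
    by_contra hc
    rw [Set.mem_union, Set.mem_ofPred_eq, Set.mem_ofPred_eq, not_or, not_not, not_not] at hc
    refine hv ?_
    rw [Pi.mul_apply, map_mul]
    exact mul_le_one' hc.1 hc.2

/-- The repartition supported at a single place. -/
def singleRep (v : Place K F) : F →ₗ[K] ↥(repartitions K F) :=
  letI := Classical.decEq (Place K F)
  LinearMap.codRestrict ((repartitions K F).toSubmodule.restrictScalars K)
    (LinearMap.single K (fun _ : Place K F => F) v) fun f => by
      refine mem_repartitions_of_finite ((Set.finite_singleton v).subset fun w hw => ?_)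
      by_contra hwv
      simp [Pi.single_eq_of_ne (show w ≠ v from hwv)] at hw

@[simp]
theorem singleRep_apply_same (v : Place K F) (f : F) :
    (singleRep v f : Place K F → F) v = f := by
  classical
  show (LinearMap.single K (fun _ : Place K F => F) v f) v = f
  simp

theorem singleRep_apply_of_ne {v w : Place K F} (h : w ≠ v) (f : F) :
    (singleRep v f : Place K F → F) w = 0 := by
  classical
  show (LinearMap.single K (fun _ : Place K F => F) v f) w = 0
  simp [Pi.single_eq_of_ne h]

theorem singleRep_mem_repartitionsOf {v : Place K F} {f : F} {D : Divisor K F}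
    (hf : v.adicValuation f ≤ exp (D v)) : singleRep v f ∈ repartitionsOf D := by
  intro w
  rcases eq_or_ne w v with rfl | h
  · rwa [singleRep_apply_same]
  · rw [singleRep_apply_of_ne h, map_zero]
    exact zero_le

/-- The constant repartition, as a `K`-linear map. -/
def constRep (K : Type*) {F : Type*} [Field K] [Field F] [Algebra K F] :
    F →ₗ[K] ↥(repartitions K F) :=
  (Algebra.linearMap F ↥(repartitions K F)).restrictScalars K

@[simp]
theorem constRep_apply (f : F) (v : Place K F) :
    (constRep K f : Place K F → F) v = f := rfl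

theorem constRep_mem_principalRepartitions (f : F) :
    constRep K f ∈ principalRepartitions K F :=
  mem_principalRepartitions_iff.mpr ⟨f, rfl⟩

theorem mem_riemannRochSpace' {D : Divisor K F} {f : F} :
    f ∈ riemannRochSpace D ↔ ∀ v : Place K F, v.adicValuation f ≤ exp (D v) := Iff.rfl

theorem riemannRochSpace_mono {D E : Divisor K F} (h : D ≤ E) :
    riemannRochSpace D ≤ riemannRochSpace E := fun _ hf v =>
  (hf v).trans (exp_le_exp.mpr (h v))

/-! ### The six term sequence -/

/-- `H¹(D) → H¹(E)` for `D ≤ E`. -/
def h1Map {D E : Divisor K F} (h : D ≤ E) : H1 D →ₗ[K] H1 E :=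
  Submodule.factor (p := repartitionsOf D ⊔ principalRepartitions K F)
    (p' := repartitionsOf E ⊔ principalRepartitions K F)
    (sup_le_sup (repartitionsOf_mono h) le_rfl)

theorem h1Map_surjective {D E : Divisor K F} (h : D ≤ E) : Function.Surjective (h1Map h) :=
  Submodule.factor_surjective (sup_le_sup (repartitionsOf_mono h) le_rfl)

theorem h1Map_mk {D E : Divisor K F} (h : D ≤ E) (α : ↥(repartitions K F)) :
    h1Map h (Submodule.Quotient.mk α) = Submodule.Quotient.mk α := rfl

theorem h1Map_trans {D E G : Divisor K F} (h₁ : D ≤ E) (h₂ : E ≤ G) :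
    (h1Map h₂).comp (h1Map h₁) = h1Map (h₁.trans h₂) := by
  refine LinearMap.ext fun x => ?_
  obtain ⟨α, rfl⟩ := Submodule.Quotient.mk_surjective _ x
  rfl

variable (v : Place K F) (D : Divisor K F)

theorem le_add_single_one : D ≤ D + Finsupp.single v 1 :=
  le_add_of_nonneg_right (Finsupp.single_nonneg.mpr zero_le_one)

/-- The leading coefficient on `L(D + v)`. -/
def rrLead : riemannRochSpace (D + Finsupp.single v 1) →ₗ[K] v.ResidueField :=
  (leadMap v (D v + 1)).comp (Submodule.inclusion fun f hf => by
    have := hf v
    rwa [Finsupp.add_apply, Finsupp.single_eq_same] at this)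

theorem rrLead_eq_zero_iff (f : riemannRochSpace (D + Finsupp.single v 1)) :
    rrLead v D f = 0 ↔ (f : F) ∈ riemannRochSpace D := by
  show leadMap v (D v + 1) _ = 0 ↔ _
  rw [leadMap_eq_zero_iff, add_sub_cancel_right]
  refine ⟨fun h w => ?_, fun h => h v⟩
  rcases eq_or_ne w v with rfl | hw
  · exact h
  · have := f.2 w
    rwa [Finsupp.add_apply, Finsupp.single_eq_of_ne hw, add_zero] at this

/-- `O(v-level) → H¹(D)`, by a repartition supported at `v`. -/
def levelToH1 : placeLevel v (D v + 1) →ₗ[K] H1 D :=
  (Submodule.mkQ _).comp ((singleRep v).comp (placeLevel v (D v + 1)).subtype)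

theorem ker_leadMap_le_ker_levelToH1 :
    (leadMap v (D v + 1)).ker ≤ (levelToH1 v D).ker := by
  intro f hf
  rw [LinearMap.mem_ker, leadMap_eq_zero_iff, add_sub_cancel_right] at hf
  rw [LinearMap.mem_ker]
  exact (Submodule.Quotient.mk_eq_zero _).mpr
    (Submodule.mem_sup_left (singleRep_mem_repartitionsOf hf))

/-- The connecting map `k_v → H¹(D)`. -/
def residueToH1 : v.ResidueField →ₗ[K] H1 D :=
  ((leadMap v (D v + 1)).ker.liftQ (levelToH1 v D) (ker_leadMap_le_ker_levelToH1 v D)).comp
    ((leadMap v (D v + 1)).quotKerEquivOfSurjective (leadMap_surjective v _)).symm.toLinearMap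

theorem residueToH1_leadMap (f : placeLevel v (D v + 1)) :
    residueToH1 v D (leadMap v (D v + 1) f) = Submodule.Quotient.mk (singleRep v (f : F)) := by
  have : ((leadMap v (D v + 1)).quotKerEquivOfSurjective (leadMap_surjective v _)).symm
      (leadMap v (D v + 1) f) = Submodule.Quotient.mk f := by
    rw [LinearEquiv.symm_apply_eq]
    rfl
  simp [residueToH1, this]
  rfl

theorem ker_residueToH1 : (residueToH1 v D).ker = (rrLead v D).range := by
  ext r
  constructor
  · intro hr
    obtain ⟨f, rfl⟩ := leadMap_surjective v (D v + 1) r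
    rw [LinearMap.mem_ker, residueToH1_leadMap, Submodule.Quotient.mk_eq_zero,
      Submodule.mem_sup] at hr
    obtain ⟨α, hα, β, hβ, hsum⟩ := hr
    obtain ⟨g, hg⟩ := mem_principalRepartitions_iff.mp hβ
    have hcomp : ∀ w : Place K F,
        (singleRep v (f : F) : Place K F → F) w = (α : Place K F → F) w + g := by
      intro w
      rw [← hsum]
      show (α : Place K F → F) w + (β : Place K F → F) w = _
      rw [hg]
    have hfg : ((f : F) - g) ∈ placeLevel v (D v) := by
      have := hcomp v
      rw [singleRep_apply_same] at this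
      rw [this, add_sub_cancel_right]
      exact hα v
    have hgmem : g ∈ riemannRochSpace (D + Finsupp.single v 1) := by
      intro w
      rcases eq_or_ne w v with rfl | hw
      · rw [Finsupp.add_apply, Finsupp.single_eq_same]
        have := Submodule.sub_mem _ f.2
          (show ((f : F) - g) ∈ placeLevel w (D w + 1) from
            hfg.trans (exp_le_exp.mpr (by omega)))
        rwa [sub_sub_cancel] at this
      · rw [Finsupp.add_apply, Finsupp.single_eq_of_ne hw, add_zero]
        have := hcomp w
        rw [singleRep_apply_of_ne hw] at this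
        have hg' : g = -((α : Place K F → F) w) := eq_neg_of_add_eq_zero_right this.symm
        rw [hg', Valuation.map_neg]
        exact hα w
    refine ⟨⟨g, hgmem⟩, ?_⟩
    rw [eq_comm, ← sub_eq_zero]
    show leadMap v (D v + 1) f - leadMap v (D v + 1) _ = 0
    rw [← map_sub, leadMap_eq_zero_iff, add_sub_cancel_right]
    exact hfg
  · rintro ⟨g, rfl⟩
    rw [LinearMap.mem_ker]
    show residueToH1 v D (leadMap v (D v + 1) _) = 0
    rw [residueToH1_leadMap, Submodule.Quotient.mk_eq_zero, Submodule.mem_sup]
    refine ⟨singleRep v (g : F) - constRep K (g : F), ?_, _,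
      constRep_mem_principalRepartitions (g : F), sub_add_cancel _ _⟩
    intro w
    show w.adicValuation ((singleRep v (g : F) : Place K F → F) w - g) ≤ _
    rcases eq_or_ne w v with rfl | hw
    · simp
    · rw [singleRep_apply_of_ne hw, zero_sub, Valuation.map_neg]
      have := g.2 w
      rwa [Finsupp.add_apply, Finsupp.single_eq_of_ne hw, add_zero] at this

theorem range_residueToH1 :
    (residueToH1 v D).range = (h1Map (le_add_single_one v D)).ker := by
  ext x
  constructor
  · rintro ⟨r, rfl⟩
    obtain ⟨f, rfl⟩ := leadMap_surjective v (D v + 1) r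
    rw [LinearMap.mem_ker, residueToH1_leadMap, h1Map_mk, Submodule.Quotient.mk_eq_zero]
    refine Submodule.mem_sup_left (singleRep_mem_repartitionsOf ?_)
    rw [Finsupp.add_apply, Finsupp.single_eq_same]
    exact f.2
  · intro hx
    obtain ⟨α, rfl⟩ := Submodule.Quotient.mk_surjective _ x
    rw [LinearMap.mem_ker, h1Map_mk, Submodule.Quotient.mk_eq_zero, Submodule.mem_sup] at hx
    obtain ⟨β, hβ, γ, hγ, rfl⟩ := hx
    have hb : (β : Place K F → F) v ∈ placeLevel v (D v + 1) := by
      have := hβ v
      rwa [Finsupp.add_apply, Finsupp.single_eq_same] at this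
    refine ⟨leadMap v (D v + 1) ⟨_, hb⟩, ?_⟩
    rw [residueToH1_leadMap, Submodule.Quotient.eq, Submodule.mem_sup]
    refine ⟨singleRep v ((β : Place K F → F) v) - β, ?_, -γ, neg_mem hγ, by abel⟩
    intro w
    show w.adicValuation ((singleRep v ((β : Place K F → F) v) : Place K F → F) w
      - (β : Place K F → F) w) ≤ _
    rcases eq_or_ne w v with rfl | hw
    · simp
    · rw [singleRep_apply_of_ne hw, zero_sub, Valuation.map_neg]
      have := hβ w
      rwa [Finsupp.add_apply, Finsupp.single_eq_of_ne hw, add_zero] at this

end Fermat.Agent.FF
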