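import Fermat.Agent.FF.Approximation
import Fermat.Agent.FF.RiemannRochBasic
import Fermat.Prelude.Def_AlgebraicCurve_IsCurveOver

/-!
# Zeros, poles and degree of a principal divisor
-/

noncomputable section

namespace Fermat.Agent.FF

open AlgebraicCurve IntermediateField Polynomial

variable {K F : Type*} [Field K] [Field F] [Algebra K F]

theorem aeval_sub_coeff_zero_mem_ordGE (v : Place K F) {x : F} (hx : 0 ≤ v.ord x) (p : K[X]) :
    aeval x p - algebraMap K F (p.coeff 0) ∈ ordGE v (v.ord x) := by
  nth_rewrite 1 [← X_mul_divX_add p]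
  rw [map_add, map_mul, aeval_X, aeval_C, add_sub_cancel_right]
  simpa using mul_mem_ordGE v (mem_ordGE_of_le v (le_refl (v.ord x)))
    (aeval_mem_ordGE_zero v (mem_ordGE_of_le v hx) (p.divX))

theorem residue_algebraMap_mul (v : Place K F) (c : K) (a : v.toValuationSubring) :
    IsLocalRing.residue _ (algebraMap K v.toValuationSubring c * a)
      = c • IsLocalRing.residue _ a := by
  rw [Algebra.smul_def, map_mul]
  rfl

/-- Key inequality: independent residues, counted with the order of `x`, are at most
`[F : K(x)]`. -/
theorem sum_ord_mul_card_le [IsFunctionField K F] {x : F} (hx : Transcendental K x)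
    (S : Finset (Place K F)) (hS : ∀ v ∈ S, 0 < v.ord x) (d : Place K F → ℕ)
    (s : ∀ v : Place K F, Fin (d v) → v.toValuationSubring)
    (hli : ∀ v ∈ S, LinearIndependent K fun j => IsLocalRing.residue _ (s v j)) :
    ∑ v ∈ S, v.ord x * d v ≤ Module.finrank K⟮x⟯ F := by
  classical
  choose t ht0 ht using fun v : Place K F => exists_ord_eq_one v
  let ι := (v : S) × Fin ((v : Place K F).ord x).toNat × Fin (d v)
  let tgt : ι → Place K F → F := fun i w =>
    if h : w = (i.1 : Place K F) then t i.1 ^ (i.2.1 : ℕ) * (s i.1 i.2.2 : F) else 0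
  have hb := fun i : ι => exists_sub_mem_ordGE S (tgt i) fun w => w.ord x
  choose b hb using hb
  have hli' : LinearIndependent K⟮x⟯ b := by
    refine linearIndependent_adjoin_of_coeff_zero hx b fun p hp => ?_
    rintro ⟨⟨v, hv⟩, a, j⟩
    have hx0 : 0 ≤ v.ord x := (hS v hv).le
    -- the relation reduced modulo `x` at `v`
    have h1 : ∑ i : ι, algebraMap K F ((p i).coeff 0) * tgt i v ∈ ordGE v (v.ord x) := by
      have htgt : ∀ i : ι, tgt i v ∈ ordGE v 0 := by
        intro i
        simp only [tgt]
        split_ifs with h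
        · subst h
          simpa using mul_mem_ordGE (i.1 : Place K F) (mem_ordGE_of_le _
            (show (0 : ℤ) ≤ (i.1 : Place K F).ord (t i.1 ^ (i.2.1 : ℕ)) by
              rw [ord_pow, ht]; simp)) ((mem_ordGE_zero _).mpr (s i.1 i.2.2).2)
        · exact zero_mem _
      have hbv : ∀ i : ι, b i ∈ ordGE v 0 := fun i => by
        have h := hb i v hv
        simpa using add_mem (ordGE_antitone v hx0 h) (htgt i)
      have hEq : ∑ i : ι, algebraMap K F ((p i).coeff 0) * tgt i v
          = ∑ i : ι, (algebraMap K F ((p i).coeff 0) * (tgt i v - b i)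
            - (aeval x (p i) - algebraMap K F ((p i).coeff 0)) * b i) := by
        rw [← sub_eq_zero, ← Finset.sum_sub_distrib]
        refine Eq.trans (Finset.sum_congr rfl fun i _ => ?_) hp
        ring
      rw [hEq]
      refine sum_mem fun i _ => sub_mem ?_ ?_
      · simpa using mul_mem_ordGE v (algebraMap_mem_ordGE_zero v ((p i).coeff 0))
          ((Submodule.neg_mem_iff _).mp (by simpa using hb i v hv) : tgt i v - b i ∈ _)
      · simpa using mul_mem_ordGE v (aeval_sub_coeff_zero_mem_ordGE v hx0 (p i)) (hbv i)
    set c : Fin (v.ord x).toNat → Fin (d v) → K := fun a j => (p ⟨⟨v, hv⟩, a, j⟩).coeff 0 with hc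
    let U : Fin (v.ord x).toNat → v.toValuationSubring := fun a =>
      ∑ j, algebraMap K v.toValuationSubring (c a j) * s v j
    have h2 : ∑ a' : Fin (v.ord x).toNat, t v ^ (a' : ℕ) * (U a' : F) ∈ ordGE v (v.ord x) := by
      convert h1 using 1
      rw [Fintype.sum_sigma, Finset.sum_eq_single (⟨v, hv⟩ : S) ?_ (by simp),
        Fintype.sum_prod_type]
      · refine Finset.sum_congr rfl fun a _ => ?_
        simp only [U, AddSubmonoidClass.coe_finsetSum, Finset.mul_sum]
        refine Finset.sum_congr rfl fun j _ => ?_
        simp [tgt, hc, mul_left_comm]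
      · intro w _ hw
        refine Finset.sum_eq_zero fun i _ => ?_
        have hvw : ¬ (v = (w : Place K F)) := fun h => hw (Subtype.ext h.symm)
        simp [tgt, hvw]
    have h3 : ∀ (n : ℕ) (a : Fin (v.ord x).toNat), (a : ℕ) = n → ∀ j, c a j = 0 := by
      intro n
      induction n using Nat.strong_induction_on with
      | _ n ih =>
        intro a ha
        have hrest : ∑ a' ∈ Finset.univ.erase a, t v ^ (a' : ℕ) * (U a' : F) ∈
            ordGE v ((n : ℤ) + 1) := by
          refine sum_mem fun a' ha' => ?_
          have hne : (a' : ℕ) ≠ n := fun h =>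
            (Finset.mem_erase.mp ha').1 (Fin.ext (h.trans ha.symm))
          rcases lt_or_gt_of_ne hne with hlt | hgt
          · simp [U, ih _ hlt a' rfl]
          · refine ordGE_antitone v (m := (n : ℤ) + 1) (n := (a' : ℕ) + 0) (by omega) ?_
            exact mul_mem_ordGE v (mem_ordGE_of_le v (by rw [ord_pow, ht]; simp))
              ((mem_ordGE_zero v).mpr (U a').2)
        have han : (n : ℤ) + 1 ≤ v.ord x := by
          have := a.2; omega
        have hUa : t v ^ n * (U a : F) ∈ ordGE v ((n : ℤ) + 1) := by
          rw [← ha]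
          have hsplit := Finset.add_sum_erase Finset.univ
            (fun a' : Fin (v.ord x).toNat => t v ^ (a' : ℕ) * (U a' : F)) (Finset.mem_univ a)
          rw [eq_sub_of_add_eq hsplit, ha]
          exact sub_mem (ordGE_antitone v han h2) hrest
        rw [mul_mem_ordGE_iff v (pow_ne_zero n (ht0 v)), ord_pow, ht, mul_one,
          add_sub_cancel_left] at hUa
        refine Fintype.linearIndependent_iff.mp (hli v hv) (c a) ?_
        rw [← (residue_eq_zero_iff v (U a).2).mpr hUa, Subtype.coe_eta, map_sum]
        exact Finset.sum_congr rfl fun j _ => (residue_algebraMap_mul v _ _).symm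
    exact h3 a a rfl j
  have := card_le_finrank_adjoin hx hli'
  simp only [ι, Fintype.card_sigma, Fintype.card_prod, Fintype.card_fin] at this
  rw [Finset.sum_coe_sort S (fun v => (v.ord x).toNat * d v)] at this
  calc ∑ v ∈ S, v.ord x * (d v : ℤ) = ((∑ v ∈ S, (v.ord x).toNat * d v : ℕ) : ℤ) := by
        push_cast
        exact Finset.sum_congr rfl fun v hv => by rw [Int.toNat_of_nonneg (hS v hv).le]
    _ ≤ _ := by exact_mod_cast this

theorem card_le_finrank_of_residue [IsFunctionField K F] (v : Place K F) {x : F}
    (hx : 0 < v.ord x) {n : ℕ} (f : Fin n → v.ResidueField) (hf : LinearIndependent K f) :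
    v.ord x * n ≤ Module.finrank K⟮x⟯ F := by
  classical
  choose g hg using fun i => IsLocalRing.residue_surjective (f i)
  let d : Place K F → ℕ := fun w => if w = v then n else 0
  have hd : d v = n := if_pos rfl
  let s : ∀ w : Place K F, Fin (d w) → w.toValuationSubring := fun w j =>
    if h : w = v then h ▸ g ⟨j, by simpa [d, h] using j.2⟩ else 0
  have := sum_ord_mul_card_le (transcendental_of_ord_ne_zero v hx.ne') {v}
    (fun w hw => by rw [Finset.mem_singleton.mp hw]; exact hx) d s (by
      intro w hw
      obtain rfl := Finset.mem_singleton.mp hw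
      have he : (fun j => IsLocalRing.residue _ (s w j)) = f ∘ (finCongr hd) := by
        funext j
        simp [s, hg]
        rfl
      rw [he]
      exact hf.comp _ (finCongr hd).injective)
  simpa [hd] using this

instance instFiniteResidueField [IsFunctionField K F] (v : Place K F) :
    Module.Finite K v.ResidueField := by
  obtain ⟨t, -, ht⟩ := exists_ord_eq_one v
  have hle : Module.rank K v.ResidueField ≤ (Module.finrank K⟮t⟯ F : ℕ) := by
    refine rank_le fun u hu => ?_
    have := card_le_finrank_of_residue v (x := t) (by omega) _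
      (hu.comp _ u.equivFin.symm.injective)
    rw [ht, one_mul] at this
    exact_mod_cast this
  exact Module.rank_lt_aleph0_iff.mp (hle.trans_lt (Cardinal.natCast_lt_aleph0))

instance instFiniteResidueClass [IsFunctionField K F] (v : Place K F) : v.FiniteResidue :=
  ⟨inferInstance⟩

theorem deg_pos [IsFunctionField K F] (v : Place K F) : 0 < v.deg := Module.finrank_pos

theorem deg_eq_one [IsFunctionField K F] [IsAlgClosed K] (v : Place K F) : v.deg = 1 :=
  v.deg_eq_one_of_isAlgClosed_of_finite

theorem sum_ord_mul_deg_le [IsFunctionField K F] {x : F} (hx : Transcendental K x)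
    (S : Finset (Place K F)) (hS : ∀ v ∈ S, 0 < v.ord x) :
    ∑ v ∈ S, v.ord x * v.deg ≤ Module.finrank K⟮x⟯ F := by
  choose s hs using fun (v : Place K F) (j : Fin v.deg) =>
    IsLocalRing.residue_surjective (Module.finBasis K v.ResidueField j)
  refine sum_ord_mul_card_le hx S hS _ s fun v _ => ?_
  simp only [hs]
  exact (Module.finBasis K v.ResidueField).linearIndependent

theorem finite_ord_pos [IsFunctionField K F] (f : F) :
    {v : Place K F | 0 < v.ord f}.Finite := by
  by_contra hinf
  obtain ⟨v, hv⟩ := Set.Infinite.nonempty hinf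
  obtain ⟨S, hS, hcard⟩ := Set.Infinite.exists_subset_card_eq hinf
    (Module.finrank K⟮f⟯ F + 1)
  have h := sum_ord_mul_deg_le (transcendental_of_ord_ne_zero v (ne_of_gt hv)) S fun w hw => hS hw
  have h2 : ∑ w ∈ S, (1 : ℤ) ≤ ∑ w ∈ S, w.ord f * w.deg := Finset.sum_le_sum fun w hw => by
    have h1 : 0 < w.ord f := hS hw
    have h2 : (0 : ℤ) < w.deg := by exact_mod_cast deg_pos w
    nlinarith
  simp [hcard] at h2
  omega

theorem finite_ord_ne_zero [IsFunctionField K F] (f : F) :
    {v : Place K F | v.ord f ≠ 0}.Finite := by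
  refine ((finite_ord_pos (K := K) f).union (finite_ord_pos (K := K) f⁻¹)).subset fun v hv => ?_
  simp only [Set.mem_union, Set.mem_ofPred_eq, v.ord_inv] at hv ⊢
  omega

/-- The divisor of zeros; the divisor of poles is `zeroDivisor K f⁻¹`. -/
def zeroDivisor (K : Type*) {F : Type*} [Field K] [Field F] [Algebra K F] [IsFunctionField K F]
    (f : F) : Divisor K F :=
  Finsupp.ofSupportFinite (fun v => max (v.ord f) 0)
    ((finite_ord_ne_zero f).subset fun v hv h0 => hv (by simp [h0]))

/-- The divisor of poles. -/
def poleDivisor (K : Type*) {F : Type*} [Field K] [Field F] [Algebra K F] [IsFunctionField K F]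
    (f : F) : Divisor K F := zeroDivisor K f⁻¹

@[simp]
theorem zeroDivisor_apply [IsFunctionField K F] (f : F) (v : Place K F) :
    zeroDivisor K f v = max (v.ord f) 0 := rfl

@[simp]
theorem poleDivisor_apply [IsFunctionField K F] (f : F) (v : Place K F) :
    poleDivisor K f v = max (-v.ord f) 0 := by
  rw [poleDivisor, zeroDivisor_apply, v.ord_inv]

theorem zeroDivisor_nonneg [IsFunctionField K F] (f : F) : 0 ≤ zeroDivisor K f :=
  fun v => by simp

theorem poleDivisor_nonneg [IsFunctionField K F] (f : F) : 0 ≤ poleDivisor K f :=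
  fun v => by simp

theorem degree_eq_sum (D : Divisor K F) :
    Divisor.degree D = ∑ v ∈ D.support, D v * v.deg := by
  simp [Divisor.degree, Finsupp.sum]

theorem degree_le_degree [IsFunctionField K F] {D E : Divisor K F} (h : D ≤ E) :
    Divisor.degree D ≤ Divisor.degree E := by
  classical
  rw [← sub_nonneg, ← map_sub, degree_eq_sum]
  refine Finset.sum_nonneg fun v _ => mul_nonneg ?_ (by positivity)
  rw [Finsupp.sub_apply, sub_nonneg]
  exact h v

theorem degree_zeroDivisor_le [IsFunctionField K F] {x : F} (hx : Transcendental K x) :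
    Divisor.degree (zeroDivisor K x) ≤ Module.finrank K⟮x⟯ F := by
  rw [degree_eq_sum]
  have hpos : ∀ v ∈ (zeroDivisor K x).support, 0 < v.ord x := fun v hv => by
    simp at hv; omega
  rw [Finset.sum_congr rfl fun v hv => show zeroDivisor K x v * (v.deg : ℤ) = v.ord x * v.deg by
    rw [zeroDivisor_apply, max_eq_left (hpos v hv).le]]
  exact sum_ord_mul_deg_le hx _ hpos

theorem adjoin_inv (x : F) : K⟮x⁻¹⟯ = K⟮x⟯ := by
  apply le_antisymm
  · rw [adjoin_simple_le_iff]; exact inv_mem (mem_adjoin_simple_self K x)
  · rw [adjoin_simple_le_iff]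
    simpa using inv_mem (mem_adjoin_simple_self K x⁻¹)

theorem finrank_adjoin_inv (x : F) :
    Module.finrank K⟮x⁻¹⟯ F = Module.finrank K⟮x⟯ F :=
  congrArg (fun L : IntermediateField K F => Module.finrank L F) (adjoin_inv x)

theorem transcendental_inv {x : F} (hx : Transcendental K x) : Transcendental K x⁻¹ :=
  fun h => hx (inv_inv x ▸ h.inv)

theorem mem_riemannRochSpace_zero_iff [IsFunctionField K F] {f : F} :
    f ∈ riemannRochSpace (0 : Divisor K F) ↔ IsAlgebraic K f := by
  rw [mem_riemannRochSpace_iff]
  refine ⟨fun h => isAlgebraic_of_forall_ord_nonneg fun v => ?_, fun h v => Or.inr ?_⟩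
  · rcases h v with h' | h'
    · simp [h']
    · simpa using h'
  · simp [ord_eq_zero_of_isAlgebraic v h]

theorem linearIndependent_of_isAlgebraic [IsFunctionField K F] {x : F} (hx : Transcendental K x)
    {ι : Type*} [Fintype ι] (a : ι → F) (ha : ∀ i, IsAlgebraic K (a i))
    (hli : LinearIndependent K a) : LinearIndependent K⟮x⟯ a := by
  refine linearIndependent_adjoin_of_coeff_zero hx a fun p hp => ?_
  obtain ⟨v, hv⟩ := exists_place_ord_pos (K := K) hx
  set c := ∑ i, (p i).coeff 0 • a i with hc
  have hmem : c ∈ ordGE v 1 := by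
    have heq : c = -∑ i, (aeval x (p i) - algebraMap K F ((p i).coeff 0)) * a i := by
      simp only [hc, sub_mul, Finset.sum_sub_distrib, hp, zero_sub, neg_neg, Algebra.smul_def]
    rw [heq]
    refine neg_mem (sum_mem fun i _ => ?_)
    refine ordGE_antitone v (n := v.ord x + 0) (by omega) (mul_mem_ordGE v
      (aeval_sub_coeff_zero_mem_ordGE v hv.le (p i)) (mem_ordGE_of_le v ?_))
    rw [ord_eq_zero_of_isAlgebraic v (ha i)]
  have halg : IsAlgebraic K c := (IsIntegral.sum _ fun i _ =>
    IsIntegral.smul _ (ha i).isIntegral).isAlgebraic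
  have hc0 : c = 0 := by
    rcases (mem_ordGE v).mp hmem with h | h
    · exact h
    · rw [ord_eq_zero_of_isAlgebraic v halg] at h; omega
  exact Fintype.linearIndependent_iff.mp hli _ hc0

instance instFiniteRiemannRochSpaceZero [IsFunctionField K F] :
    Module.Finite K (riemannRochSpace (0 : Divisor K F)) := by
  obtain ⟨x, hx, -⟩ := IsFunctionField.exists_transcendental (K := K) (F := F)
  have hle : Module.rank K (riemannRochSpace (0 : Divisor K F)) ≤ (Module.finrank K⟮x⟯ F : ℕ) := by
    refine rank_le fun u hu => ?_
    have hli := linearIndependent_of_isAlgebraic hx (fun i : u => ((i : _) : F))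
      (fun i => mem_riemannRochSpace_zero_iff.mp (Subtype.property _))
      (hu.map' _ (Submodule.ker_subtype _))
    simpa using card_le_finrank_adjoin hx hli
  exact Module.rank_lt_aleph0_iff.mp (hle.trans_lt Cardinal.natCast_lt_aleph0)

theorem finite_riemannRochSpace_add_single [IsFunctionField K F] (D : Divisor K F) (v : Place K F)
    [Module.Finite K (riemannRochSpace D)] :
    Module.Finite K (riemannRochSpace (D + Finsupp.single v 1)) ∧
      Module.finrank K (riemannRochSpace (D + Finsupp.single v 1))
        ≤ Module.finrank K (riemannRochSpace D) + v.deg := by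
  let L := riemannRochSpace (D + Finsupp.single v 1)
  let g : LinearMap.ker (rrLead v D) →ₗ[K] riemannRochSpace D :=
    (L.subtype.comp (LinearMap.ker (rrLead v D)).subtype).codRestrict _
      fun f => (rrLead_eq_zero_iff v D f.1).mp (LinearMap.mem_ker.mp f.2)
  have hg : Function.Injective g := fun a b h =>
    Subtype.ext (Subtype.ext (congrArg Subtype.val h :))
  have : Module.Finite K (LinearMap.ker (rrLead v D)) := Module.Finite.of_injective g hg
  have : Module.Finite K (L ⧸ LinearMap.ker (rrLead v D)) :=
    Module.Finite.equiv (rrLead v D).quotKerEquivRange.symm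
  have : Module.Finite K L :=
    Module.Finite.of_submodule_quotient (LinearMap.ker (rrLead v D))
  refine ⟨this, ?_⟩
  rw [← (rrLead v D).finrank_range_add_finrank_ker, add_comm]
  exact add_le_add (LinearMap.finrank_le_finrank_of_injective hg) (Submodule.finrank_le _)

theorem finite_and_finrank_riemannRochSpace_le [IsFunctionField K F] :
    ∀ (k : ℕ) (D : Divisor K F), 0 ≤ D → (∑ v ∈ D.support, (D v).toNat) = k →
      Module.Finite K (riemannRochSpace D) ∧
      (Module.finrank K (riemannRochSpace D) : ℤ)
        ≤ Divisor.degree D + Module.finrank K (riemannRochSpace (0 : Divisor K F))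
  | 0, D, hD, hk => by
    have : D = 0 := by
      ext v
      by_contra hv
      have h0 := hD v
      have h1 := (Finset.sum_eq_zero_iff.mp hk) v (Finsupp.mem_support_iff.mpr hv)
      simp at h0 hv
      omega
    subst this
    exact ⟨inferInstance, by simp⟩
  | k + 1, D, hD, hk => by
    classical
    obtain ⟨v, hv⟩ : D.support.Nonempty := Finset.nonempty_of_sum_ne_zero (f := fun v => (D v).toNat) (by rw [hk]; omega)
    have hv1 : 1 ≤ D v := by
      have h0 := hD v; have h1 := Finsupp.mem_support_iff.mp hv
      simp at h0; omega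
    set D' := D - Finsupp.single v 1 with hD'
    have hD'0 : 0 ≤ D' := fun w => by
      have h0 := hD w
      rcases eq_or_ne w v with rfl | hw
      · simp [hD', hv1]
      · simpa [hD', Finsupp.single_eq_of_ne hw] using h0
    have hk' : ∑ w ∈ D'.support, (D' w).toNat = k := by
      have hsub : D'.support ⊆ D.support := fun w hw => by
        rcases eq_or_ne w v with rfl | hwv
        · exact hv
        · rwa [Finsupp.mem_support_iff, hD', Finsupp.sub_apply, Finsupp.single_eq_of_ne hwv,
            sub_zero, ← Finsupp.mem_support_iff] at hw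
      rw [Finset.sum_subset hsub fun w _ hw => by simp [Finsupp.notMem_support_iff.mp hw],
        ← Finset.add_sum_erase _ _ hv]
      rw [← Finset.add_sum_erase _ _ hv] at hk
      have : ∑ w ∈ D.support.erase v, (D' w).toNat = ∑ w ∈ D.support.erase v, (D w).toNat :=
        Finset.sum_congr rfl fun w hw => by
          simp [hD', Finsupp.single_eq_of_ne (Finset.mem_erase.mp hw).1]
      rw [this]
      simp only [hD', Finsupp.sub_apply, Finsupp.single_eq_same]
      omega
    obtain ⟨hfin, hle⟩ := finite_and_finrank_riemannRochSpace_le k D' hD'0 hk'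
    obtain ⟨hfin', hle'⟩ := finite_riemannRochSpace_add_single D' v
    have hDv : D' + Finsupp.single v 1 = D := sub_add_cancel _ _
    rw [hDv] at hfin' hle'
    refine ⟨hfin', ?_⟩
    have : Divisor.degree D = Divisor.degree D' + v.deg := by simp [← hDv]
    omega

instance instFiniteRiemannRochSpace [IsFunctionField K F] (D : Divisor K F) :
    Module.Finite K (riemannRochSpace D) := by
  let E : Divisor K F := D.mapRange (fun n => max n 0) (by simp)
  have hE : 0 ≤ E := fun v => by simp [E]
  have hDE : riemannRochSpace D ≤ riemannRochSpace E :=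
    riemannRochSpace_mono fun v => by simp [E]
  have := (finite_and_finrank_riemannRochSpace_le _ E hE rfl).1
  exact Module.Finite.of_injective (Submodule.inclusion hDE) (Submodule.inclusion_injective hDE)

theorem finrank_riemannRochSpace_le [IsFunctionField K F] {D : Divisor K F} (hD : 0 ≤ D) :
    (Module.finrank K (riemannRochSpace D) : ℤ)
      ≤ Divisor.degree D + Module.finrank K (riemannRochSpace (0 : Divisor K F)) :=
  (finite_and_finrank_riemannRochSpace_le _ D hD rfl).2

/-- Over an algebraically closed field the only everywhere regular functions are constants. -/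
theorem mem_riemannRochSpace_zero_iff_mem_range [IsFunctionField K F] [IsAlgClosed K] {f : F} :
    f ∈ riemannRochSpace (0 : Divisor K F) ↔ f ∈ Set.range (algebraMap K F) := by
  rw [mem_riemannRochSpace_zero_iff]
  refine ⟨fun h => ?_, fun ⟨a, ha⟩ => ha ▸ isAlgebraic_algebraMap a⟩
  have := minpoly.degree_eq_one_iff (A := K) (x := f) |>.mp
    (IsAlgClosed.degree_eq_one_of_irreducible K (minpoly.irreducible h.isIntegral))
  simpa [RingHom.mem_range] using this

theorem finrank_riemannRochSpace_zero [IsFunctionField K F] [IsAlgClosed K] :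
    Module.finrank K (riemannRochSpace (0 : Divisor K F)) = 1 := by
  have h : riemannRochSpace (0 : Divisor K F) = Submodule.span K {(1 : F)} := by
    ext f
    rw [mem_riemannRochSpace_zero_iff_mem_range, Submodule.mem_span_singleton]
    exact exists_congr fun a => by rw [Algebra.smul_def, mul_one]
  rw [h, finrank_span_singleton one_ne_zero]

/-- Riemann's lower bound along the pole divisor of `x`. -/
theorem exists_le_finrank_riemannRochSpace_nsmul_poleDivisor [IsFunctionField K F] {x : F}
    (hx : Transcendental K x) : ∃ C : Divisor K F, 0 ≤ C ∧ ∀ r : ℕ,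
      (r + 1) * Module.finrank K⟮x⟯ F
        ≤ Module.finrank K (riemannRochSpace (r • poleDivisor K x + C)) := by
  have := finiteDimensional_adjoin hx
  let u := Module.finBasis K⟮x⟯ F
  let C : Divisor K F := ∑ i, poleDivisor K (u i)
  have hC0 : 0 ≤ C := Finset.sum_nonneg fun i _ => poleDivisor_nonneg _
  have hCu : ∀ i, poleDivisor K (u i) ≤ C := fun i =>
    Finset.single_le_sum (f := fun i => poleDivisor K (u i))
      (fun i _ => poleDivisor_nonneg _) (Finset.mem_univ i)
  refine ⟨C, hC0, fun r => ?_⟩
  let g : Fin (r + 1) × Fin (Module.finrank K⟮x⟯ F) → F := fun p => x ^ (p.1 : ℕ) * u p.2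
  have hmem : ∀ p, g p ∈ riemannRochSpace (r • poleDivisor K x + C) := by
    rintro ⟨j, i⟩
    rw [mem_riemannRochSpace_iff]
    intro v
    right
    have hx0 : x ≠ 0 := fun h => hx (h ▸ isAlgebraic_zero)
    simp only [g, v.ord_mul (pow_ne_zero _ hx0) (u.ne_zero i), ord_pow, Finsupp.add_apply,
      Finsupp.smul_apply, nsmul_eq_mul, poleDivisor_apply]
    have h1 := hCu i v
    rw [poleDivisor_apply] at h1
    have h2 : (j : ℤ) ≤ r := by have := j.2; omega
    have h3 : -((r : ℤ) * max (-v.ord x) 0) ≤ (j : ℤ) * v.ord x := by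
      have h4 : (j : ℤ) * max (-v.ord x) 0 ≤ r * max (-v.ord x) 0 :=
        mul_le_mul_of_nonneg_right h2 (le_max_right _ _)
      have h5 : -v.ord x ≤ max (-v.ord x) 0 := le_max_left _ _
      nlinarith [Int.natCast_nonneg (j : ℕ)]
    omega
  have hli : LinearIndependent K g := by
    rw [Fintype.linearIndependent_iff]
    intro c hc
    have hu := Fintype.linearIndependent_iff.mp u.linearIndependent
      (fun i => ∑ j, algebraMap K K⟮x⟯ (c (j, i)) * AdjoinSimple.gen K x ^ (j : ℕ)) (by
        rw [← hc, Fintype.sum_prod_type_right]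
        refine Finset.sum_congr rfl fun i _ => ?_
        simp [g, Finset.sum_mul, Algebra.smul_def, mul_assoc])
    rintro ⟨j, i⟩
    set p : K[X] := ∑ j : Fin (r + 1), Polynomial.C (c (j, i)) * X ^ (j : ℕ) with hp
    have hp0 : p = 0 := transcendental_iff.mp hx p (by
      simpa [hp, map_sum] using congrArg Subtype.val (hu i))
    have := congrArg (Polynomial.coeff · (j : ℕ)) hp0
    simpa [hp, finsetSum_coeff, coeff_C_mul, coeff_X_pow, Fin.val_inj] using this
  have hli' : LinearIndependent K fun p => (⟨g p, hmem p⟩ :
      riemannRochSpace (r • poleDivisor K x + C)) :=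
    LinearIndependent.of_comp (Submodule.subtype _) hli
  simpa using hli'.fintype_card_le_finrank

theorem degree_poleDivisor [IsFunctionField K F] {x : F} (hx : Transcendental K x) :
    Divisor.degree (poleDivisor K x) = Module.finrank K⟮x⟯ F := by
  refine le_antisymm ?_ ?_
  · rw [← finrank_adjoin_inv x]
    exact degree_zeroDivisor_le (transcendental_inv hx)
  · obtain ⟨C, hC, hr⟩ := exists_le_finrank_riemannRochSpace_nsmul_poleDivisor hx
    by_contra hlt
    push Not at hlt
    set d := Divisor.degree (poleDivisor K x)
    set n := Module.finrank K⟮x⟯ F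
    set r := (Divisor.degree C
      + Module.finrank K (riemannRochSpace (0 : Divisor K F))).toNat with hr'
    have h1 := finrank_riemannRochSpace_le (D := r • poleDivisor K x + C)
      (add_nonneg (nsmul_nonneg (poleDivisor_nonneg x) r) hC)
    have h2 : ((r + 1) * n : ℤ) ≤ Module.finrank K (riemannRochSpace (r • poleDivisor K x + C)) :=
      by exact_mod_cast hr r
    rw [map_add, map_nsmul, nsmul_eq_mul] at h1
    have h3 : (r : ℤ) * (d + 1) ≤ r * n := mul_le_mul_of_nonneg_left (by omega) (by positivity)
    have h4 := Int.self_le_toNat (Divisor.degree C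
      + Module.finrank K (riemannRochSpace (0 : Divisor K F)))
    rw [← hr'] at h4
    have h5 : 0 < (n : ℤ) := by
      have : 0 ≤ d := by simpa using degree_le_degree (poleDivisor_nonneg (K := K) x)
      omega
    nlinarith

theorem degree_zeroDivisor [IsFunctionField K F] {x : F} (hx : Transcendental K x) :
    Divisor.degree (zeroDivisor K x) = Module.finrank K⟮x⟯ F := by
  have := degree_poleDivisor (transcendental_inv hx)
  rwa [poleDivisor, inv_inv, finrank_adjoin_inv] at this

instance instHasPrincipalDivisors [IsFunctionField K F] : HasPrincipalDivisors K F := by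
  refine ⟨fun f hf => ⟨zeroDivisor K f - poleDivisor K f, fun v => ?_, ?_⟩⟩
  · rw [Finsupp.sub_apply, zeroDivisor_apply, poleDivisor_apply]
    omega
  · rw [map_sub]
    by_cases hx : IsAlgebraic K f
    · have h : zeroDivisor K f = 0 ∧ poleDivisor K f = 0 :=
        ⟨Finsupp.ext fun v => by simp [ord_eq_zero_of_isAlgebraic v hx],
         Finsupp.ext fun v => by simp [ord_eq_zero_of_isAlgebraic v hx]⟩
      simp [h.1, h.2]
    · rw [degree_zeroDivisor hx, degree_poleDivisor hx, sub_self]

theorem sum_ord_mul_deg_eq [IsFunctionField K F] {x : F} (hx : Transcendental K x)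
    {S : Finset (Place K F)} (hS : ∀ v, v ∈ S ↔ 0 < v.ord x) :
    ∑ v ∈ S, v.ord x * v.deg = Module.finrank K⟮x⟯ F := by
  rw [← degree_zeroDivisor hx, degree_eq_sum]
  refine (Finset.sum_congr ?_ fun v hv => ?_).symm
  · ext v
    rw [Finsupp.mem_support_iff, zeroDivisor_apply, hS]
    omega
  · rw [zeroDivisor_apply, max_eq_left ((hS v).mp hv).le]

end Fermat.Agent.FF
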