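import Fermat.Agent.FF.RiemannRochWeil
import Fermat.Agent.FF.Degree

/-!
# Riemann-Roch for function fields in one variable

Statements under the area bundle `[IsFunctionField K F]`.
-/

set_option autoImplicit false

noncomputable section

open AlgebraicCurve WithZero IntermediateField

namespace Fermat.Agent.FF

variable {K F : Type*} [Field K] [Field F] [Algebra K F] [IsFunctionField K F]

instance instNonemptyPlace : Nonempty (Place K F) :=
  let ⟨_, hx, _⟩ := IsFunctionField.exists_transcendental (K := K) (F := F)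
  let ⟨v, _⟩ := exists_place_ord_pos hx
  ⟨v⟩

instance instHasRiemannBound : HasRiemannBound K F := by
  obtain ⟨x, hx, -⟩ := IsFunctionField.exists_transcendental (K := K) (F := F)
  obtain ⟨C, hC, hlow⟩ := exists_le_finrank_riemannRochSpace_nsmul_poleDivisor (K := K) hx
  have hn : 0 < Module.finrank K⟮x⟯ F :=
    haveI := finiteDimensional_adjoin hx
    Module.finrank_pos
  have hdeg := degree_poleDivisor (K := K) hx
  refine ⟨⟨Divisor.degree C - Module.finrank K⟮x⟯ F, fun D => ?_⟩⟩
  obtain ⟨Dp, hDp, hDp0⟩ : ∃ Dp : Divisor K F, D ≤ Dp ∧ 0 ≤ Dp :=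
    ⟨D ⊔ 0, le_sup_left, le_sup_right⟩
  set r : ℕ := (Divisor.degree Dp).toNat with hr
  set G : Divisor K F := r • poleDivisor K x + C with hG
  have hdegG : Divisor.degree G = (r : ℤ) * Module.finrank K⟮x⟯ F + Divisor.degree C := by
    rw [hG, map_add, map_nsmul, hdeg, nsmul_eq_mul]
  have hlG : ((r : ℤ) + 1) * Module.finrank K⟮x⟯ F ≤ rrDim G := by exact_mod_cast hlow r
  have hmono := degree_sub_rrDim_mono
    (show G - Dp ≤ G from sub_le_self _ hDp0)
  rw [map_sub] at hmono
  have hnn := rrDegree_nonneg hDp0
  have hrn : (r : ℤ) + 1 ≤ ((r : ℤ) + 1) * Module.finrank K⟮x⟯ F :=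
    le_mul_of_one_le_right (by omega) (by omega)
  have hpos : 0 < rrDim (G - Dp) := by omega
  obtain ⟨f, E, hf, hE, hdE, hle⟩ := exists_le_of_rrDim_pos hpos
  have hDG : D ≤ G + E := hDp.trans (by
    intro v
    have := hle v
    simp only [Finsupp.add_apply, Finsupp.sub_apply, Finsupp.coe_zero, Pi.zero_apply] at this
    rw [Finsupp.add_apply]
    omega)
  have h1 := degree_sub_rrDim_mono hDG
  have h2 : rrDim (G + E) = rrDim G := by
    rw [← rrDim_sub_of_ord hf hE (G + E), add_sub_cancel_right]
  rw [h2, map_add, hdE, add_zero, hdegG] at h1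
  rw [add_mul, one_mul] at hlG
  omega

/-- `H¹(D)` is finite dimensional. -/
theorem finite_h1 (D : Divisor K F) : Module.Finite K (H1 D) := inferInstance

/-- Riemann-Roch with the cohomology of repartitions. -/
theorem finrank_riemannRochSpace_sub_h1 [IsAlgClosed K] (D : Divisor K F) :
    (Module.finrank K (riemannRochSpace D) : ℤ) - Module.finrank K (H1 D)
      = Divisor.degree D + 1 - genusFF K F := by
  have h := rrDim_sub_h1Dim D
  rw [rrDim_zero_eq_one] at h
  simpa using h

/-- Riemann's inequality. -/
theorem le_finrank_riemannRochSpace [IsAlgClosed K] (D : Divisor K F) :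
    Divisor.degree D + 1 - genusFF K F ≤ Module.finrank K (riemannRochSpace D) := by
  have := finrank_riemannRochSpace_sub_h1 D
  omega

/-- The Riemann-Roch theorem over an algebraically closed field. -/
theorem riemannRoch (K F : Type*) [Field K] [Field F] [Algebra K F] [IsFunctionField K F]
    [IsAlgClosed K] :
    ∃ W : Divisor K F, Divisor.degree W = 2 * (genusFF K F : ℤ) - 2 ∧
      Module.finrank K (riemannRochSpace W) = genusFF K F ∧
      (∀ D : Divisor K F,
        Module.finrank K (H1 D) = Module.finrank K (riemannRochSpace (W - D))) ∧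
      ∀ D : Divisor K F,
        (Module.finrank K (riemannRochSpace D) : ℤ) -
            Module.finrank K (riemannRochSpace (W - D))
          = Divisor.degree D + 1 - genusFF K F := by
  obtain ⟨W, h1, h2, h3, h4⟩ := exists_riemannRoch (K := K) (F := F)
  rw [rrDim_zero_eq_one] at h1
  refine ⟨W, by simpa using h1, h2, h3, fun D => ?_⟩
  have := h4 D
  rw [rrDim_zero_eq_one] at this
  simpa using this

theorem h1_eq_zero_of_lt_degree [IsAlgClosed K] {D : Divisor K F}
    (hD : 2 * (genusFF K F : ℤ) - 2 < Divisor.degree D) : Module.finrank K (H1 D) = 0 := by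
  obtain ⟨W, hW, -, h3, -⟩ := riemannRoch K F
  rw [h3, Submodule.finrank_eq_zero]
  exact riemannRochSpace_eq_bot (by rw [map_sub, hW]; omega)

/-- `l(D) = deg D + 1 - g` for `deg D > 2g - 2`. -/
theorem finrank_riemannRochSpace_of_lt_degree [IsAlgClosed K] {D : Divisor K F}
    (hD : 2 * (genusFF K F : ℤ) - 2 < Divisor.degree D) :
    (Module.finrank K (riemannRochSpace D) : ℤ) = Divisor.degree D + 1 - genusFF K F := by
  have h1 := finrank_riemannRochSpace_sub_h1 D
  rw [h1_eq_zero_of_lt_degree hD] at h1
  simpa using h1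

omit [IsFunctionField K F] in
/-- Linearly equivalent divisors have Riemann-Roch spaces of equal dimension. -/
theorem finrank_riemannRochSpace_sub_principal {E : Divisor K F}
    (hE : E ∈ Divisor.principal (K := K) (F := F)) (D : Divisor K F) :
    Module.finrank K (riemannRochSpace (D - E)) = Module.finrank K (riemannRochSpace D) :=
  let ⟨_, hf, hE⟩ := hE
  rrDim_sub_of_ord hf hE D

/-- A divisor of degree `2g - 2` with `l ≥ g` is linearly equivalent to any other one. -/
theorem sub_mem_principal_of_degree_eq [IsAlgClosed K] {W W' : Divisor K F}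
    (hd : Divisor.degree W = 2 * (genusFF K F : ℤ) - 2)
    (hl : genusFF K F ≤ Module.finrank K (riemannRochSpace W))
    (hd' : Divisor.degree W' = 2 * (genusFF K F : ℤ) - 2)
    (hl' : genusFF K F ≤ Module.finrank K (riemannRochSpace W')) :
    W - W' ∈ Divisor.principal (K := K) (F := F) := by
  obtain ⟨C, hC, -, -, hRR⟩ := riemannRoch K F
  have key : ∀ V : Divisor K F, Divisor.degree V = 2 * (genusFF K F : ℤ) - 2 →
      genusFF K F ≤ Module.finrank K (riemannRochSpace V) →
      C - V ∈ Divisor.principal (K := K) (F := F) := by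
    intro V hV hlV
    have hpos : 0 < rrDim (C - V) := by
      have := hRR V
      show 0 < Module.finrank K (riemannRochSpace (C - V))
      omega
    obtain ⟨f, E, hf, hE, hdE, hle⟩ := exists_le_of_rrDim_pos hpos
    have h0 : (0 : Divisor K F) = C - V + E :=
      eq_of_le_of_degree_le hle (by rw [map_add, map_sub, hdE, hC, hV, map_zero]; omega)
    have hneg : C - V = -E := eq_neg_of_add_eq_zero_left h0.symm
    rw [hneg]
    exact neg_mem (show E ∈ Divisor.principal (K := K) (F := F) from ⟨f, hf, hE⟩)
  have := sub_mem (key W' hd' hl') (key W hd hl)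
  rwa [sub_sub_sub_cancel_left] at this

/-- Strong approximation, repartition form. -/
theorem exists_approx_of_lt_degree [IsAlgClosed K] {D : Divisor K F}
    (hD : 2 * (genusFF K F : ℤ) - 2 < Divisor.degree D) (a : Place K F → F)
    (ha : {v : Place K F | ¬v.adicValuation (a v) ≤ 1}.Finite) :
    ∃ f : F, ∀ v : Place K F, v.adicValuation (a v - f) ≤ exp (D v) := by
  have : Subsingleton (H1 D) := Module.finrank_zero_iff.mp (h1_eq_zero_of_lt_degree hD)
  let α : ↥(repartitions K F) := ⟨a, mem_repartitions_of_finite ha⟩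
  have h0 : (Submodule.Quotient.mk α : H1 D) = 0 := Subsingleton.elim _ _
  rw [Submodule.Quotient.mk_eq_zero, Submodule.mem_sup] at h0
  obtain ⟨β, hβ, γ, hγ, hsum⟩ := h0
  obtain ⟨f, hf⟩ := mem_principalRepartitions_iff.mp hγ
  refine ⟨f, fun v => ?_⟩
  have : a v = (β : Place K F → F) v + f := by
    show (α : Place K F → F) v = _
    rw [← hsum]
    show (β : Place K F → F) v + (γ : Place K F → F) v = _
    rw [hf]
  rw [this, add_sub_cancel_right]
  exact hβ v

/-- Strong approximation: prescribe a function at finitely many places, regular away from them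
and one further place. -/
theorem exists_strongApproximation [IsAlgClosed K] (P : Place K F)
    (S : Finset (Place K F)) (hP : P ∉ S) (a : Place K F → F) (n : Place K F → ℤ) :
    ∃ f : F, (∀ v ∈ S, f - a v ∈ ordGE v (n v)) ∧
      ∀ v ∉ S, v ≠ P → f ∈ ordGE v 0 := by
  classical
  let D₀ : Divisor K F := ∑ v ∈ S, Finsupp.single v (-n v)
  have hD₀ : ∀ v, D₀ v = if v ∈ S then -n v else 0 := by
    intro v
    simp only [D₀, Finsupp.finsetSum_apply, Finsupp.single_apply]
    exact Finset.sum_ite_eq' S v _
  let m : ℤ := max (2 * (genusFF K F : ℤ) - 1 - Divisor.degree D₀) 0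
  let D : Divisor K F := D₀ + Finsupp.single P m
  have hdeg : 2 * (genusFF K F : ℤ) - 2 < Divisor.degree D := by
    have h1 : (1 : ℤ) ≤ P.deg := by exact_mod_cast placeDeg_pos P
    have h2 : m ≤ m * P.deg := le_mul_of_one_le_right (le_max_right _ _) h1
    simp only [D, map_add, Divisor.degree_single]
    omega
  obtain ⟨f, hf⟩ := exists_approx_of_lt_degree hdeg (fun v => if v ∈ S then a v else 0)
    (S.finite_toSet.subset fun v hv => by
      by_contra hvS
      simp [Finset.mem_coe.not.mp hvS] at hv)
  refine ⟨f, fun v hv => ?_, fun v hv hvP => ?_⟩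
  · have h := hf v
    have hvP : v ≠ P := fun h => hP (h ▸ hv)
    simp only [D, Finsupp.add_apply, hD₀, Finsupp.single_eq_of_ne hvP, hv, if_true,
      add_zero] at h
    show v.adicValuation (f - a v) ≤ exp (-n v)
    rwa [Valuation.map_sub_swap]
  · have h := hf v
    simp only [D, Finsupp.add_apply, hD₀, Finsupp.single_eq_of_ne hvP, hv, if_false,
      add_zero, zero_sub, Valuation.map_neg] at h
    show v.adicValuation f ≤ exp (-0)
    rwa [neg_zero]

end Fermat.Agent.FF
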