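import Fermat.Agent.FF.Basic

/-!
# Existence of places and weak approximation
-/

noncomputable section

namespace Fermat.Agent.FF

open AlgebraicCurve IntermediateField Polynomial

variable {K F : Type*} [Field K] [Field F] [Algebra K F]

theorem valuation_aeval_le_one (V : ValuationSubring F) (hK : ∀ a : K, algebraMap K F a ∈ V)
    {a : F} (ha : a ∈ V) (q : K[X]) : V.valuation (aeval a q) ≤ 1 := by
  rw [V.valuation_le_one_iff]
  have hle : Algebra.adjoin K {a} ≤ { V.toSubring with algebraMap_mem' := hK } :=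
    Algebra.adjoin_le (Set.singleton_subset_iff.mpr ha)
  exact hle (aeval_mem_adjoin_singleton K a)

theorem transcendental_of_valuation_lt_one (V : ValuationSubring F)
    (hK : ∀ a : K, algebraMap K F a ∈ V) {a : F} (ha0 : a ≠ 0) (ha : V.valuation a < 1) :
    Transcendental K a := by
  intro halg
  have hle : Algebra.adjoin K {a} ≤ { V.toSubring with algebraMap_mem' := hK } :=
    Algebra.adjoin_le (Set.singleton_subset_iff.mpr ((V.valuation_le_one_iff a).mp ha.le))
  have hinv : a⁻¹ ∈ V := hle (Subalgebra.inv_mem_of_algebraic (A := Algebra.adjoin K {a})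
    (x := ⟨a, Algebra.self_mem_adjoin_singleton K a⟩) halg)
  have h1 : V.valuation a⁻¹ ≤ 1 := (V.valuation_le_one_iff _).mpr hinv
  rw [map_inv₀, inv_le_one₀ (zero_lt_iff.mpr ((Valuation.ne_zero_iff _).mpr ha0))] at h1
  exact absurd ha (not_lt.mpr h1)

/-- Elements whose values are distinct and lie in `(v a, 1]` are independent over `K(a)`. -/
theorem linearIndependent_of_valuation (V : ValuationSubring F)
    (hK : ∀ a : K, algebraMap K F a ∈ V) {a : F} (hat : Transcendental K a)
    (ha : V.valuation a < 1) {ι : Type*} [Fintype ι] (b : ι → F)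
    (hinj : Function.Injective fun i => V.valuation (b i))
    (hlow : ∀ i, V.valuation a < V.valuation (b i)) (hhigh : ∀ i, V.valuation (b i) ≤ 1) :
    LinearIndependent K⟮a⟯ b := by
  classical
  refine linearIndependent_adjoin_of_coeff_zero hat b fun p hp i => ?_
  by_contra hi
  set A := Finset.univ.filter fun i => (p i).coeff 0 ≠ 0 with hA
  obtain ⟨m, hmA, hmax⟩ := A.exists_max_image (fun i => V.valuation (b i))
    ⟨i, by simp [hA, hi]⟩
  have hval : ∀ j, (p j).coeff 0 ≠ 0 → V.valuation (aeval a (p j)) = 1 := by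
    intro j hj
    have hunit : V.valuation (algebraMap K F ((p j).coeff 0)) = 1 := by
      apply le_antisymm ((V.valuation_le_one_iff _).mpr (hK _))
      have := (V.valuation_le_one_iff _).mpr (hK ((p j).coeff 0)⁻¹)
      rwa [map_inv₀, map_inv₀, inv_le_one₀ (zero_lt_iff.mpr
        ((Valuation.ne_zero_iff _).mpr (by simpa using hj)))] at this
    conv_lhs => rw [← X_mul_divX_add (p j)]
    rw [map_add, map_mul, aeval_X, aeval_C]
    rw [Valuation.map_add_eq_of_lt_right]
    · exact hunit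
    · rw [hunit, map_mul]
      exact (mul_le_of_le_one_right' (valuation_aeval_le_one V hK
        ((V.valuation_le_one_iff a).mp ha.le) _)).trans_lt ha
  have hmA' : (p m).coeff 0 ≠ 0 := by simpa [hA] using hmA
  have hsum := Valuation.map_sum_eq_of_lt (s := Finset.univ) (j := m) V.valuation
    (f := fun j => aeval a (p j) * b j) (Finset.mem_univ m) ?_
  · rw [hp, map_zero] at hsum
    rw [map_mul, hval m hmA', one_mul] at hsum
    exact absurd (hsum ▸ hlow m) (by simp)
  · intro j hj
    rw [map_mul, map_mul, hval m hmA', one_mul]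
    by_cases hj0 : (p j).coeff 0 = 0
    · obtain ⟨q, hq⟩ := X_dvd_iff.mpr hj0
      rw [hq, map_mul, aeval_X, map_mul]
      calc V.valuation a * V.valuation (aeval a q) * V.valuation (b j)
          ≤ V.valuation a := (mul_le_of_le_one_right' (hhigh j)).trans
            (mul_le_of_le_one_right' (valuation_aeval_le_one V hK
              ((V.valuation_le_one_iff a).mp ha.le) q))
        _ < V.valuation (b m) := hlow m
    · rw [hval j hj0, one_mul]
      refine lt_of_le_of_ne (hmax j (by simp [hA, hj0])) fun h => ?_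
      simp only [Finset.mem_sdiff, Finset.mem_singleton] at hj
      exact hj.2 (hinj h)

/-- Only finitely many values lie strictly between that of a nonzero nonunit and `1`. -/
theorem finite_valuation_between [IsFunctionField K F] (V : ValuationSubring F)
    (hK : ∀ a : K, algebraMap K F a ∈ V) {a : F} (ha0 : a ≠ 0) (ha : V.valuation a < 1) :
    {γ | V.valuation a < γ ∧ γ ≤ 1 ∧ ∃ b, V.valuation b = γ}.Finite := by
  have hat := transcendental_of_valuation_lt_one V hK ha0 ha
  by_contra hinf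
  obtain ⟨t, hts, htc⟩ := Set.Infinite.exists_subset_card_eq hinf
    (Module.finrank K⟮a⟯ F + 1)
  choose h1 h2 b hb using fun γ : t => hts γ.2
  have hli := linearIndependent_of_valuation V hK hat ha b
    (fun γ γ' h => Subtype.ext (by rw [← hb γ, ← hb γ']; exact h))
    (fun γ => (hb γ).symm ▸ h1 γ) (fun γ => (hb γ).symm ▸ h2 γ)
  have := card_le_finrank_adjoin hat hli
  rw [Fintype.card_coe, htc] at this
  omega

/-- Every nontrivial valuation subring of a function field containing the constants is a place. -/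
theorem isPrincipalIdealRing_valuationSubring [IsFunctionField K F] (V : ValuationSubring F)
    (hK : ∀ a : K, algebraMap K F a ∈ V) : IsPrincipalIdealRing V := by
  refine ⟨fun I => ?_⟩
  rcases eq_or_ne I ⊥ with rfl | hI
  · infer_instance
  rcases eq_or_ne I ⊤ with rfl | hI'
  · infer_instance
  obtain ⟨a, haI, ha0⟩ := Submodule.exists_mem_ne_zero_of_ne_bot hI
  have ha : V.valuation (a : F) < 1 := by
    refine lt_of_le_of_ne (V.valuation_le_one a) fun h => hI' ?_
    exact Ideal.eq_top_of_isUnit_mem I haI ((V.valuation_eq_one_iff a).mpr h)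
  set S := {γ | V.valuation (a : F) ≤ γ ∧ ∃ c ∈ I, V.valuation ((c : V) : F) = γ} with hS
  have hfin : S.Finite := by
    refine ((finite_valuation_between V hK (by simpa [ZeroMemClass.coe_eq_zero] using ha0)
      ha).insert (V.valuation (a : F))).subset ?_
    rintro γ ⟨hle, c, -, rfl⟩
    rcases eq_or_lt_of_le hle with h | h
    · exact Or.inl h.symm
    · exact Or.inr ⟨h, V.valuation_le_one c, _, rfl⟩
  obtain ⟨γ, ⟨hγa, c, hcI, rfl⟩, hmax⟩ :=
    hfin.exists_maximal ⟨V.valuation (a : F), le_rfl, a, haI, rfl⟩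
  refine ⟨c, le_antisymm (fun d hd => ?_) ((Ideal.span_singleton_le_iff_mem I).mpr hcI)⟩
  have hdc : V.valuation (d : F) ≤ V.valuation (c : F) := by
    rcases le_total (V.valuation (d : F)) (V.valuation (c : F)) with h | h
    · exact h
    · exact hmax ⟨hγa.trans h, d, hd, rfl⟩ h
  rcases eq_or_ne (c : F) 0 with hc0 | hc0
  · rw [hc0, map_zero, le_zero_iff, map_eq_zero] at hdc
    rw [show d = 0 from Subtype.ext hdc]
    exact Submodule.zero_mem _
  refine Ideal.mem_span_singleton.mpr ⟨⟨(d : F) / c, (V.valuation_le_one_iff _).mp ?_⟩, ?_⟩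
  · rw [map_div₀]
    exact div_le_one_of_le₀ hdc zero_le
  · ext
    simp [mul_div_cancel₀ _ hc0]

/-- The place of a nontrivial valuation subring containing the constants. -/
def placeOfValuationSubring [IsFunctionField K F] (V : ValuationSubring F)
    (hK : ∀ a : K, algebraMap K F a ∈ V) (hV : V ≠ ⊤) : Place K F :=
  ⟨V, hK, hV, isPrincipalIdealRing_valuationSubring V hK⟩

/-- A proper ideal of a subring containing the constants, with a nonzero element, has a centre. -/
theorem exists_place_of_ideal [IsFunctionField K F] {A : Subring F}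
    (hA : ∀ a : K, algebraMap K F a ∈ A) (I : Ideal A) (hI : I ≠ ⊤) {c : A} (hc : c ∈ I)
    (hc0 : c ≠ 0) :
    ∃ v : Place K F, (∀ a ∈ A, 0 ≤ v.ord a) ∧ ∀ b ∈ I, (b : F) ∈ ordGE v 1 := by
  obtain ⟨V, hAV, hIV⟩ := Ideal.image_subset_nonunits_valuationSubring I hI
  have hcV : V.valuation (c : F) < 1 := by
    have := hIV ⟨c, hc, rfl⟩
    rwa [SetLike.mem_coe, ValuationSubring.mem_nonunits_iff] at this
  have hV : V ≠ ⊤ := by
    rintro rfl
    have hcinv : (c : F)⁻¹ ∈ (⊤ : ValuationSubring F) := ValuationSubring.mem_top _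
    have h0 : (c : F) ≠ 0 := by simpa [ZeroMemClass.coe_eq_zero] using hc0
    have h1 := ((⊤ : ValuationSubring F).valuation_le_one_iff _).mpr hcinv
    rw [map_inv₀, inv_le_one₀ (zero_lt_iff.mpr ((Valuation.ne_zero_iff _).mpr h0))] at h1
    exact absurd hcV (not_lt.mpr h1)
  refine ⟨placeOfValuationSubring V (fun a => hAV (hA a)) hV,
    fun a ha => (mem_iff_ord_nonneg _).mp (hAV ha), fun b hb => ?_⟩
  have hbV : (b : F) ∈ V := hAV b.2
  rw [← residue_eq_zero_iff (placeOfValuationSubring V (fun a => hAV (hA a)) hV) hbV,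
    IsLocalRing.residue_eq_zero_iff, IsLocalRing.mem_maximalIdeal, mem_nonunits_iff]
  have hb' := hIV ⟨b, hb, rfl⟩
  rw [SetLike.mem_coe, ValuationSubring.mem_nonunits_iff] at hb'
  intro hu
  exact hb'.ne ((V.valuation_eq_one_iff ⟨(b : F), hbV⟩).mp hu)

theorem exists_place_ord_pos [IsFunctionField K F] {y : F} (hy : Transcendental K y) :
    ∃ v : Place K F, 0 < v.ord y := by
  set A := (Algebra.adjoin K {y}).toSubring
  have hyA : y ∈ A := Algebra.self_mem_adjoin_singleton K y
  have hI : Ideal.span {(⟨y, hyA⟩ : A)} ≠ ⊤ := by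
    rw [Ne, Ideal.span_singleton_eq_top]
    intro hu
    obtain ⟨⟨z, hz⟩, hyz⟩ := isUnit_iff_exists_inv.mp hu
    obtain ⟨p, rfl⟩ := (Algebra.adjoin_singleton_eq_range_aeval K y ▸ hz :
      z ∈ (aeval (R := K) y).range)
    have h1 : y * aeval y p = 1 := congrArg Subtype.val hyz
    have h2 : aeval y (X * p - 1 : K[X]) = 0 := by simp [h1]
    have h3 := congrArg (Polynomial.coeff · 0) (transcendental_iff.mp hy _ h2)
    simp at h3
  have hy0 : y ≠ 0 := fun h => hy (h ▸ isAlgebraic_zero)
  obtain ⟨v, -, hv⟩ := exists_place_of_ideal (A := A)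
    (fun a => (Algebra.adjoin K {y}).algebraMap_mem a) _ hI
    (Ideal.mem_span_singleton_self _) (fun h => hy0 (congrArg Subtype.val h))
  exact ⟨v, lt_of_lt_of_le one_pos
    (le_ord_of_mem_ordGE v (hv _ (Ideal.mem_span_singleton_self _)) hy0)⟩

theorem exists_place_ord_neg [IsFunctionField K F] {y : F} (hy : Transcendental K y) :
    ∃ v : Place K F, v.ord y < 0 := by
  obtain ⟨v, hv⟩ := exists_place_ord_pos (K := K) (y := y⁻¹)
    (fun h => hy (inv_inv y ▸ h.inv))
  exact ⟨v, by rw [v.ord_inv] at hv; omega⟩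

theorem isAlgebraic_of_forall_ord_nonneg [IsFunctionField K F] {y : F}
    (hy : ∀ v : Place K F, 0 ≤ v.ord y) : IsAlgebraic K y := by
  by_contra h
  obtain ⟨v, hv⟩ := exists_place_ord_neg (K := K) h
  exact absurd (hy v) (not_le.mpr hv)

/-! ## Weak approximation -/

theorem exists_ord_pos_and_neg {v w : Place K F} (h : v ≠ w) :
    ∃ z : F, z ≠ 0 ∧ 0 < v.ord z ∧ w.ord z < 0 := by
  obtain ⟨f, hfv, hfw⟩ := SetLike.not_le_iff_exists.mp (mt (ext_of_le v) h)
  obtain ⟨g, hgw, hgv⟩ := SetLike.not_le_iff_exists.mp (mt (ext_of_le w) h.symm)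
  rw [mem_iff_ord_nonneg] at hfv hfw hgv hgw
  have hf0 : f ≠ 0 := fun h0 => hfw (by simp [h0])
  have hg0 : g ≠ 0 := fun h0 => hgv (by simp [h0])
  exact ⟨f / g, div_ne_zero hf0 hg0, by rw [ord_div v hf0 hg0]; omega,
    by rw [ord_div w hf0 hg0]; omega⟩

theorem exists_ord_pos_and_forall_neg (v : Place K F) (S : Finset (Place K F)) (hv : v ∉ S) :
    ∃ z : F, z ≠ 0 ∧ 0 < v.ord z ∧ ∀ w ∈ S, w.ord z < 0 := by
  classical
  induction S using Finset.induction with
  | empty =>
    obtain ⟨t, ht0, ht⟩ := exists_ord_eq_one v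
    exact ⟨t, ht0, by omega, by simp⟩
  | insert w S hw ih =>
    obtain ⟨hvw, hvS⟩ : v ≠ w ∧ v ∉ S := by simpa using hv
    obtain ⟨z, hz0, hzv, hzS⟩ := ih hvS
    by_cases hzw : w.ord z < 0
    · exact ⟨z, hz0, hzv, by simpa [hzw] using hzS⟩
    obtain ⟨u, hu0, huv, huw⟩ := exists_ord_pos_and_neg hvw
    obtain ⟨r, hr⟩ : ∃ r : ℕ, r ∉ S.image (fun p => (p.ord z).natAbs) ∪ {0} ∪
        S.image (fun p => ((p.ord z).natAbs / (p.ord u).natAbs)) :=
      Infinite.exists_notMem_finset _
    simp only [Finset.mem_union, Finset.mem_image, Finset.mem_singleton, not_or, not_exists,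
      not_and] at hr
    have hrpos : 0 < (r : ℤ) := by exact_mod_cast Nat.pos_of_ne_zero hr.1.2
    have hur0 : u ^ r ≠ 0 := pow_ne_zero _ hu0
    have hwlt : w.ord (u ^ r) < 0 := by rw [ord_pow]; exact mul_neg_of_pos_of_neg hrpos huw
    have hwr := (add_ne_zero_and_ord_eq_of_lt w hur0 (g := z) (Or.inr (by omega)))
    rw [add_comm] at hwr
    refine ⟨z + u ^ r, hwr.1, ?_, ?_⟩
    · refine lt_of_lt_of_le (lt_min hzv ?_) (le_ord_add v hwr.1 (n := min (v.ord z) (v.ord (u^r)))
        (Or.inr (min_le_left _ _)) (Or.inr (min_le_right _ _)))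
      rw [ord_pow]; exact mul_pos hrpos huv
    · simp only [Finset.forall_mem_insert]
      refine ⟨by rw [hwr.2]; exact hwlt, fun p hp => ?_⟩
      rcases lt_trichotomy (p.ord z) (p.ord (u ^ r)) with h | h | h
      · rw [(add_ne_zero_and_ord_eq_of_lt p hz0 (Or.inr h)).2]; exact hzS p hp
      · exfalso
        rw [ord_pow] at h
        have hpu : p.ord u ≠ 0 := fun h0 => by
          rw [h0, mul_zero] at h; exact absurd (hzS p hp) (by omega)
        apply hr.2 p hp
        rw [h, Int.natAbs_mul, Int.natAbs_natCast,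
          Nat.mul_div_cancel _ (Int.natAbs_pos.mpr hpu)]
      · rw [add_comm, (add_ne_zero_and_ord_eq_of_lt p hur0 (Or.inr h)).2]
        exact h.trans (hzS p hp)

theorem exists_one_at_zero_elsewhere (v : Place K F) (S : Finset (Place K F)) (hv : v ∉ S)
    (N : ℕ) : ∃ e : F, e - 1 ∈ ordGE v N ∧ ∀ w ∈ S, e ∈ ordGE w N := by
  obtain ⟨z, hz0, hzv, hzS⟩ := exists_ord_pos_and_forall_neg v S hv
  rcases Nat.eq_zero_or_pos N with rfl | hN
  · refine ⟨1, by simp, fun w _ => mem_ordGE_of_le w (by simp)⟩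
  have hzN : z ^ N ≠ 0 := pow_ne_zero _ hz0
  have hN' : (0 : ℤ) < (N : ℤ) := by exact_mod_cast hN
  have h1 := add_ne_zero_and_ord_eq_of_lt v one_ne_zero (g := z ^ N)
    (Or.inr (by rw [v.ord_one, ord_pow]; exact mul_pos hN' hzv))
  refine ⟨(1 + z ^ N)⁻¹, ?_, fun w hw => ?_⟩
  · have : (1 + z ^ N)⁻¹ - 1 = -(z ^ N * (1 + z ^ N)⁻¹) := by field_simp [h1.1]; ring
    rw [this]
    refine neg_mem (mem_ordGE_of_le v ?_)
    rw [v.ord_mul hzN (inv_ne_zero h1.1), v.ord_inv, h1.2, v.ord_one, ord_pow]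
    nlinarith
  · have hlt : w.ord (z ^ N) < w.ord (1 : F) := by
      rw [w.ord_one, ord_pow]; exact mul_neg_of_pos_of_neg hN' (hzS w hw)
    have h2 := add_ne_zero_and_ord_eq_of_lt w hzN (g := 1) (Or.inr hlt)
    refine mem_ordGE_of_le w ?_
    rw [w.ord_inv, add_comm, h2.2, ord_pow]
    nlinarith [hzS w hw]

/-- Weak approximation. -/
theorem exists_sub_mem_ordGE (S : Finset (Place K F)) (a : Place K F → F) (n : Place K F → ℤ) :
    ∃ f : F, ∀ v ∈ S, f - a v ∈ ordGE v (n v) := by
  classical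
  set N : ℕ := (∑ v ∈ S, (n v).natAbs) + ∑ v ∈ S, ∑ w ∈ S, (v.ord (a w)).natAbs with hN
  choose e he1 he0 using fun v => exists_one_at_zero_elsewhere (K := K) v (S.erase v)
    (Finset.notMem_erase v S) N
  refine ⟨∑ w ∈ S, a w * e w, fun v hv => ?_⟩
  have hbig : ∀ w ∈ S, n v ≤ v.ord (a w) + N := by
    intro w hw
    have h1 := Finset.single_le_sum (f := fun v => (n v).natAbs) (fun _ _ => Nat.zero_le _) hv
    have h2 := Finset.single_le_sum (f := fun w => (v.ord (a w)).natAbs) (fun _ _ => Nat.zero_le _) hw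
    have h3 := Finset.single_le_sum (f := fun v => ∑ w ∈ S, (v.ord (a w)).natAbs)
      (fun _ _ => Nat.zero_le _) hv
    omega
  have key : ∀ w ∈ S, ∀ c : F, c ∈ ordGE v N → a w * c ∈ ordGE v (n v) := fun w hw c hc =>
    ordGE_antitone v (hbig w hw) (mul_mem_ordGE v (mem_ordGE_of_le v le_rfl) hc)
  rw [← Finset.add_sum_erase S _ hv,
    show a v * e v + ∑ w ∈ S.erase v, a w * e w - a v
      = a v * (e v - 1) + ∑ w ∈ S.erase v, a w * e w by ring]
  refine add_mem (key v hv _ (he1 v)) (sum_mem fun w hw => ?_)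
  have hw' := Finset.mem_erase.mp hw
  exact key w hw'.2 _ (he0 w v (Finset.mem_erase.mpr ⟨hw'.1.symm, hv⟩))

/-- An element with prescribed orders at finitely many places. -/
theorem exists_ord_eq (S : Finset (Place K F)) (n : Place K F → ℤ) :
    ∃ f : F, f ≠ 0 ∧ ∀ v ∈ S, v.ord f = n v := by
  choose t ht0 ht using fun v : Place K F => exists_ord_eq_one v
  rcases S.eq_empty_or_nonempty with rfl | ⟨v₀, hv₀⟩
  · exact ⟨1, one_ne_zero, by simp⟩
  obtain ⟨f, hf⟩ := exists_sub_mem_ordGE S (fun v => t v ^ n v) (fun v => n v + 1)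
  have key : ∀ v ∈ S, f ≠ 0 ∧ v.ord f = n v := by
    intro v hv
    have hord : v.ord (t v ^ n v) = n v := by rw [v.ord_zpow, ht, mul_one]
    have := add_ne_zero_and_ord_eq_of_lt v (zpow_ne_zero (n v) (ht0 v)) (g := f - t v ^ n v)
      ((mem_ordGE v).mp (hf v hv) |>.imp_right fun h => by omega)
    rwa [add_sub_cancel, hord] at this
  exact ⟨f, (key v₀ hv₀).1, fun v hv => (key v hv).2⟩

end Fermat.Agent.FF
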