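import Mathlib
import Fermat.Prelude.Def_AlgebraicCurve_DivisorClassGroup
import Fermat.Prelude.Def_AlgebraicCurve_Repartitions

/-!
# Function fields in one variable: hypothesis bundle and elementary lemmas on places
-/

noncomputable section

namespace Fermat.Agent.FF

open AlgebraicCurve IntermediateField Polynomial WithZero

section Bundle

variable (K F : Type*) [Field K] [Field F] [Algebra K F]

/-- `F/K` is a function field in one variable: `F` is finite over `K(x)` for some
transcendental `x`. Nothing is assumed on the characteristic or on `K`. -/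
class IsFunctionField : Prop where
  exists_transcendental : ∃ x : F, Transcendental K x ∧ FiniteDimensional K⟮x⟯ F

end Bundle

variable {K F : Type*} [Field K] [Field F] [Algebra K F]

theorem IsFunctionField.essFiniteType [IsFunctionField K F] : Algebra.EssFiniteType K F := by
  obtain ⟨x, -, hx⟩ := IsFunctionField.exists_transcendental (K := K) (F := F)
  have : Algebra.EssFiniteType K K⟮x⟯ :=
    IntermediateField.essFiniteType_iff.mpr ⟨{x}, by simp⟩
  exact Algebra.EssFiniteType.comp K K⟮x⟯ F

/-- A finitely generated field with a transcendental `x` over whose field everything is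
algebraic is a function field. -/
theorem IsFunctionField.of_isAlgebraic [Algebra.EssFiniteType K F] {x : F}
    (hx : Transcendental K x) [Algebra.IsAlgebraic K⟮x⟯ F] : IsFunctionField K F := by
  have : Algebra.EssFiniteType K⟮x⟯ F := Algebra.EssFiniteType.of_comp K K⟮x⟯ F
  exact ⟨x, hx, Algebra.finite_of_essFiniteType_of_isAlgebraic⟩

theorem IsFunctionField.trdeg_eq_one [IsFunctionField K F] : Algebra.trdeg K F = 1 := by
  obtain ⟨x, hx, hfin⟩ := IsFunctionField.exists_transcendental (K := K) (F := F)
  have hi : AlgebraicIndependent K ![x] := algebraicIndependent_iff_transcendental.mpr hx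
  have hr : Set.range ![x] = {x} := by simp
  have : Algebra.IsAlgebraic (IntermediateField.adjoin K (Set.range ![x])) F := by
    rw [hr]; infer_instance
  have : Algebra.IsAlgebraic (Algebra.adjoin K (Set.range ![x])) F :=
    IntermediateField.isAlgebraic_adjoin_iff_top.mp this
  have hb : IsTranscendenceBasis K ![x] := hi.isTranscendenceBasis_iff_isAlgebraic.mpr this
  simpa using hb.lift_cardinalMk_eq_trdeg.symm

/-- Over the field generated by any transcendental element the function field is finite. -/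
theorem finiteDimensional_adjoin [IsFunctionField K F] {y : F} (hy : Transcendental K y) :
    FiniteDimensional K⟮y⟯ F := by
  have hi : AlgebraicIndependent K ![y] := algebraicIndependent_iff_transcendental.mpr hy
  have hr : Set.range ![y] = {y} := by simp
  have hb : IsTranscendenceBasis K ![y] := hi.isTranscendenceBasis_of_lift_trdeg_le_of_finite
    (by simp [IsFunctionField.trdeg_eq_one (K := K) (F := F)])
  have := hb.isAlgebraic_field
  rw [hr] at this
  have : Algebra.EssFiniteType K F := IsFunctionField.essFiniteType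
  have : Algebra.EssFiniteType K⟮y⟯ F := Algebra.EssFiniteType.of_comp K K⟮y⟯ F
  exact Algebra.finite_of_essFiniteType_of_isAlgebraic

/-! ## Independence over `K(x)` from relations with polynomial coefficients -/

theorem linearIndependent_adjoin_of_polynomial {x : F} (hx : Transcendental K x) {ι : Type*}
    [Fintype ι] (b : ι → F)
    (h : ∀ p : ι → K[X], ∑ i, aeval x (p i) * b i = 0 → ∀ i, p i = 0) :
    LinearIndependent K⟮x⟯ b := by
  classical
  rw [Fintype.linearIndependent_iff]
  intro g hg i₀
  have hrep : ∀ i, ∃ r s : K[X], s ≠ 0 ∧ (g i : F) = aeval x r / aeval x s := by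
    intro i
    obtain ⟨r, s, hrs⟩ := (mem_adjoin_simple_iff (F := K) (g i : F)).mp (g i).2
    rcases eq_or_ne s 0 with rfl | hs
    · exact ⟨0, 1, one_ne_zero, by simp [hrs]⟩
    · exact ⟨r, s, hs, hrs⟩
  choose r s hs hrs using hrep
  have hsx : ∀ i, aeval x (s i) ≠ 0 := fun i h0 => hs i (transcendental_iff.mp hx _ h0)
  have key := h (fun i => r i * ∏ j ∈ Finset.univ.erase i, s j) ?_ i₀
  · have hr : r i₀ = 0 := by
      rcases mul_eq_zero.mp key with h' | h'
      · exact h'
      · exact absurd h' (Finset.prod_ne_zero_iff.mpr fun j _ => hs j)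
    apply Subtype.ext
    simp [hrs i₀, hr]
  · have hg' : ∑ i, (g i : F) * b i = 0 := by
      simpa [IntermediateField.smul_def] using hg
    calc ∑ i, aeval x (r i * ∏ j ∈ Finset.univ.erase i, s j) * b i
        = (∏ j, aeval x (s j)) * ∑ i, (g i : F) * b i := by
          rw [Finset.mul_sum]
          refine Finset.sum_congr rfl fun i hi => ?_
          rw [map_mul, map_prod, ← Finset.mul_prod_erase _ _ hi, hrs i]
          field_simp [hsx i]
      _ = 0 := by rw [hg', mul_zero]

/-- Relations can be normalised to have some nonzero constant coefficient. -/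
theorem linearIndependent_adjoin_of_coeff_zero {x : F} (hx : Transcendental K x) {ι : Type*}
    [Fintype ι] (b : ι → F)
    (h : ∀ p : ι → K[X], ∑ i, aeval x (p i) * b i = 0 → ∀ i, (p i).coeff 0 = 0) :
    LinearIndependent K⟮x⟯ b := by
  refine linearIndependent_adjoin_of_polynomial hx b fun p hp => ?_
  have main : ∀ k : ℕ, ∀ i, (X : K[X]) ^ k ∣ p i := by
    intro k
    induction k with
    | zero => simp
    | succ k ih =>
      choose q hq using ih
      have hx0 : x ^ k ≠ 0 := pow_ne_zero _ fun h0 => hx (h0 ▸ isAlgebraic_zero)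
      have hq0 : ∑ i, aeval x (q i) * b i = 0 := by
        apply (mul_eq_zero.mp ?_).resolve_left hx0
        rw [Finset.mul_sum, ← hp]
        exact Finset.sum_congr rfl fun i _ => by simp [hq i, mul_assoc]
      intro i
      obtain ⟨q', hq'⟩ := X_dvd_iff.mpr (h q hq0 i)
      exact ⟨q', by rw [hq i, hq', pow_succ, mul_assoc]⟩
  intro i
  by_contra hi
  have := natDegree_le_of_dvd (main ((p i).natDegree + 1) i) hi
  simp at this

theorem card_le_finrank_adjoin [IsFunctionField K F] {x : F} (hx : Transcendental K x)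
    {ι : Type*} [Fintype ι] {b : ι → F} (hb : LinearIndependent K⟮x⟯ b) :
    Fintype.card ι ≤ Module.finrank K⟮x⟯ F :=
  haveI := finiteDimensional_adjoin hx
  hb.fintype_card_le_finrank

/-! ## Elementary lemmas on places -/

section Places

variable (v : Place K F)

theorem adicValuation_mk_le_one (a : v.toValuationSubring) : v.adicValuation (a : F) ≤ 1 :=
  v.adicValuation_le_one_of_mem a.2

theorem mem_iff_ord_nonneg {f : F} : f ∈ v.toValuationSubring ↔ 0 ≤ v.ord f := by
  rcases eq_or_ne f 0 with rfl | hf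
  · simp
  constructor
  · intro h
    rcases v.adicValuation_le_one_iff.mp (v.adicValuation_le_one_of_mem h) with h' | h'
    · exact absurd h' hf
    · exact h'
  · intro h
    obtain ⟨π, hπ⟩ := IsDiscreteValuationRing.exists_irreducible v.toValuationSubring
    obtain ⟨u, hu⟩ := v.exists_unit_mul_zpow hf hπ
    rw [hu, ← Int.toNat_of_nonneg h, zpow_natCast]
    exact mul_mem (u : v.toValuationSubring).2 (pow_mem π.2 _)

theorem exists_ord_eq_one : ∃ t : F, t ≠ 0 ∧ v.ord t = 1 := by
  obtain ⟨π, hπ⟩ := IsDiscreteValuationRing.exists_irreducible v.toValuationSubring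
  exact ⟨π, by simpa [ZeroMemClass.coe_eq_zero] using hπ.ne_zero, v.ord_coe_irreducible hπ⟩

theorem ord_pow (f : F) (n : ℕ) : v.ord (f ^ n) = n * v.ord f := by
  rw [← zpow_natCast, v.ord_zpow]

theorem ord_div {f g : F} (hf : f ≠ 0) (hg : g ≠ 0) : v.ord (f / g) = v.ord f - v.ord g := by
  rw [div_eq_mul_inv, v.ord_mul hf (inv_ne_zero hg), v.ord_inv]; ring

theorem ord_prod {ι : Type*} (s : Finset ι) {f : ι → F} (hf : ∀ i ∈ s, f i ≠ 0) :
    v.ord (∏ i ∈ s, f i) = ∑ i ∈ s, v.ord (f i) := by
  classical
  induction s using Finset.induction with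
  | empty => simp
  | insert a s ha ih =>
    rw [Finset.prod_insert ha, Finset.sum_insert ha, v.ord_mul (hf a (by simp))
      (Finset.prod_ne_zero_iff.mpr fun i hi => hf i (by simp [hi])),
      ih fun i hi => hf i (by simp [hi])]

theorem ord_neg (f : F) : v.ord (-f) = v.ord f := by simp [Place.ord]

/-- `{f | ord_v f ≥ n}`, zero included. -/
def ordGE (n : ℤ) : Submodule K F where
  carrier := {f | v.adicValuation f ≤ exp (-n)}
  zero_mem' := by simp
  add_mem' {f g} hf hg := by
    show v.adicValuation (f + g) ≤ exp (-n)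
    exact (Valuation.map_add _ _ _).trans (max_le hf hg)
  smul_mem' c f hf := by
    show v.adicValuation (c • f) ≤ exp (-n)
    rw [Algebra.smul_def, map_mul]
    exact (mul_le_of_le_one_left' (v.adicValuation_algebraMap_le_one c)).trans hf

theorem mem_ordGE {f : F} {n : ℤ} : f ∈ ordGE v n ↔ f = 0 ∨ n ≤ v.ord f := by
  show v.adicValuation f ≤ exp (-n) ↔ _
  rw [v.adicValuation_le_exp_iff, neg_neg]

theorem mem_ordGE_of_le {f : F} {n : ℤ} (h : n ≤ v.ord f) : f ∈ ordGE v n :=
  (mem_ordGE v).mpr (Or.inr h)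

theorem le_ord_of_mem_ordGE {f : F} {n : ℤ} (h : f ∈ ordGE v n) (hf : f ≠ 0) : n ≤ v.ord f :=
  ((mem_ordGE v).mp h).resolve_left hf

theorem ordGE_antitone {m n : ℤ} (h : m ≤ n) : ordGE v n ≤ ordGE v m := fun f hf => by
  rcases (mem_ordGE v).mp hf with rfl | h'
  · exact zero_mem _
  · exact mem_ordGE_of_le v (h.trans h')

theorem mem_ordGE_zero {f : F} : f ∈ ordGE v 0 ↔ f ∈ v.toValuationSubring := by
  rw [mem_ordGE, mem_iff_ord_nonneg]
  exact ⟨fun h => h.elim (fun h => by simp [h]) id, Or.inr⟩

theorem mul_mem_ordGE {f g : F} {m n : ℤ} (hf : f ∈ ordGE v m) (hg : g ∈ ordGE v n) :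
    f * g ∈ ordGE v (m + n) := by
  show v.adicValuation (f * g) ≤ _
  rw [map_mul, neg_add, exp_add]
  exact mul_le_mul' hf hg

theorem mul_mem_ordGE_iff {f g : F} {n : ℤ} (hf : f ≠ 0) :
    f * g ∈ ordGE v n ↔ g ∈ ordGE v (n - v.ord f) := by
  rcases eq_or_ne g 0 with rfl | hg
  · simp
  rw [mem_ordGE, mem_ordGE, v.ord_mul hf hg]
  simp [hf, hg, add_comm]

theorem le_ord_add {f g : F} (h : f + g ≠ 0) {n : ℤ} (hf : f = 0 ∨ n ≤ v.ord f)
    (hg : g = 0 ∨ n ≤ v.ord g) : n ≤ v.ord (f + g) :=
  le_ord_of_mem_ordGE v (add_mem ((mem_ordGE v).mpr hf) ((mem_ordGE v).mpr hg)) h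

theorem add_ne_zero_and_ord_eq_of_lt {f g : F} (hf : f ≠ 0) (hg : g = 0 ∨ v.ord f < v.ord g) :
    f + g ≠ 0 ∧ v.ord (f + g) = v.ord f := by
  have hlt : v.adicValuation g < v.adicValuation f := by
    rw [v.adicValuation_eq_exp_neg_ord hf]
    rcases eq_or_ne g 0 with rfl | hg0
    · simp
    · rw [v.adicValuation_eq_exp_neg_ord hg0, exp_lt_exp]
      exact neg_lt_neg (hg.resolve_left hg0)
  have h := Valuation.map_add_eq_of_lt_left _ hlt
  refine ⟨fun h0 => v.adicValuation_ne_zero hf ?_, by simp [Place.ord, h]⟩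
  rw [← h, h0, map_zero]

theorem algebraMap_mem_ordGE_zero (a : K) : algebraMap K F a ∈ ordGE v 0 :=
  (mem_ordGE_zero v).mpr (v.algebraMap_mem' a)

theorem ord_algebraMap (a : K) : v.ord (algebraMap K F a) = 0 := by
  rcases eq_or_ne a 0 with rfl | ha
  · simp
  have h1 := (mem_iff_ord_nonneg v).mp (v.algebraMap_mem' a)
  have h2 := (mem_iff_ord_nonneg v).mp (v.algebraMap_mem' a⁻¹)
  rw [map_inv₀, v.ord_inv] at h2
  omega

theorem ord_eq_zero_of_isAlgebraic {f : F} (hf : IsAlgebraic K f) : v.ord f = 0 := by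
  have key : ∀ g : F, IsAlgebraic K g → 0 ≤ v.ord g → v.ord g ≤ 0 := by
    intro g hg h
    have hle : Algebra.adjoin K {g} ≤
        { v.toValuationSubring.toSubring with algebraMap_mem' := v.algebraMap_mem' } :=
      Algebra.adjoin_le (Set.singleton_subset_iff.mpr ((mem_iff_ord_nonneg v).mpr h))
    have := hle (Subalgebra.inv_mem_of_algebraic (A := Algebra.adjoin K {g})
      (x := ⟨g, Algebra.self_mem_adjoin_singleton K g⟩) hg)
    have := (mem_iff_ord_nonneg v).mp this
    rw [v.ord_inv] at this
    change 0 ≤ -v.ord g at this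
    omega
  rcases le_total 0 (v.ord f) with h | h
  · exact le_antisymm (key f hf h) h
  · have := key f⁻¹ hf.inv (by rw [v.ord_inv]; omega)
    rw [v.ord_inv] at this
    omega

theorem transcendental_of_ord_ne_zero {f : F} (hf : v.ord f ≠ 0) : Transcendental K f :=
  fun h => hf (ord_eq_zero_of_isAlgebraic v h)

theorem aeval_mem_ordGE_zero {x : F} (hx : x ∈ ordGE v 0) (p : K[X]) :
    aeval x p ∈ ordGE v 0 := by
  rw [mem_ordGE_zero] at hx ⊢
  have : aeval x p = ((aeval (⟨x, hx⟩ : v.toValuationSubring) p : v.toValuationSubring) : F) :=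
    (aeval_algebraMap_apply F (⟨x, hx⟩ : v.toValuationSubring) p)
  rw [this]
  exact Subtype.property _

theorem residue_eq_zero_iff {f : F} (hf : f ∈ v.toValuationSubring) :
    IsLocalRing.residue v.toValuationSubring ⟨f, hf⟩ = 0 ↔ f ∈ ordGE v 1 := by
  rw [IsLocalRing.residue_eq_zero_iff, IsLocalRing.mem_maximalIdeal, mem_nonunits_iff,
    ← v.adicValuation_coe_eq_one_iff, mem_ordGE]
  rcases eq_or_ne f 0 with rfl | h0
  · simp
  · rw [v.adicValuation_eq_exp_neg_ord h0, ← exp_zero, exp_injective.eq_iff]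
    have := (mem_iff_ord_nonneg v).mp hf
    simp only [h0, false_or]
    omega

theorem ext_of_le {w : Place K F} (h : v.toValuationSubring ≤ w.toValuationSubring) : v = w := by
  refine Place.ext (le_antisymm h fun f hf => ?_)
  by_contra hfv
  rw [mem_iff_ord_nonneg, not_le] at hfv
  obtain ⟨π, hπ⟩ := IsDiscreteValuationRing.exists_irreducible v.toValuationSubring
  have hπ0 : (π : F) ≠ 0 := by simpa [ZeroMemClass.coe_eq_zero] using hπ.ne_zero
  have hf0 : f ≠ 0 := fun h0 => by simp [h0] at hfv
  have hinv : (π : F)⁻¹ ∈ w.toValuationSubring := by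
    have hq : (π : F)⁻¹ / f ∈ v.toValuationSubring := by
      rw [mem_iff_ord_nonneg, ord_div v (inv_ne_zero hπ0) hf0, v.ord_inv,
        v.ord_coe_irreducible hπ]
      omega
    have := mul_mem (h hq) hf
    rwa [div_mul_cancel₀ _ hf0] at this
  apply w.ne_top'
  refine eq_top_iff.mpr fun g _ => ?_
  rcases eq_or_ne g 0 with rfl | hg0
  · exact zero_mem _
  have hk : g * (π : F) ^ (-v.ord g).toNat ∈ v.toValuationSubring := by
    rw [mem_iff_ord_nonneg, v.ord_mul hg0 (pow_ne_zero _ hπ0), ord_pow,
      v.ord_coe_irreducible hπ]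
    omega
  have := mul_mem (h hk) (pow_mem hinv (-v.ord g).toNat)
  rwa [mul_assoc, ← mul_pow, mul_inv_cancel₀ hπ0, one_pow, mul_one] at this

end Places

end Fermat.Agent.FF
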