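import Fermat.Agent.FF.Degree

/-!
# Affine models: places regular on `K[x]` and maximal ideals of normal rings

For a Dedekind model `B` with fraction field `F` the places regular on `B` are the height one
primes of `B`.  For a coordinate `x`, integrality over `K[x]` is regularity away from the poles
of `x`; over an algebraically closed `K` integral functions approximate arbitrarily at finitely
many finite places, and every `K`-point of the integral closure is centred at a place.
-/

set_option linter.unusedSectionVars false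
set_option linter.style.haveILetI false

noncomputable section

namespace Fermat.Agent.FF

open AlgebraicCurve IntermediateField Polynomial IsDedekindDomain

variable {K F : Type*} [Field K] [Field F] [Algebra K F]

theorem mem_valuationSubring_of_isIntegral {A : Type*} [CommRing A] [Algebra A F]
    (V : ValuationSubring F) (hA : ∀ a : A, algebraMap A F a ∈ V) {f : F}
    (hf : IsIntegral A f) : f ∈ V := by
  obtain ⟨p, hp, hroot⟩ := hf
  have hint : IsIntegral V f :=
    ⟨p.map ((algebraMap A F).codRestrict V.toSubring hA), hp.map _, by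
      rw [Polynomial.eval₂_map]; exact hroot⟩
  obtain ⟨g, hg⟩ := IsIntegrallyClosed.isIntegral_iff.mp hint
  exact hg ▸ g.2

theorem adjoin_le_toValuationSubring (v : Place K F) {x : F} (hx : 0 ≤ v.ord x) {a : F}
    (ha : a ∈ Algebra.adjoin K {x}) : a ∈ v.toValuationSubring :=
  (Algebra.adjoin_le (S := { v.toValuationSubring.toSubring with
      algebraMap_mem' := v.algebraMap_mem' })
    (Set.singleton_subset_iff.mpr ((mem_iff_ord_nonneg v).mpr hx))) ha

/-- An element lying in `A[f⁻¹]` is integral over `A`. -/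
theorem isIntegral_of_mem_adjoin_inv {A : Type*} [CommRing A] [Algebra A F] {f : F} (hf : f ≠ 0)
    (h : f ∈ Algebra.adjoin A {f⁻¹}) : IsIntegral A f := by
  rw [Algebra.adjoin_singleton_eq_range_aeval] at h
  obtain ⟨p, hp⟩ := h
  change aeval f⁻¹ p = f at hp
  let n := p.natDegree
  refine ⟨X ^ (n + 1) - p.reflect n, Polynomial.monic_X_pow_sub ?_, ?_⟩
  · refine lt_of_le_of_lt degree_le_natDegree (Nat.cast_lt.mpr (Nat.lt_succ_of_le ?_))
    exact natDegree_reflect_le.trans (max_le le_rfl le_rfl)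
  · letI : Invertible f⁻¹ := ⟨f, mul_inv_cancel₀ hf, inv_mul_cancel₀ hf⟩
    have h2 := eval₂_reflect_mul_pow (algebraMap A F) f⁻¹ n p le_rfl
    rw [show (⅟(f⁻¹) : F) = f from rfl, ← aeval_def, ← aeval_def, hp] at h2
    rw [← aeval_def, map_sub, map_pow, aeval_X, sub_eq_zero, pow_succ]
    calc f ^ n * f = f ^ n * (aeval f (reflect n p) * f⁻¹ ^ n) := by rw [h2]
      _ = aeval f (reflect n p) * (f⁻¹ * f) ^ n := by rw [mul_pow]; ring
      _ = aeval f (reflect n p) := by rw [inv_mul_cancel₀ hf, one_pow, mul_one]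

/-- Integral over `K[x]` = all poles are poles of `x`. -/
theorem isIntegral_adjoin_iff [IsFunctionField K F] (x f : F) :
    IsIntegral (Algebra.adjoin K {x}) f ↔ ∀ v : Place K F, 0 ≤ v.ord x → 0 ≤ v.ord f := by
  constructor
  · intro hf v hv
    exact (mem_iff_ord_nonneg v).mp (mem_valuationSubring_of_isIntegral v.toValuationSubring
      (fun a => adjoin_le_toValuationSubring v hv a.2) hf)
  · intro h
    by_contra hf
    have hf0 : f ≠ 0 := fun h0 => hf (h0 ▸ isIntegral_zero)
    let A := Algebra.adjoin (Algebra.adjoin K {x}) ({f⁻¹} : Set F)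
    have hxA : x ∈ A :=
      A.algebraMap_mem ⟨x, Algebra.self_mem_adjoin_singleton K x⟩
    have hgA : f⁻¹ ∈ A := Algebra.self_mem_adjoin_singleton _ _
    have hI : Ideal.span {(⟨f⁻¹, hgA⟩ : A.toSubring)} ≠ ⊤ := by
      rw [Ne, Ideal.span_singleton_eq_top]
      intro hu
      obtain ⟨⟨c, hc⟩, hfc⟩ := isUnit_iff_exists_inv.mp hu
      have h1 : f⁻¹ * c = 1 := congrArg Subtype.val hfc
      rw [inv_mul_eq_one₀ hf0] at h1
      subst h1
      exact hf (isIntegral_of_mem_adjoin_inv hf0 hc)
    obtain ⟨v, hv, hv1⟩ := exists_place_of_ideal (K := K) (A := A.toSubring)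
      (fun a => A.algebraMap_mem (algebraMap K (Algebra.adjoin K {x}) a)) _ hI
      (Ideal.mem_span_singleton_self _) (fun h0 => inv_ne_zero hf0 (congrArg Subtype.val h0))
    have h1 := le_ord_of_mem_ordGE v (hv1 _ (Ideal.mem_span_singleton_self _)) (inv_ne_zero hf0)
    rw [v.ord_inv] at h1
    have h2 := h v (hv x hxA)
    omega

/-- The same, for the evaluation homomorphism at `x`. -/
theorem isIntegralElem_aeval_iff [IsFunctionField K F] (x f : F) :
    (aeval (R := K) x).toRingHom.IsIntegralElem f ↔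
      ∀ v : Place K F, 0 ≤ v.ord x → 0 ≤ v.ord f := by
  rw [← isIntegral_adjoin_iff]
  have hmem : ∀ p : K[X], aeval x p ∈ Algebra.adjoin K {x} :=
    fun _ => aeval_mem_adjoin_singleton K x
  constructor
  · rintro ⟨p, hp, hroot⟩
    refine ⟨p.map ((aeval (R := K) x).toRingHom.codRestrict (Algebra.adjoin K {x}).toSubring
      hmem), hp.map _, ?_⟩
    rw [Polynomial.eval₂_map]
    exact hroot
  · rintro ⟨p, hp, hroot⟩
    let e : K[X] →+* Algebra.adjoin K {x} :=
      (aeval (R := K) x).toRingHom.codRestrict (Algebra.adjoin K {x}).toSubring hmem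
    have hsurj : Function.Surjective e := fun a => by
      obtain ⟨q, hq⟩ := (Algebra.adjoin_singleton_eq_range_aeval K x ▸ a.2 :
        (a : F) ∈ (aeval (R := K) x).range)
      exact ⟨q, Subtype.ext hq⟩
    obtain ⟨q, hq, -, hqm⟩ := Polynomial.lifts_and_natDegree_eq_and_monic (f := e)
      ((Polynomial.lifts_iff_coeff_lifts p).mpr fun n => hsurj (p.coeff n)) hp
    refine ⟨q, hqm, ?_⟩
    rw [← hq, Polynomial.eval₂_map] at hroot
    exact hroot

section Model

variable (B : Type*) [CommRing B] [IsDedekindDomain B] [Algebra K B] [Algebra B F]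
  [IsScalarTower K B F] [IsFractionRing B F]

theorem ord_ofHeightOneSpectrum (w : HeightOneSpectrum B) (f : F) :
    (Place.ofHeightOneSpectrum (K := K) w : Place K F).ord f
      = -(WithZero.log (w.valuation F f)) := by
  set v : Place K F := Place.ofHeightOneSpectrum w with hv
  rcases eq_or_ne f 0 with rfl | hf
  · simp
  have hmem : ∀ g : F, g ∈ v.toValuationSubring ↔ w.valuation F g ≤ 1 := fun g =>
    Valuation.mem_valuationSubring_iff _ _
  have hunit : ∀ g : F, g ≠ 0 → w.valuation F g = 1 → v.ord g = 0 := fun g hg h1 => by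
    have h2 := (mem_iff_ord_nonneg v).mp ((hmem g).mpr h1.le)
    have h3 := (mem_iff_ord_nonneg v).mp ((hmem g⁻¹).mpr (by rw [map_inv₀, h1, inv_one]))
    rw [v.ord_inv] at h3
    omega
  obtain ⟨π, hπ⟩ := w.valuation_exists_uniformizer F
  have hπ0 : π ≠ 0 := fun h0 => by rw [h0, map_zero] at hπ; exact WithZero.zero_ne_coe hπ
  have key : ∀ g : F, g ≠ 0 → v.ord g = -(WithZero.log (w.valuation F g)) * v.ord π := by
    intro g hg
    set n := -(WithZero.log (w.valuation F g))
    have hg' : w.valuation F (g * (π ^ n)⁻¹) = 1 := by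
      rw [map_mul, map_inv₀, map_zpow₀, hπ, show (WithZero.exp (-1 : ℤ)) ^ n = WithZero.exp (-n) by
        rw [← WithZero.exp_zsmul]; simp, show WithZero.exp (-n) = w.valuation F g by
        rw [neg_neg, WithZero.exp_log ((Valuation.ne_zero_iff _).mpr hg)]]
      exact mul_inv_cancel₀ ((Valuation.ne_zero_iff _).mpr hg)
    have h1 := hunit _ (mul_ne_zero hg (inv_ne_zero (zpow_ne_zero _ hπ0))) hg'
    rw [v.ord_mul hg (inv_ne_zero (zpow_ne_zero _ hπ0)), v.ord_inv, v.ord_zpow] at h1
    omega
  obtain ⟨t, ht0, ht⟩ := exists_ord_eq_one v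
  have hπnn : 0 ≤ v.ord π := (mem_iff_ord_nonneg v).mp ((hmem π).mpr (by
    rw [hπ, ← WithZero.exp_zero]; exact WithZero.exp_le_exp.mpr (by omega)))
  have h := key t ht0
  rw [ht] at h
  rcases Int.eq_one_or_neg_one_of_mul_eq_one' h.symm with ⟨-, h'⟩ | ⟨-, h'⟩
  · rw [key f hf, h', mul_one]
  · omega

/-- The prime of `B` cut out by a place regular on it. -/
def placeCentre (v : {v : Place K F // ∀ b : B, algebraMap B F b ∈ v.toValuationSubring}) :
    HeightOneSpectrum B where
  asIdeal := (IsLocalRing.maximalIdeal v.1.toValuationSubring).comap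
    ((algebraMap B F).codRestrict v.1.toValuationSubring.toSubring v.2)
  isPrime := Ideal.comap_isPrime _ _
  ne_bot := by
    intro hbot
    have h0 : ∀ b : B, b ≠ 0 → v.1.ord (algebraMap B F b) = 0 := by
      intro b hb
      by_contra hne
      have h1 : (⟨algebraMap B F b, v.2 b⟩ : v.1.toValuationSubring) ∈
          IsLocalRing.maximalIdeal v.1.toValuationSubring := by
        rw [← IsLocalRing.residue_eq_zero_iff, residue_eq_zero_iff]
        exact mem_ordGE_of_le v.1 (by
          have := (mem_iff_ord_nonneg v.1).mp (v.2 b)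
          omega)
      have : b ∈ (⊥ : Ideal B) := hbot ▸ Ideal.mem_comap.mpr h1
      exact hb this
    obtain ⟨t, ht0, ht⟩ := exists_ord_eq_one v.1
    obtain ⟨a, c, hc, rfl⟩ := IsFractionRing.div_surjective (A := B) t
    have hc0 : c ≠ 0 := nonZeroDivisors.ne_zero hc
    have ha0 : a ≠ 0 := by rintro rfl; simp at ht0
    rw [ord_div v.1 (by simpa using ha0) (by simpa using hc0), h0 a ha0, h0 c hc0] at ht
    omega

theorem mem_placeCentre_iff
    (v : {v : Place K F // ∀ b : B, algebraMap B F b ∈ v.toValuationSubring}) (b : B) :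
    b ∈ (placeCentre B v).asIdeal ↔ algebraMap B F b ∈ ordGE v.1 1 := by
  show (⟨algebraMap B F b, v.2 b⟩ : v.1.toValuationSubring) ∈ IsLocalRing.maximalIdeal _ ↔ _
  rw [← IsLocalRing.residue_eq_zero_iff, residue_eq_zero_iff]

theorem placeCentre_ofHeightOneSpectrum (w : HeightOneSpectrum B)
    (hw : ∀ b : B, algebraMap B F b ∈
      (Place.ofHeightOneSpectrum (K := K) w : Place K F).toValuationSubring) :
    placeCentre B ⟨_, hw⟩ = w := by
  refine HeightOneSpectrum.ext (Ideal.ext fun b => ?_)
  rw [mem_placeCentre_iff, mem_ordGE, ← w.valuation_lt_one_iff_mem (K := F)]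
  change _ ↔ w.valuation F (algebraMap B F b) < 1
  rcases eq_or_ne (algebraMap B F b) 0 with h0 | h0
  · simp [h0]
  · simp only [h0, false_or, ord_ofHeightOneSpectrum]
    rw [← WithZero.log_lt_log ((Valuation.ne_zero_iff _).mpr h0) one_ne_zero, WithZero.log_one]
    omega

theorem eq_ofHeightOneSpectrum_placeCentre
    (v : {v : Place K F // ∀ b : B, algebraMap B F b ∈ v.toValuationSubring}) :
    v.1 = Place.ofHeightOneSpectrum (placeCentre B v) := by
  refine (ext_of_le (Place.ofHeightOneSpectrum (placeCentre B v)) fun f hf => ?_).symm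
  rw [Place.ofHeightOneSpectrum_toValuationSubring,
    ← HeightOneSpectrum.valuationSubringAtPrime_eq_valuationSubring (K := F)] at hf
  obtain ⟨a, s, hs, rfl⟩ := hf
  have hs0 : s ≠ 0 := fun h => hs (h ▸ Ideal.zero_mem _)
  have hs' : ¬ algebraMap B F s ∈ ordGE v.1 1 := fun h => hs ((mem_placeCentre_iff B v s).mpr h)
  have hnn := (mem_iff_ord_nonneg v.1).mp (v.2 s)
  rw [mem_ordGE, not_or] at hs'
  rw [mem_iff_ord_nonneg]
  rcases eq_or_ne (algebraMap B F a) 0 with h0 | h0
  · simp [h0]
  · rw [v.1.ord_mul h0 (inv_ne_zero hs'.1), v.1.ord_inv]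
    have := (mem_iff_ord_nonneg v.1).mp (v.2 a)
    omega

/-- Places regular on the Dedekind model `B` are its height one primes. -/
def placeEquivHeightOne :
    {v : Place K F // ∀ b : B, algebraMap B F b ∈ v.toValuationSubring} ≃
      HeightOneSpectrum B where
  toFun := placeCentre B
  invFun w := ⟨Place.ofHeightOneSpectrum w, fun b =>
    (Valuation.mem_valuationSubring_iff _ _).mpr (w.valuation_le_one b)⟩
  left_inv v := Subtype.ext (eq_ofHeightOneSpectrum_placeCentre B v).symm
  right_inv w := placeCentre_ofHeightOneSpectrum B w _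

theorem placeEquivHeightOne_symm_eq (w : HeightOneSpectrum B) :
    ((placeEquivHeightOne (K := K) (F := F) B).symm w : Place K F)
      = Place.ofHeightOneSpectrum w := rfl

theorem mem_placeEquivHeightOne_iff
    (v : {v : Place K F // ∀ b : B, algebraMap B F b ∈ v.toValuationSubring}) (b : B) :
    b ∈ ((placeEquivHeightOne B) v).asIdeal ↔ algebraMap B F b ∈ ordGE v.1 1 :=
  mem_placeCentre_iff B v b

theorem mem_range_iff_forall_ord_nonneg (f : F) :
    f ∈ Set.range (algebraMap B F) ↔
      ∀ v : Place K F, (∀ b : B, algebraMap B F b ∈ v.toValuationSubring) → 0 ≤ v.ord f := by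
  constructor
  · rintro ⟨b, rfl⟩ v hv
    exact (mem_iff_ord_nonneg v).mp (hv b)
  · intro h
    exact HeightOneSpectrum.mem_integers_of_valuation_le_one F f fun w =>
      (Valuation.mem_valuationSubring_iff _ _).mp
        ((mem_iff_ord_nonneg _).mpr (h (Place.ofHeightOneSpectrum w) fun b =>
          (Valuation.mem_valuationSubring_iff _ _).mpr (w.valuation_le_one b)))

end Model

section Coordinate

variable [IsFunctionField K F] [IsAlgClosed K]

/-- The value of a function regular at a place, over an algebraically closed field. -/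
theorem exists_sub_algebraMap_mem_ordGE (v : Place K F) {f : F} (hf : 0 ≤ v.ord f) :
    ∃ c : K, f - algebraMap K F c ∈ ordGE v 1 := by
  haveI : Algebra.IsIntegral K v.ResidueField := Algebra.IsIntegral.of_finite K v.ResidueField
  obtain ⟨c, hc⟩ := (IsAlgClosed.algebraMap_bijective_of_isIntegral (k := K)
    (K := v.ResidueField)).2 (IsLocalRing.residue _ ⟨f, (mem_iff_ord_nonneg v).mpr hf⟩)
  have hmem : f - algebraMap K F c ∈ v.toValuationSubring :=
    sub_mem ((mem_iff_ord_nonneg v).mpr hf) (v.algebraMap_mem' c)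
  refine ⟨c, (residue_eq_zero_iff v hmem).mp ?_⟩
  rw [show (⟨f - algebraMap K F c, hmem⟩ : v.toValuationSubring)
    = ⟨f, (mem_iff_ord_nonneg v).mpr hf⟩ - algebraMap K v.toValuationSubring c from rfl,
    map_sub, sub_eq_zero, ← hc]
  rfl

/-- Approximation by functions integral over `K[x]` at finitely many finite places. -/
theorem exists_integral_sub_mem_ordGE {x : F} (hx : Transcendental K x) (S : Finset (Place K F))
    (hS : ∀ v ∈ S, 0 ≤ v.ord x) (a : Place K F → F) (ha : ∀ v ∈ S, 0 ≤ v.ord (a v)) (m : ℕ) :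
    ∃ f : F, (∀ v : Place K F, 0 ≤ v.ord x → 0 ≤ v.ord f) ∧
      ∀ v ∈ S, f - a v ∈ ordGE v m := by
  classical
  choose c hc using fun v : {v : Place K F // v ∈ S} =>
    exists_sub_algebraMap_mem_ordGE v.1 (hS v v.2)
  let V : Finset K := Finset.univ.image c
  have hfin : ∀ b : K, {w : Place K F | 0 < w.ord (x - algebraMap K F b)}.Finite :=
    fun b => finite_ord_pos _
  let T : Finset (Place K F) := S ∪ V.biUnion fun b => (hfin b).toFinset
  obtain ⟨f₀, hf₀⟩ := exists_sub_mem_ordGE T (fun v => if v ∈ S then a v else 0) (fun _ => (m : ℤ))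
  have hT : ∀ v ∈ T, f₀ ∈ ordGE v 0 := by
    intro v hv
    have h1 := ordGE_antitone v (Int.natCast_nonneg m) (hf₀ v hv)
    have h2 : (if v ∈ S then a v else 0) ∈ ordGE v 0 := by
      split_ifs with h
      · exact mem_ordGE_of_le v (ha v h)
      · exact zero_mem _
    simpa using add_mem h1 h2
  have hWfin : {w : Place K F | 0 ≤ w.ord x ∧ w.ord f₀ < 0}.Finite :=
    (finite_ord_ne_zero f₀).subset fun w hw => hw.2.ne
  let W := hWfin.toFinset
  have hW : ∀ w : W, 0 ≤ (w : Place K F).ord x ∧ (w : Place K F).ord f₀ < 0 :=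
    fun w => hWfin.mem_toFinset.mp w.2
  choose d hd using fun w : W => exists_sub_algebraMap_mem_ordGE (w : Place K F) (hW w).1
  have hne : ∀ (w : W), ∀ b ∈ V, d w ≠ b := by
    intro w b hb h
    have hx0 : x - algebraMap K F b ≠ 0 := by
      intro h0
      exact hx (sub_eq_zero.mp h0 ▸ isAlgebraic_algebraMap b)
    have hwT : (w : Place K F) ∈ T := Finset.mem_union_right _ (Finset.mem_biUnion.mpr
      ⟨b, hb, (hfin b).mem_toFinset.mpr (show 0 < (w : Place K F).ord (x - algebraMap K F b) from
        lt_of_lt_of_le one_pos (le_ord_of_mem_ordGE _ (h ▸ hd w) hx0))⟩)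
    have := (mem_ordGE (w : Place K F)).mp (hT _ hwT)
    rcases this with h0 | h0
    · have := (hW w).2; rw [h0] at this; simp at this
    · have := (hW w).2; omega
  let p : K[X] := ∏ w : W, (X - C (d w)) ^ ((w : Place K F).ord f₀).natAbs
  let r : K[X] := ∏ b ∈ V, (X - C b) ^ m
  have hcop : IsCoprime p r := by
    refine IsCoprime.prod_left fun w _ => IsCoprime.prod_right fun b hb => ?_
    exact (isCoprime_X_sub_C_of_isUnit_sub
      (sub_ne_zero.mpr (hne w b hb)).isUnit).pow
  obtain ⟨u, u', huu⟩ := hcop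
  let q := u * p
  refine ⟨f₀ * aeval x q, fun w hw => ?_, fun v hv => ?_⟩
  · have hqw : aeval x q ∈ ordGE w 0 := aeval_mem_ordGE_zero w (mem_ordGE_of_le w hw) q
    suffices h : f₀ * aeval x q ∈ ordGE w 0 from (mem_iff_ord_nonneg w).mp ((mem_ordGE_zero w).mp h)
    by_cases hwf : 0 ≤ w.ord f₀
    · simpa using mul_mem_ordGE w (mem_ordGE_of_le w hwf) hqw
    · have hwW : w ∈ W := hWfin.mem_toFinset.mpr ⟨hw, not_le.mp hwf⟩
      obtain ⟨q₁, hq₁⟩ : (X - C (d ⟨w, hwW⟩)) ^ (w.ord f₀).natAbs ∣ q :=
        Dvd.dvd.mul_left (Finset.dvd_prod_of_mem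
          (fun v : W => (X - C (d v)) ^ ((v : Place K F).ord f₀).natAbs)
          (Finset.mem_univ (⟨w, hwW⟩ : W))) u
      have hpow : ∀ k : ℕ, (x - algebraMap K F (d ⟨w, hwW⟩)) ^ k ∈ ordGE w k := by
        intro k
        induction k with
        | zero => exact mem_ordGE_of_le w (by simp)
        | succ k ih =>
          rw [pow_succ]
          exact_mod_cast mul_mem_ordGE w ih (hd ⟨w, hwW⟩)
      rw [hq₁, map_mul, map_pow, map_sub, aeval_X, aeval_C, ← mul_assoc]
      have := mul_mem_ordGE w (mul_mem_ordGE w (mem_ordGE_of_le w (le_refl (w.ord f₀)))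
        (hpow (w.ord f₀).natAbs)) (aeval_mem_ordGE_zero w (mem_ordGE_of_le w hw) q₁)
      exact ordGE_antitone w (by omega) this
  · have hq1 : aeval x q - 1 ∈ ordGE v m := by
      have : q - 1 = -(u' * r) := by linear_combination huu
      rw [← map_one (aeval (R := K) x), ← map_sub, this, map_neg]
      refine neg_mem ?_
      have hbV : c ⟨v, hv⟩ ∈ V := Finset.mem_image.mpr ⟨_, Finset.mem_univ _, rfl⟩
      obtain ⟨r₁, hr₁⟩ : (X - C (c ⟨v, hv⟩)) ^ m ∣ u' * r :=
        Dvd.dvd.mul_left (Finset.dvd_prod_of_mem (fun b => (X - C b) ^ m) hbV) u'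
      rw [hr₁, map_mul, map_pow, map_sub, aeval_X, aeval_C]
      have hpow : ∀ k : ℕ, (x - algebraMap K F (c ⟨v, hv⟩)) ^ k ∈ ordGE v k := by
        intro k
        induction k with
        | zero => exact mem_ordGE_of_le v (by simp)
        | succ k ih =>
          rw [pow_succ]
          exact_mod_cast mul_mem_ordGE v ih (hc ⟨v, hv⟩)
      simpa using mul_mem_ordGE v (hpow m) (aeval_mem_ordGE_zero v (mem_ordGE_of_le v (hS v hv)) r₁)
    have hf1 := hf₀ v (Finset.mem_union_left _ hv)
    simp only [hv, if_true] at hf1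
    rw [show f₀ * aeval x q - a v = (f₀ - a v) * aeval x q + a v * (aeval x q - 1) by ring]
    refine add_mem ?_ ?_
    · simpa using mul_mem_ordGE v hf1 (aeval_mem_ordGE_zero v (mem_ordGE_of_le v (hS v hv)) q)
    · simpa using mul_mem_ordGE v (mem_ordGE_of_le v (ha v hv)) hq1

/-- An integral uniformizer at a finite place. -/
theorem exists_integral_ord_eq_one {x : F} (hx : Transcendental K x) (v : Place K F)
    (hv : 0 ≤ v.ord x) :
    ∃ t : F, (∀ w : Place K F, 0 ≤ w.ord x → 0 ≤ w.ord t) ∧ v.ord t = 1 := by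
  obtain ⟨π, hπ0, hπ⟩ := exists_ord_eq_one v
  obtain ⟨t, hti, ht⟩ := exists_integral_sub_mem_ordGE hx {v} (by simpa using hv) (fun _ => π)
    (by simp [hπ]) 2
  refine ⟨t, hti, ?_⟩
  have h := add_ne_zero_and_ord_eq_of_lt v hπ0 (g := t - π)
    (((mem_ordGE v).mp (ht v (Finset.mem_singleton_self v))).imp_right fun h => by omega)
  rw [add_sub_cancel, hπ] at h
  exact h.2

/-- Integral functions separate finite places. -/
theorem exists_integral_separating {x : F} (hx : Transcendental K x) {v w : Place K F}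
    (hv : 0 ≤ v.ord x) (hw : 0 ≤ w.ord x) (hne : v ≠ w) :
    ∃ s : F, (∀ u : Place K F, 0 ≤ u.ord x → 0 ≤ u.ord s) ∧ s ≠ 0 ∧ 0 < v.ord s ∧
      w.ord s = 0 := by
  classical
  obtain ⟨π, hπ0, hπ⟩ := exists_ord_eq_one v
  obtain ⟨s, hsi, hs⟩ := exists_integral_sub_mem_ordGE hx {v, w} (by simp [hv, hw])
    (fun u => if u = v then π else 1) (by simp [hπ, hne.symm]) 2
  have h1 := hs v (by simp)
  have h2 := hs w (by simp)
  simp only [if_true, hne.symm, if_false] at h1 h2
  have e1 := add_ne_zero_and_ord_eq_of_lt v hπ0 (g := s - π)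
    (((mem_ordGE v).mp h1).imp_right fun h => by omega)
  have e2 := add_ne_zero_and_ord_eq_of_lt w one_ne_zero (g := s - 1)
    (((mem_ordGE w).mp h2).imp_right fun h => by rw [w.ord_one]; omega)
  rw [add_sub_cancel] at e1 e2
  exact ⟨s, hsi, e1.1, by omega, by rw [e2.2, w.ord_one]⟩

omit [IsAlgClosed K] in
/-- A `K`-point of any algebra of functions containing a nonconstant is centred at a place. -/
theorem exists_place_of_algHom (A : Subalgebra K F) {x : F} (hxA : x ∈ A)
    (hx : Transcendental K x) (χ : A →ₐ[K] K) :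
    ∃ v : Place K F, ∀ f : A, 0 ≤ v.ord (f : F) ∧
      (f : F) - algebraMap K F (χ f) ∈ ordGE v 1 := by
  let I : Ideal A.toSubring := RingHom.ker χ.toRingHom
  have hI : I ≠ ⊤ := RingHom.ker_ne_top _
  set c : A := ⟨x, hxA⟩ - algebraMap K A (χ ⟨x, hxA⟩) with hcdef
  have hc : c ∈ I := by
    show χ (⟨x, hxA⟩ - algebraMap K A (χ ⟨x, hxA⟩)) = 0
    rw [map_sub, χ.commutes, Algebra.algebraMap_self_apply, sub_self]
  have hc0 : c ≠ 0 := fun h => hx (by
    rw [show x = algebraMap K F (χ ⟨x, hxA⟩) from congrArg Subtype.val (sub_eq_zero.mp h)]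
    exact isAlgebraic_algebraMap _)
  obtain ⟨v, hv, hv1⟩ := exists_place_of_ideal (K := K) (A := A.toSubring)
    (fun a => A.algebraMap_mem a) I hI hc hc0
  refine ⟨v, fun f => ⟨hv _ f.2, hv1 (f - algebraMap K A (χ f)) ?_⟩⟩
  show χ (f - algebraMap K A (χ f)) = 0
  rw [map_sub, χ.commutes, Algebra.algebraMap_self_apply, sub_self]

end Coordinate

end Fermat.Agent.FF

end
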