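import Fermat.Agent.FF.PushPull
import Fermat.Agent.FF.Basic

/-!
# Maps of function fields in one variable

Finiteness of any embedding of function fields and the resulting unconditional inputs for
push and pull of divisor classes in characteristic zero.
-/

set_option autoImplicit false

noncomputable section

open AlgebraicCurve

namespace Fermat.Agent.FF

variable {K F F' : Type*} [Field K] [Field F] [Field F'] [Algebra K F] [Algebra K F']

theorem finiteAlong_of_isFunctionField [IsFunctionField K F] [IsFunctionField K F']
    (φ : F →ₐ[K] F') : FiniteAlong K φ := by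
  obtain ⟨x, hx, -⟩ := IsFunctionField.exists_transcendental (K := K) (F := F)
  obtain ⟨y, -, hy⟩ := IsFunctionField.exists_transcendental (K := K) (F := F')
  exact finiteAlong_of_transcendental φ hx hy

theorem isIntegral_algHom [IsFunctionField K F] [IsFunctionField K F'] (φ : F →ₐ[K] F') :
    φ.toRingHom.IsIntegral :=
  isIntegral_of_finiteAlong (finiteAlong_of_isFunctionField φ)

theorem charZero_of_isFunctionField [CharZero K] : CharZero F :=
  charZero_of_injective_algebraMap (algebraMap K F).injective

theorem separableAlong_of_isFunctionField [CharZero K] [IsFunctionField K F]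
    [IsFunctionField K F'] (φ : F →ₐ[K] F') : SeparableAlong K φ :=
  haveI : CharZero F := charZero_of_isFunctionField (K := K)
  separableAlong_of_charZero (isIntegral_algHom φ)

theorem normFormulaAlong_of_isFunctionField [CharZero K] [IsFunctionField K F]
    [IsFunctionField K F'] (φ : F →ₐ[K] F') :
    NormFormulaAlong K φ (finiteAlong_of_isFunctionField φ) :=
  normFormulaAlong φ _ (separableAlong_of_isFunctionField φ)

theorem fundamentalIdentityAlong_of_isFunctionField [CharZero K] [IsFunctionField K F]
    [IsFunctionField K F'] [HasPrincipalDivisors K F'] (φ : F →ₐ[K] F')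
    (hφ : φ.toRingHom.IsIntegral) : FundamentalIdentityAlong K φ hφ :=
  fundamentalIdentityAlong φ hφ (finiteAlong_of_isFunctionField φ)
    (separableAlong_of_isFunctionField φ)

/-- All the inputs needed by a correspondence on divisor classes. -/
theorem correspondenceInputs [CharZero K] [IsFunctionField K F] [IsFunctionField K F']
    [HasPrincipalDivisors K F'] (φ ψ : F →ₐ[K] F') :
    ∃ (_ : φ.toRingHom.IsIntegral) (hψ : ψ.toRingHom.IsIntegral) (hfin : FiniteAlong K φ),
      FundamentalIdentityAlong K ψ hψ ∧ NormFormulaAlong K φ hfin :=
  ⟨isIntegral_algHom φ, isIntegral_algHom ψ, finiteAlong_of_isFunctionField φ,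
    fundamentalIdentityAlong_of_isFunctionField ψ _, normFormulaAlong_of_isFunctionField φ⟩

end Fermat.Agent.FF

end
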