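import Fermat.Agent.FF.CotraceDifferential

/-!
# The canonical class and the Hurwitz formula over `K(x)`
-/

set_option autoImplicit false

noncomputable section

open AlgebraicCurve IntermediateField WithZero Fermat.Agent.FF Fermat.Agent.FF.Diff

namespace Fermat.Agent.FF

variable {K F : Type*} [Field K] [Field F] [Algebra K F] [IsFunctionField K F] [IsAlgClosed K]
  {x : F} (hx : IsSeparatingElement K x)

theorem IsSeparatingElement.rrDim_sub_rrDim (D : Divisor K F) :
    (rrDim D : ℤ) - rrDim (hx.canonicalDiv - D) = Divisor.degree D + 1 - genusFF K F := by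
  haveI := finiteDimensional_adjoin hx.transcendental
  haveI := hx.isSeparable
  have h := riemannRoch_weilDivisor (cotrace_ne_zero hx.transcendental)
    (cotrace_divisor hx.transcendental) D
  rw [rrDim_zero_eq_one, Nat.cast_one] at h
  exact h

theorem IsSeparatingElement.rrDim_canonicalDiv :
    rrDim hx.canonicalDiv = genusFF K F := by
  haveI := finiteDimensional_adjoin hx.transcendental
  haveI := hx.isSeparable
  exact rrDim_weilDivisor (cotrace_ne_zero hx.transcendental) (cotrace_divisor hx.transcendental)

theorem IsSeparatingElement.degree_canonicalDiv :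
    Divisor.degree hx.canonicalDiv = 2 * (genusFF K F : ℤ) - 2 := by
  haveI := finiteDimensional_adjoin hx.transcendental
  haveI := hx.isSeparable
  have h := degree_weilDivisor (cotrace_ne_zero hx.transcendental)
    (cotrace_divisor hx.transcendental)
  rw [rrDim_zero_eq_one] at h
  exact h

/-- Hurwitz over `K(x)`. -/
theorem IsSeparatingElement.hurwitz :
    2 * (genusFF K F : ℤ) - 2
      = -2 * (Module.finrank K⟮x⟯ F : ℤ) + Divisor.degree hx.diff := by
  rw [← hx.degree_canonicalDiv, IsSeparatingElement.canonicalDiv, map_sub, map_nsmul,
    degree_poleDivisor hx.transcendental]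
  simp only [nsmul_eq_mul, Nat.cast_ofNat]
  ring

end Fermat.Agent.FF
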