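import Fermat.Prelude.Def_AlgebraicCurve_DivisorPushPull
import Mathlib.RingTheory.DedekindDomain.IntegralClosure
import Mathlib.RingTheory.DedekindDomain.PID
import Mathlib.RingTheory.IntegralClosure.IntegralRestrict
import Mathlib.RingTheory.OrderOfVanishing.Basic
import Mathlib.RingTheory.Length
import Mathlib.LinearAlgebra.FreeModule.Norm
import Mathlib.LinearAlgebra.FreeModule.IdealQuotient

/-!
# Places above a given place in a finite extension

For a finite extension `F'/F` and a place `v` of `F`, the places of `F'` above `v` are studied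
through the integral closure of the valuation ring of `v`.
-/

set_option autoImplicit false
set_option linter.unusedSectionVars false

noncomputable section

open AlgebraicCurve IsDedekindDomain

namespace Fermat.Agent.FF.PlacesOver

section Basic

variable {K F : Type*} [Field K] [Field F] [Algebra K F]

theorem ord_neg_of_not_mem (v : Place K F) {f : F} (h : f ∉ v.toValuationSubring) :
    v.ord f < 0 := by
  by_contra hle
  rcases eq_or_ne f 0 with rfl | hf
  · exact h (zero_mem _)
  obtain ⟨π, hπ⟩ := IsDiscreteValuationRing.exists_irreducible v.toValuationSubring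
  obtain ⟨u, hu⟩ := v.exists_unit_mul_zpow hf hπ
  apply h
  rw [hu, show v.ord f = (((v.ord f).toNat : ℕ) : ℤ) from (Int.toNat_of_nonneg (by omega)).symm,
    zpow_natCast]
  exact mul_mem (u : v.toValuationSubring).2 (pow_mem (π : v.toValuationSubring).2 _)

theorem ord_nonneg_of_mem (v : Place K F) {f : F} (hf : f ∈ v.toValuationSubring) :
    0 ≤ v.ord f := by
  rcases eq_or_ne f 0 with rfl | hf0
  · simp
  obtain ⟨π, hπ⟩ := IsDiscreteValuationRing.exists_irreducible v.toValuationSubring
  obtain ⟨n, u, hu⟩ :=
    IsDiscreteValuationRing.eq_unit_mul_pow_irreducible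
      (x := (⟨f, hf⟩ : v.toValuationSubring)) (by simpa [Subtype.ext_iff] using hf0) hπ
  have hcoe : f = ((u : v.toValuationSubring) : F) * ((π : F) ^ (n : ℤ)) := by
    have h := congrArg Subtype.val hu
    push_cast at h
    rw [zpow_natCast]
    exact h
  rw [hcoe, v.ord_unit_smul_zpow u hπ]
  exact Int.natCast_nonneg n

theorem mem_iff_ord (v : Place K F) {f : F} :
    f ∈ v.toValuationSubring ↔ 0 ≤ v.ord f :=
  ⟨ord_nonneg_of_mem v, fun h => by
    by_contra hn
    exact absurd (ord_neg_of_not_mem v hn) (not_lt.mpr h)⟩

/-- Valuation rings of places are maximal among proper valuation subrings. -/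
theorem place_eq_of_le {v v' : Place K F} (h : v.toValuationSubring ≤ v'.toValuationSubring) :
    v = v' := by
  refine Place.ext (le_antisymm h fun x hx => ?_)
  by_contra hxv
  apply v'.ne_top'
  refine SetLike.ext fun y => ⟨fun _ => ValuationSubring.mem_top y, fun _ => ?_⟩
  rcases eq_or_ne y 0 with rfl | hy
  · exact zero_mem _
  have hlt := ord_neg_of_not_mem v hxv
  have hx0 : x ≠ 0 := fun e => hxv (e ▸ zero_mem _)
  set k := (v.ord y).natAbs
  have hk : y * (x ^ k)⁻¹ ∈ v.toValuationSubring := by
    rw [mem_iff_ord, v.ord_mul hy (inv_ne_zero (pow_ne_zero _ hx0)), v.ord_inv,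
      ← zpow_natCast, v.ord_zpow]
    have h1 : (k : ℤ) * v.ord x ≤ (k : ℤ) * (-1) :=
      mul_le_mul_of_nonneg_left (by omega) (Int.natCast_nonneg k)
    omega
  have := mul_mem (h hk) (pow_mem hx k)
  rwa [inv_mul_cancel_right₀ (pow_ne_zero _ hx0)] at this

theorem ord_eq_addOrd (v : Place K F) {a : v.toValuationSubring} (ha : a ≠ 0) :
    (Ring.ord v.toValuationSubring a).toNat = (v.ord (a : F)).toNat := by
  obtain ⟨π, hπ⟩ := IsDiscreteValuationRing.exists_irreducible v.toValuationSubring
  obtain ⟨n, u, hu⟩ := IsDiscreteValuationRing.eq_unit_mul_pow_irreducible ha hπ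
  have h2 : v.ord (a : F) = n := by
    rw [hu]; push_cast
    rw [← zpow_natCast, v.ord_unit_smul_zpow u hπ]
  rw [h2, hu, Ring.ord_mul_of_isUnit_left u.isUnit,
    Ring.ord_pow (mem_nonZeroDivisors_of_ne_zero hπ.ne_zero), Ring.ord_of_irreducible hπ]
  simp

end Basic

variable {K F : Type*} [Field K] [Field F] [Algebra K F] (v : Place K F)
variable (F' : Type*) [Field F'] [Algebra K F'] [Algebra F F'] [IsScalarTower K F F']

/-- The integral closure of the valuation ring of `v` in `F'`. -/
abbrev ringOver : Type _ := integralClosure v.toValuationSubring F'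

variable {v F'}

theorem algebraMap_ringOver_coe (a : v.toValuationSubring) :
    ((algebraMap v.toValuationSubring (ringOver v F') a : ringOver v F') : F')
      = algebraMap F F' (a : F) := rfl

instance instAlgebraBase : Algebra K (ringOver v F') :=
  ((algebraMap v.toValuationSubring (ringOver v F')).comp
    (algebraMap K v.toValuationSubring)).toAlgebra

instance instTowerBase : IsScalarTower K (ringOver v F') F' :=
  IsScalarTower.of_algebraMap_eq fun a => by
    show algebraMap K F' a = algebraMap F F' (algebraMap K F a)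
    rw [← IsScalarTower.algebraMap_apply]

section Over

variable [Algebra.IsIntegral F F']

theorem coe_mem_of_over {w : Place K F'} (hw : w.restrict F = v) (s : ringOver v F') :
    (s : F') ∈ w.toValuationSubring := by
  subst hw
  let φ : (w.restrict F).toValuationSubring →+* w.toValuationSubring :=
    Place.restrictInclusion F w
  letI := φ.toAlgebra
  haveI : IsScalarTower (w.restrict F).toValuationSubring w.toValuationSubring F' :=
    IsScalarTower.of_algebraMap_eq fun a => rfl
  obtain ⟨y, hy⟩ := IsIntegrallyClosed.isIntegral_iff.mp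
    ((show IsIntegral (w.restrict F).toValuationSubring (s : F') from s.2).tower_top
      (A := w.toValuationSubring))
  exact hy ▸ y.2

/-- The inclusion of the integral closure in the valuation ring of a place above `v`. -/
def incl {w : Place K F'} (hw : w.restrict F = v) : ringOver v F' →+* w.toValuationSubring where
  toFun s := ⟨s, coe_mem_of_over hw s⟩
  map_one' := rfl
  map_mul' _ _ := rfl
  map_zero' := rfl
  map_add' _ _ := rfl

/-- The centre of a place above `v` in the integral closure. -/
def centre {w : Place K F'} (hw : w.restrict F = v) : Ideal (ringOver v F') :=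
  (IsLocalRing.maximalIdeal w.toValuationSubring).comap (incl hw)

instance centre_isPrime {w : Place K F'} (hw : w.restrict F = v) : (centre hw).IsPrime := by
  unfold centre; infer_instance

theorem mem_centre_iff {w : Place K F'} (hw : w.restrict F = v) {s : ringOver v F'}
    (hs : s ≠ 0) : s ∈ centre hw ↔ 0 < w.ord (s : F') := by
  have h0 : 0 ≤ w.ord (s : F') := ord_nonneg_of_mem w (coe_mem_of_over hw s)
  have hs' : (s : F') ≠ 0 := fun h => hs (Subtype.ext h)
  simp only [centre, Ideal.mem_comap, IsLocalRing.mem_maximalIdeal, mem_nonunits_iff]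
  constructor
  · intro hnu
    rcases eq_or_lt_of_le h0 with he | hlt
    · refine absurd (isUnit_iff_exists_inv.mpr
        ⟨⟨(s : F')⁻¹, (mem_iff_ord w).mpr (by rw [w.ord_inv]; omega)⟩, ?_⟩) hnu
      exact Subtype.ext (mul_inv_cancel₀ hs')
    · exact hlt
  · intro hpos hu
    have h := w.ord_coe_unit hu.unit
    rw [IsUnit.unit_spec] at h
    change w.ord (s : F') = 0 at h
    omega

end Over

variable [FiniteDimensional F F']

instance instFractionRing : IsFractionRing (ringOver v F') F' :=
  integralClosure.isFractionRing_of_finite_extension F F'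

variable [Algebra.IsSeparable F F']

instance instFiniteOver : Module.Finite v.toValuationSubring (ringOver v F') :=
  IsIntegralClosure.finite v.toValuationSubring F F' (ringOver v F')

instance instDedekind : IsDedekindDomain (ringOver v F') :=
  integralClosure.isDedekindDomain v.toValuationSubring F F'

instance instTorsionFree : Module.IsTorsionFree v.toValuationSubring (ringOver v F') := by
  refine Module.isTorsionFree_iff_algebraMap_injective.mpr fun a b hab => ?_
  exact Subtype.ext ((algebraMap F F').injective (congrArg (Subtype.val) hab))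

instance instFree : Module.Free v.toValuationSubring (ringOver v F') :=
  Module.free_of_finite_type_torsion_free'

theorem maximal_mem_primesOver {P : Ideal (ringOver v F')} (hP : P.IsMaximal) :
    P ∈ (IsLocalRing.maximalIdeal v.toValuationSubring).primesOver (ringOver v F') := by
  refine ⟨hP.isPrime, ⟨?_⟩⟩
  have := Ideal.isMaximal_comap_of_isIntegral_of_isMaximal (R := v.toValuationSubring) P
  exact (IsLocalRing.eq_maximalIdeal this).symm

theorem finite_maximals : {P : Ideal (ringOver v F') | P.IsMaximal}.Finite :=
  (IsDedekindDomain.primesOver_finite (IsLocalRing.maximalIdeal v.toValuationSubring)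
    (ringOver v F')).subset fun _ hP => maximal_mem_primesOver hP

instance instPID : IsPrincipalIdealRing (ringOver v F') :=
  IsPrincipalIdealRing.of_finite_maximals finite_maximals

theorem centre_ne_bot {w : Place K F'} (hw : w.restrict F = v) : centre hw ≠ ⊥ := by
  obtain ⟨π, hπ⟩ := IsDiscreteValuationRing.exists_irreducible v.toValuationSubring
  have h0 : algebraMap v.toValuationSubring (ringOver v F') π ≠ 0 :=
    fun h => hπ.ne_zero (FaithfulSMul.algebraMap_injective _ _ (by rw [h, map_zero]))
  intro hbot
  have hmem : algebraMap v.toValuationSubring (ringOver v F') π ∈ centre hw := by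
    rw [mem_centre_iff hw h0, algebraMap_ringOver_coe, w.ord_restrict, hw,
      v.ord_coe_irreducible hπ, mul_one]
    exact_mod_cast w.ramificationIndex_pos (F := F)
  rw [hbot] at hmem
  exact h0 hmem

/-- A generator of the centre. -/
theorem exists_centre_generator {w : Place K F'} (hw : w.restrict F = v) :
    ∃ x : ringOver v F', Prime x ∧ centre hw = Ideal.span {x} := by
  obtain ⟨x, hx⟩ := (IsPrincipalIdealRing.principal (centre hw)).principal
  rw [Ideal.submodule_span_eq] at hx
  have hx0 : x ≠ 0 := fun h => centre_ne_bot hw (by rw [hx, h, Ideal.span_singleton_eq_bot])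
  exact ⟨x, (Ideal.span_singleton_prime hx0).mp (hx ▸ centre_isPrime hw), hx⟩

theorem ord_eq_zero_of_not_dvd {w : Place K F'} (hw : w.restrict F = v) {x a : ringOver v F'}
    (hx : centre hw = Ideal.span {x}) (ha : ¬ x ∣ a) : w.ord (a : F') = 0 := by
  have ha0 : a ≠ 0 := fun h => ha (h ▸ dvd_zero x)
  have h1 := ord_nonneg_of_mem w (coe_mem_of_over hw a)
  have h2 : ¬ 0 < w.ord (a : F') := by
    rwa [← mem_centre_iff hw ha0, hx, Ideal.mem_span_singleton]
  omega

/-- Every element is a power of a prime times a quotient of elements prime to it. -/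
theorem exists_eq_zpow_mul {x : ringOver v F'} (hx : Prime x) {g : F'} (hg : g ≠ 0) :
    ∃ (n : ℤ) (a b : ringOver v F'), ¬ x ∣ a ∧ ¬ x ∣ b ∧
      g = (x : F') ^ n * ((a : F') / (b : F')) := by
  obtain ⟨a, b, hb, rfl⟩ := IsFractionRing.div_surjective (A := ringOver v F') g
  have hb0 : b ≠ 0 := nonZeroDivisors.ne_zero hb
  have ha0 : a ≠ 0 := by
    rintro rfl
    simp at hg
  obtain ⟨i, a', ha', rfl⟩ := WfDvdMonoid.max_power_factor ha0 hx.irreducible
  obtain ⟨j, b', hb', rfl⟩ := WfDvdMonoid.max_power_factor hb0 hx.irreducible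
  refine ⟨(i : ℤ) - j, a', b', ha', hb', ?_⟩
  have hx' : (x : F') ≠ 0 := fun h => hx.ne_zero (Subtype.ext h)
  rw [map_mul, map_mul, map_pow, map_pow, zpow_sub₀ hx', zpow_natCast, zpow_natCast,
    div_mul_div_comm]
  rfl

theorem ord_eq_mul {w : Place K F'} (hw : w.restrict F = v) {x : ringOver v F'}
    (hx : Prime x) (hc : centre hw = Ideal.span {x}) {n : ℤ} {a b : ringOver v F'}
    (ha : ¬ x ∣ a) (hb : ¬ x ∣ b) :
    w.ord ((x : F') ^ n * ((a : F') / (b : F'))) = n * w.ord (x : F') := by
  have hx' : (x : F') ≠ 0 := fun h => hx.ne_zero (Subtype.ext h)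
  have ha' : (a : F') ≠ 0 := fun h => ha ((Subtype.ext h : a = 0) ▸ dvd_zero x)
  have hb' : (b : F') ≠ 0 := fun h => hb ((Subtype.ext h : b = 0) ▸ dvd_zero x)
  rw [w.ord_mul (zpow_ne_zero _ hx') (div_ne_zero ha' hb'), w.ord_zpow, div_eq_mul_inv,
    w.ord_mul ha' (inv_ne_zero hb'), w.ord_inv, ord_eq_zero_of_not_dvd hw hc ha,
    ord_eq_zero_of_not_dvd hw hc hb]
  ring

theorem ord_generator {w : Place K F'} (hw : w.restrict F = v) {x : ringOver v F'}
    (hx : Prime x) (hc : centre hw = Ideal.span {x}) : w.ord (x : F') = 1 := by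
  have hpos : 0 < w.ord (x : F') :=
    (mem_centre_iff hw hx.ne_zero).mp (hc ▸ Ideal.mem_span_singleton_self x)
  obtain ⟨π, hπ⟩ := IsDiscreteValuationRing.exists_irreducible w.toValuationSubring
  obtain ⟨n, a, b, ha, hb, hg⟩ :=
    exists_eq_zpow_mul hx (g := (π : F')) (by simpa using hπ.ne_zero)
  have h1 := w.ord_coe_irreducible hπ
  rw [hg, ord_eq_mul hw hx hc ha hb] at h1
  rcases Int.eq_one_or_neg_one_of_mul_eq_one' h1 with ⟨-, h⟩ | ⟨-, h⟩
  · exact h
  · omega

theorem centre_injective {w w' : Place K F'} (hw : w.restrict F = v) (hw' : w'.restrict F = v)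
    (h : centre hw = centre hw') : w = w' := by
  obtain ⟨x, hx, hc⟩ := exists_centre_generator hw
  have hc' : centre hw' = Ideal.span {x} := h ▸ hc
  refine Place.ext (SetLike.ext fun g => ?_)
  rw [mem_iff_ord, mem_iff_ord]
  rcases eq_or_ne g 0 with rfl | hg
  · simp
  obtain ⟨n, a, b, ha, hb, rfl⟩ := exists_eq_zpow_mul hx hg
  rw [ord_eq_mul hw hx hc ha hb, ord_eq_mul hw' hx hc' ha hb, ord_generator hw hx hc,
    ord_generator hw' hx hc']

theorem centre_isMaximal {w : Place K F'} (hw : w.restrict F = v) : (centre hw).IsMaximal :=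
  Ideal.IsPrime.isMaximal inferInstance (centre_ne_bot hw)

theorem exists_place_centre {P : Ideal (ringOver v F')} (hP : P.IsPrime) (hP0 : P ≠ ⊥) :
    ∃ (w : Place K F') (hw : w.restrict F = v), centre hw = P := by
  let p : HeightOneSpectrum (ringOver v F') := ⟨P, hP, hP0⟩
  let w : Place K F' := Place.ofHeightOneSpectrum p
  have hmem : ∀ s : ringOver v F', (s : F') ∈ w.toValuationSubring := fun s =>
    (Valuation.mem_valuationSubring_iff _ _).mpr (p.valuation_le_one (K := F') s)
  have hw : w.restrict F = v :=
    (place_eq_of_le fun a ha => (Place.mem_restrict_iff w).mpr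
      (hmem (algebraMap v.toValuationSubring _ ⟨a, ha⟩))).symm
  refine ⟨w, hw, ?_⟩
  refine ((hP.isMaximal hP0).eq_of_le (centre_isMaximal hw).ne_top fun s hs => ?_).symm
  simp only [centre, Ideal.mem_comap, IsLocalRing.mem_maximalIdeal, mem_nonunits_iff]
  intro hu
  obtain ⟨c, hc⟩ := isUnit_iff_exists_inv.mp hu
  have hc' : (s : F') * (c : F') = 1 := congrArg Subtype.val hc
  have h1 : p.valuation F' (algebraMap (ringOver v F') F' s) < 1 :=
    (p.valuation_lt_one_iff_mem s).mpr hs
  have h2 : p.valuation F' (c : F') ≤ 1 := (Valuation.mem_valuationSubring_iff _ _).mp c.2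
  have h3 : p.valuation F' ((s : F') * (c : F')) < 1 := by
    rw [map_mul]
    exact mul_lt_one_of_lt_of_le h1 h2
  rw [hc', map_one] at h3
  exact lt_irrefl _ h3

variable (v F') in
/-- The finite set of places above `v`. -/
theorem finite_over : {w : Place K F' | w.restrict F = v}.Finite := by
  haveI : Finite {P : Ideal (ringOver v F') | P.IsMaximal} := finite_maximals.to_subtype
  refine Finite.of_injective (β := {P : Ideal (ringOver v F') | P.IsMaximal})
    (fun w => ⟨centre w.2, centre_isMaximal w.2⟩) fun w w' h => ?_
  exact Subtype.ext (centre_injective w.2 w'.2 (congrArg Subtype.val h))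

theorem exists_over : ∃ w : Place K F', w.restrict F = v := by
  obtain ⟨P, hP⟩ := Ideal.exists_maximal (ringOver v F')
  have hP0 : P ≠ ⊥ := by
    intro h
    have := (maximal_mem_primesOver hP).2.over
    rw [h, Ideal.under_def,
      Ideal.comap_bot_of_injective _ (FaithfulSMul.algebraMap_injective _ _)] at this
    exact IsDiscreteValuationRing.not_a_field _ this
  obtain ⟨w, hw, -⟩ := exists_place_centre hP.isPrime hP0
  exact ⟨w, hw⟩

section Degree

/-- The residue map on the integral closure. -/
def resMap {w : Place K F'} (hw : w.restrict F = v) : ringOver v F' →+* w.ResidueField :=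
  (IsLocalRing.residue w.toValuationSubring).comp (incl hw)

theorem resMap_surjective {w : Place K F'} (hw : w.restrict F = v) :
    Function.Surjective (resMap hw) := by
  obtain ⟨x, hx, hc⟩ := exists_centre_generator hw
  intro r
  obtain ⟨g, rfl⟩ := IsLocalRing.residue_surjective r
  rcases eq_or_ne g 0 with rfl | hg0
  · exact ⟨0, by simp⟩
  have hg : (g : F') ≠ 0 := by simpa using hg0
  obtain ⟨n, a, b, ha, hb, hgab⟩ := exists_eq_zpow_mul hx hg
  have hn : 0 ≤ n := by
    have h := ord_nonneg_of_mem w g.2
    rw [hgab, ord_eq_mul hw hx hc ha hb, ord_generator hw hx hc, mul_one] at h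
    exact h
  lift n to ℕ using hn
  have hb' : b ∉ centre hw := by rwa [hc, Ideal.mem_span_singleton]
  haveI := centre_isMaximal hw
  obtain ⟨c, hc1⟩ := Ideal.Quotient.exists_inv
    (I := centre hw) (a := Ideal.Quotient.mk (centre hw) b)
    (by rwa [Ne, Ideal.Quotient.eq_zero_iff_mem])
  obtain ⟨c, rfl⟩ := Ideal.Quotient.mk_surjective c
  rw [← map_mul, ← map_one (Ideal.Quotient.mk (centre hw)), Ideal.Quotient.eq] at hc1
  refine ⟨x ^ n * a * c, ?_⟩
  have hb0 : (b : F') ≠ 0 := fun h => hb ((Subtype.ext h : b = 0) ▸ dvd_zero x)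
  have hkey : g * incl hw b = incl hw (x ^ n * a) := Subtype.ext <| by
    show (g : F') * (b : F') = ((x ^ n * a : ringOver v F') : F')
    push_cast
    rw [hgab, zpow_natCast, mul_assoc, div_mul_cancel₀ _ hb0]
  have h1 : IsLocalRing.residue _ (incl hw (b * c)) = 1 := by
    rw [← map_one (IsLocalRing.residue w.toValuationSubring), ← sub_eq_zero, ← map_sub,
      IsLocalRing.residue_eq_zero_iff]
    simpa [centre] using hc1
  show IsLocalRing.residue _ (incl hw (x ^ n * a * c)) = IsLocalRing.residue _ g
  rw [map_mul, ← hkey, mul_assoc, ← map_mul, map_mul, h1, mul_one]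

theorem ker_resMap {w : Place K F'} (hw : w.restrict F = v) :
    RingHom.ker (resMap hw) = centre hw := by
  ext s
  simp [resMap, centre, RingHom.mem_ker, IsLocalRing.residue_eq_zero_iff]

theorem coe_norm (s : ringOver v F') :
    ((Algebra.norm v.toValuationSubring s : v.toValuationSubring) : F)
      = Algebra.norm F (s : F') := by
  haveI : IsLocalization (Algebra.algebraMapSubmonoid (ringOver v F')
      (nonZeroDivisors v.toValuationSubring)) F' :=
    IsIntegralClosure.isLocalization v.toValuationSubring F F' (ringOver v F')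
  exact (Algebra.norm_localization (R := v.toValuationSubring)
    (nonZeroDivisors v.toValuationSubring) (Rₘ := F) (Sₘ := F') s).symm

theorem length_residue_eq_inertiaDeg (w : Place K F') :
    letI := ((IsLocalRing.residue w.toValuationSubring).comp
      (Place.restrictInclusion F w)).toAlgebra
    (Module.length (w.restrict F).toValuationSubring w.ResidueField).toNat = w.inertiaDeg F := by
  letI := ((IsLocalRing.residue w.toValuationSubring).comp
      (Place.restrictInclusion F w)).toAlgebra
  haveI : IsScalarTower (w.restrict F).toValuationSubring (w.restrict F).ResidueField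
      w.ResidueField := IsScalarTower.of_algebraMap_eq fun a =>
    (Place.restrictResidueMap_residue w a).symm
  rw [Module.length_eq_of_surjective (R := (w.restrict F).ResidueField)
    (S := (w.restrict F).toValuationSubring) (M := w.ResidueField)
    IsLocalRing.residue_surjective]
  by_cases hfin : Module.Finite (w.restrict F).ResidueField w.ResidueField
  · rw [Module.length_eq_finrank]; rfl
  · rw [Module.length_eq_rank]
    rfl

theorem ord_norm_generator {w : Place K F'} (hw : w.restrict F = v) {x : ringOver v F'}
    (hx : Prime x) (hc : centre hw = Ideal.span {x}) :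
    v.ord (Algebra.norm F (x : F')) = w.inertiaDeg F := by
  classical
  subst hw
  letI := ((IsLocalRing.residue w.toValuationSubring).comp
      (Place.restrictInclusion F w)).toAlgebra
  let O := (w.restrict F).toValuationSubring
  let S := ringOver (w.restrict F) F'
  let φ : S →ₐ[O] w.ResidueField :=
    { resMap (rfl : w.restrict F = w.restrict F) with
      commutes' := fun a => by
        rw [RingHom.algebraMap_toAlgebra]
        rfl }
  have hφ : Function.Surjective φ := resMap_surjective rfl
  have hker : RingHom.ker φ.toRingHom = Ideal.span {x} :=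
    (ker_resMap (rfl : w.restrict F = w.restrict F)).trans hc
  let e : (S ⧸ Ideal.span {x}) ≃ₗ[O] w.ResidueField :=
    ((Ideal.quotientEquivAlgOfEq O hker.symm).trans
      (Ideal.quotientKerAlgEquivOfSurjective hφ)).toLinearEquiv
  let b := Module.Free.chooseBasis O S
  have hI : Ideal.span {x} ≠ (⊥ : Ideal S) := by
    simpa [Ideal.span_singleton_eq_bot] using hx.ne_zero
  let e' := Ideal.quotientEquivPiSpan (Ideal.span {x}) b hI
  have hlen : Module.length O w.ResidueField
      = ∑ i, Ring.ord O (Ideal.smithCoeffs b (Ideal.span {x}) hI i) := by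
    rw [← e.length_eq, e'.length_eq, Module.length_pi_of_fintype]
    rfl
  have hd : ∀ i, Ideal.smithCoeffs b (Ideal.span {x}) hI i ∈ nonZeroDivisors O := fun i =>
    mem_nonZeroDivisors_of_ne_zero (Ideal.smithCoeffs_ne_zero b _ hI i)
  have hprod : ∀ s : Finset (Module.Free.ChooseBasisIndex O S),
      Ring.ord O (∏ i ∈ s, Ideal.smithCoeffs b (Ideal.span {x}) hI i)
        = ∑ i ∈ s, Ring.ord O (Ideal.smithCoeffs b (Ideal.span {x}) hI i) := by
    intro s
    induction s using Finset.induction with
    | empty => simp [Ring.ord_one]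
    | insert i s hi ih =>
      rw [Finset.prod_insert hi, Finset.sum_insert hi, ← ih,
        Ring.ord_mul' O (hd i)]
  rw [← hprod, ← Ring.ord_eq_of_associated (associated_norm_prod_smith b hx.ne_zero)] at hlen
  have hN0 : Algebra.norm O x ≠ 0 := Algebra.norm_ne_zero_iff.mpr hx.ne_zero
  rw [← coe_norm, ← length_residue_eq_inertiaDeg w, hlen, ord_eq_addOrd _ hN0,
    Int.toNat_of_nonneg (ord_nonneg_of_mem _ (Algebra.norm O x).2)]

end Degree

end Fermat.Agent.FF.PlacesOver

end
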