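import Fermat.Prelude.Def_AlgebraicCurve_Correspondence
import Fermat.Prelude.Def_AlgebraicCurve_IsCurveOver
import Fermat.Agent.FF.PlacesOver
import Mathlib.LinearAlgebra.Dimension.OrzechProperty
import Mathlib.RingTheory.AlgebraicIndependent.TranscendenceBasis
import Mathlib.RingTheory.AlgebraicIndependent.AlgebraicClosure

/-!
# Push and pull of divisors along finite separable maps of fields

`PushforwardNormFormula` and `SumRamificationInertia` for an arbitrary finite separable extension
`F'/F` over `K` (no hypothesis on `K`, none on transcendence degree), their `Along` versions, and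
functoriality.
-/

set_option autoImplicit false
set_option linter.unusedSectionVars false
set_option linter.style.haveILetI false

noncomputable section

open AlgebraicCurve

namespace Fermat.Agent.FF

section Local

open PlacesOver

variable {K F F' : Type*} [Field K] [Field F] [Field F'] [Algebra K F] [Algebra K F']
  [Algebra F F'] [IsScalarTower K F F']

variable (F') in
/-- The finite set of places above `v` (no hypothesis of principal divisors). -/
def overFinset [Module.Finite F F'] [Algebra.IsSeparable F F'] (v : Place K F) :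
    Finset (Place K F') :=
  (finite_over v F').toFinset

@[simp]
theorem mem_overFinset [Module.Finite F F'] [Algebra.IsSeparable F F'] {v : Place K F}
    {w : Place K F'} : w ∈ overFinset F' v ↔ w.restrict F = v := by
  simp [overFinset]

/-- The order of a norm is the sum of the orders weighted by the inertia degrees. -/
theorem ord_norm_eq_sum [Module.Finite F F'] [Algebra.IsSeparable F F'] (v : Place K F)
    {g : F'} (hg : g ≠ 0) :
    v.ord (Algebra.norm F g) = ∑ w ∈ overFinset F' v, w.ord g * (w.inertiaDeg F : ℤ) := by
  let Φ : F' → ℤ := fun g => ∑ w ∈ overFinset F' v, w.ord g * (w.inertiaDeg F : ℤ)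
  have Φmul : ∀ a b : F', a ≠ 0 → b ≠ 0 → Φ (a * b) = Φ a + Φ b := fun a b ha hb => by
    simp only [Φ, ← Finset.sum_add_distrib]
    exact Finset.sum_congr rfl fun w _ => by rw [w.ord_mul ha hb, add_mul]
  have Nmul : ∀ a b : F', a ≠ 0 → b ≠ 0 →
      v.ord (Algebra.norm F (a * b)) = v.ord (Algebra.norm F a) + v.ord (Algebra.norm F b) :=
    fun a b ha hb => by
      rw [map_mul, v.ord_mul (Algebra.norm_ne_zero_iff.mpr ha) (Algebra.norm_ne_zero_iff.mpr hb)]
  have key : ∀ s : ringOver v F', s ≠ 0 → v.ord (Algebra.norm F (s : F')) = Φ (s : F') := by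
    intro s
    induction s using UniqueFactorizationMonoid.induction_on_prime with
    | h₁ => exact fun h => absurd rfl h
    | h₂ u hu =>
      intro _
      obtain ⟨u', rfl⟩ := hu
      have h1 : Φ ((u' : ringOver v F') : F') = 0 := by
        refine Finset.sum_eq_zero fun w hw => ?_
        have h := w.ord_coe_unit (Units.map (incl (mem_overFinset.mp hw)).toMonoidHom u')
        rw [show w.ord ((u' : ringOver v F') : F') = 0 from h, zero_mul]
      rw [h1, ← coe_norm]
      exact v.ord_coe_unit (Units.map (Algebra.norm v.toValuationSubring) u')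
    | h₃ a x ha hx ih =>
      intro _
      have hx0 : (x : F') ≠ 0 := fun h => hx.ne_zero (Subtype.ext h)
      have ha0 : (a : F') ≠ 0 := fun h => ha (Subtype.ext h)
      have hPp : (Ideal.span {x}).IsPrime := (Ideal.span_singleton_prime hx.ne_zero).mpr hx
      have hP0 : Ideal.span {x} ≠ ⊥ := by simpa [Ideal.span_singleton_eq_bot] using hx.ne_zero
      obtain ⟨w0, hw0, hc⟩ := exists_place_centre hPp hP0
      have h1 : Φ (x : F') = w0.inertiaDeg F := by
        simp only [Φ]
        rw [Finset.sum_eq_single_of_mem w0 (mem_overFinset.mpr hw0) fun w hw hne => ?_,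
          ord_generator hw0 hx hc, one_mul]
        obtain ⟨x', hx', hc'⟩ := exists_centre_generator (mem_overFinset.mp hw)
        rw [ord_eq_zero_of_not_dvd _ hc' fun hdvd => hne ?_, zero_mul]
        refine centre_injective (mem_overFinset.mp hw) hw0 ?_
        rw [hc]
        refine ((hPp.isMaximal hP0).eq_of_le (centre_isMaximal _).ne_top ?_).symm
        rwa [hc', Ideal.span_singleton_le_span_singleton]
      rw [show ((x * a : ringOver v F') : F') = (x : F') * (a : F') from rfl, Nmul _ _ hx0 ha0,
        Φmul _ _ hx0 ha0, ih ha, ord_norm_generator hw0 hx hc, h1]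
  obtain ⟨a, b, hb, rfl⟩ := IsFractionRing.div_surjective (A := ringOver v F') g
  have hb0 : b ≠ 0 := nonZeroDivisors.ne_zero hb
  have ha0 : a ≠ 0 := by rintro rfl; simp at hg
  have hb' : algebraMap (ringOver v F') F' b ≠ 0 := fun h => hb0 (Subtype.ext h)
  have h : algebraMap (ringOver v F') F' a / algebraMap (ringOver v F') F' b *
      algebraMap (ringOver v F') F' b = (a : F') := div_mul_cancel₀ _ hb'
  have h2 := Nmul _ _ hg hb'
  have h3 := Φmul _ _ hg hb'
  rw [h] at h2 h3
  have h4 := key b hb0
  have h5 := key a ha0
  change v.ord (Algebra.norm F (algebraMap (ringOver v F') F' b))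
    = Φ (algebraMap (ringOver v F') F' b) at h4
  show _ = Φ _
  linarith

theorem exists_place_restrict_eq [Module.Finite F F'] [Algebra.IsSeparable F F']
    (v : Place K F) : ∃ w : Place K F', w.restrict F = v :=
  exists_over

/-- Approximation within a fibre: a function with order one at `w` and zero at all other places
above the same place. -/
theorem exists_ord_eq_one_at_fiber [Module.Finite F F'] [Algebra.IsSeparable F F']
    (w : Place K F') : ∃ f : F', f ≠ 0 ∧ w.ord f = 1 ∧
      ∀ w' : Place K F', w'.restrict F = w.restrict F → w' ≠ w → w'.ord f = 0 :=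
  by
  obtain ⟨x, hx, hc⟩ := exists_centre_generator (v := w.restrict F) (w := w) rfl
  refine ⟨(x : F'), fun h => hx.ne_zero (Subtype.ext h), ord_generator rfl hx hc,
    fun w' hw' hne => ?_⟩
  obtain ⟨x', hx', hc'⟩ := exists_centre_generator hw'
  refine ord_eq_zero_of_not_dvd hw' hc' fun hdvd => hne (centre_injective hw' rfl ?_)
  refine ((centre_isMaximal (w := w) rfl).eq_of_le (centre_isMaximal hw').ne_top ?_).symm
  rw [hc, hc', Ideal.span_singleton_le_span_singleton]
  exact hdvd

theorem pushforwardNormFormula [Module.Finite F F'] [Algebra.IsSeparable F F'] :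
    Divisor.PushforwardNormFormula K F F' :=
  by
  classical
  intro f hf D hD v
  rw [ord_norm_eq_sum v hf, Divisor.pushforward_apply, ← Finset.sum_filter]
  refine Finset.sum_subset_zero_on_sdiff (fun w hw => mem_overFinset.mpr (Finset.mem_filter.mp hw).2)
    (fun w hw => ?_) fun w _ => by rw [hD]
  rw [Finset.mem_sdiff, mem_overFinset] at hw
  have : D w = 0 := by
    by_contra h
    exact hw.2 (Finset.mem_filter.mpr ⟨Finsupp.mem_support_iff.mpr h, hw.1⟩)
  rw [← hD, this, zero_mul]

theorem sumRamificationInertia [Module.Finite F F'] [Algebra.IsSeparable F F']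
    [HasPrincipalDivisors K F'] : SumRamificationInertia K F F' :=
  by
  refine ⟨fun v => ?_⟩
  obtain ⟨π, hπ⟩ := IsDiscreteValuationRing.exists_irreducible v.toValuationSubring
  have hπ0 : (π : F) ≠ 0 := by simpa using hπ.ne_zero
  have h := ord_norm_eq_sum v (g := algebraMap F F' (π : F)) (by simpa using hπ0)
  rw [Algebra.norm_algebraMap, ← zpow_natCast, v.ord_zpow, v.ord_coe_irreducible hπ, mul_one] at h
  rw [h]
  refine Finset.sum_congr (Finset.ext fun w => by simp) fun w hw => ?_
  rw [w.ord_restrict, mem_overFinset.mp hw, v.ord_coe_irreducible hπ, mul_one]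

theorem fundamentalIdentity [Module.Finite F F'] [Algebra.IsSeparable F F']
    [HasPrincipalDivisors K F'] : FundamentalIdentity K F F' :=
  haveI := sumRamificationInertia (K := K) (F := F) (F' := F')
  inferInstance

theorem pushforward_pullback [Module.Finite F F'] [Algebra.IsSeparable F F']
    [HasPrincipalDivisors K F'] (D : Divisor K F) :
    Divisor.pushforward F (Divisor.pullback F' D) = (Module.finrank F F' : ℤ) • D :=
  by
  induction D using Finsupp.induction with
  | zero => simp
  | single_add v n D _ _ ih =>
    rw [map_add, map_add, ih, smul_add, Divisor.pullback_single, map_sum, Finsupp.smul_single,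
      smul_eq_mul, Finset.sum_congr rfl fun w hw => by
        rw [Divisor.pushforward_single, Place.mem_fiber.mp hw, mul_assoc],
      ← Finsupp.single_finsetSum, ← Finset.mul_sum,
      (sumRamificationInertia (K := K) (F := F) (F' := F')).sum_ramificationIndex_mul_inertiaDeg,
      mul_comm n]

end Local

section Along

variable {K F F' F'' : Type*} [Field K] [Field F] [Field F'] [Field F'']
  [Algebra K F] [Algebra K F'] [Algebra K F'']

theorem isIntegral_of_finiteAlong {φ : F →ₐ[K] F'} (hfin : FiniteAlong K φ) :
    φ.toRingHom.IsIntegral :=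
  by
  letI := algebraAlong φ
  haveI : Module.Finite F F' := hfin
  exact fun x => Algebra.IsIntegral.isIntegral (R := F) x

theorem separableAlong_of_charZero [CharZero F] {φ : F →ₐ[K] F'}
    (hφ : φ.toRingHom.IsIntegral) : SeparableAlong K φ :=
  by
  letI := algebraAlong φ
  haveI := isIntegral_along φ hφ
  exact Algebra.IsAlgebraic.isSeparable_of_perfectField

/-- A map between function fields in one variable is finite. -/
theorem finiteAlong_of_transcendental (φ : F →ₐ[K] F') {x : F} (hx : Transcendental K x)
    {y : F'} (hy : FiniteDimensional (IntermediateField.adjoin K ({y} : Set F')) F') :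
    FiniteAlong K φ :=
  by
  letI := algebraAlong φ
  haveI := isScalarTower_along φ
  haveI := hy
  set x' : F' := φ x with hx'
  have hxt : Transcendental K x' := fun h => hx ((isAlgebraic_algHom_iff φ φ.injective).mp h)
  haveI : Algebra.IsAlgebraic (Algebra.adjoin K ({y} : Set F')) F' :=
    IntermediateField.isAlgebraic_adjoin_iff_top.mp
      (Algebra.IsAlgebraic.of_finite (IntermediateField.adjoin K ({y} : Set F')) F')
  have htr : Algebra.trdeg K F' ≤ 1 :=
    (Algebra.IsAlgebraic.trdeg_le_cardinalMk K ({y} : Set F')).trans (by simp)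
  have hb : IsTranscendenceBasis K (fun _ : Unit => x') :=
    (algebraicIndependent_unique_type_iff.mpr hxt).isTranscendenceBasis_of_lift_trdeg_le_of_finite
      (by simpa using htr)
  haveI := hb.isAlgebraic_field
  let R : IntermediateField K F' := (IsScalarTower.toAlgHom K F F').fieldRange
  have hR : IntermediateField.adjoin K (Set.range fun _ : Unit => x') ≤ R :=
    IntermediateField.adjoin_le_iff.mpr fun z ⟨_, hz⟩ => ⟨x, hz⟩
  letI := (IntermediateField.inclusion hR).toRingHom.toAlgebra
  haveI : IsScalarTower (IntermediateField.adjoin K (Set.range fun _ : Unit => x')) R F' :=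
    IsScalarTower.of_algebraMap_eq fun _ => rfl
  haveI : Algebra.IsAlgebraic R F' := Algebra.IsAlgebraic.extendScalars
    (R := IntermediateField.adjoin K (Set.range fun _ : Unit => x'))
    (IntermediateField.inclusion hR).toRingHom.injective
  have halg : Algebra.IsAlgebraic F F' := by
    refine ⟨fun z => ?_⟩
    have hz := (Algebra.IsAlgebraic.isAlgebraic (R := R) z).isIntegral
    obtain ⟨p, hp, hpz⟩ := hz
    have hsurj : Function.Surjective (IsScalarTower.toAlgHom K F F').rangeRestrict :=
      AlgHom.rangeRestrict_surjective _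
    let e : F →+* R := ((IsScalarTower.toAlgHom K F F').rangeRestrict).toRingHom
    have hsurj' : Function.Surjective e := fun a => by
      obtain ⟨f, hf⟩ := a.2
      exact ⟨f, Subtype.ext hf⟩
    obtain ⟨q, hqmap, -, hqm⟩ := Polynomial.lifts_and_natDegree_eq_and_monic
      (f := e) ((Polynomial.lifts_iff_coeff_lifts p).mpr fun n => hsurj' (p.coeff n)) hp
    refine (show IsIntegral F z from ⟨q, hqm, ?_⟩).isAlgebraic
    rw [← hqmap, Polynomial.eval₂_map] at hpz
    exact hpz
  haveI := halg
  haveI hfd : FiniteDimensional F (IntermediateField.adjoin F ({y} : Set F')) :=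
    IntermediateField.adjoin.finiteDimensional (Algebra.IsIntegral.isIntegral y)
  let G : IntermediateField K F' :=
    (IntermediateField.adjoin F ({y} : Set F')).restrictScalars K
  have hKy : IntermediateField.adjoin K ({y} : Set F') ≤ G :=
    IntermediateField.adjoin_le_iff.mpr fun z hz =>
      IntermediateField.subset_adjoin F ({y} : Set F') hz
  let M := IntermediateField.adjoin F ({y} : Set F')
  letI : Algebra (IntermediateField.adjoin K ({y} : Set F')) M :=
    ((IntermediateField.inclusion hKy).toRingHom : _ →+* M).toAlgebra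
  haveI : IsScalarTower (IntermediateField.adjoin K ({y} : Set F')) M F' :=
    IsScalarTower.of_algebraMap_eq fun _ => rfl
  haveI : FiniteDimensional M F' :=
    Module.Finite.of_restrictScalars_finite (IntermediateField.adjoin K ({y} : Set F')) M F'
  show Module.Finite F F'
  exact Module.Finite.trans M F' 

theorem normFormulaAlong (φ : F →ₐ[K] F') (hfin : FiniteAlong K φ) (hsep : SeparableAlong K φ) :
    NormFormulaAlong K φ hfin :=
  letI := algebraAlong φ
  haveI := isScalarTower_along φ
  haveI : Module.Finite F F' := hfin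
  haveI : Algebra.IsSeparable F F' := hsep
  pushforwardNormFormula

theorem fundamentalIdentityAlong [HasPrincipalDivisors K F'] (φ : F →ₐ[K] F')
    (hφ : φ.toRingHom.IsIntegral) (hfin : FiniteAlong K φ) (hsep : SeparableAlong K φ) :
    FundamentalIdentityAlong K φ hφ :=
  letI := algebraAlong φ
  haveI := isScalarTower_along φ
  haveI := isIntegral_along φ hφ
  haveI : Module.Finite F F' := hfin
  haveI : Algebra.IsSeparable F F' := hsep
  fundamentalIdentity

theorem exists_restrictAlong_eq (φ : F →ₐ[K] F') (hφ : φ.toRingHom.IsIntegral)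
    (hfin : FiniteAlong K φ) (hsep : SeparableAlong K φ) (v : Place K F) :
    ∃ w : Place K F', w.restrictAlong φ hφ = v :=
  letI := algebraAlong φ
  haveI := isScalarTower_along φ
  haveI : Module.Finite F F' := hfin
  haveI : Algebra.IsSeparable F F' := hsep
  exists_place_restrict_eq v

theorem sum_ramificationIndexAlong_mul_inertiaDegAlong [HasPrincipalDivisors K F']
    (φ : F →ₐ[K] F') (hφ : φ.toRingHom.IsIntegral) (hfin : FiniteAlong K φ)
    (hsep : SeparableAlong K φ) (v : Place K F) :
    ∑ w ∈ Place.fiberAlong φ hφ v,
      (w.ramificationIndexAlong φ : ℤ) * (w.inertiaDegAlong φ hφ : ℤ) = finrankAlong K φ :=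
  letI := algebraAlong φ
  haveI := isScalarTower_along φ
  haveI : Module.Finite F F' := hfin
  haveI : Algebra.IsSeparable F F' := hsep
  (sumRamificationInertia (K := K) (F := F) (F' := F')).sum_ramificationIndex_mul_inertiaDeg v

/-- Over an algebraically closed constant field every inertia degree is one. -/
theorem inertiaDegAlong_eq_one [IsAlgClosed K] [IsCurveOver K F'] (φ : F →ₐ[K] F')
    (hφ : φ.toRingHom.IsIntegral) (w : Place K F') : w.inertiaDegAlong φ hφ = 1 :=
  by
  letI := algebraAlong φ
  haveI := isScalarTower_along φ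
  haveI := isIntegral_along φ hφ
  have h := w.deg_restrict_mul_inertiaDeg (F := F)
  rw [IsCurveOver.deg_eq_one_of_isAlgClosed w] at h
  exact Nat.eq_one_of_mul_eq_one_left h

theorem pushforwardAlong_pullbackAlong [HasPrincipalDivisors K F']
    (φ : F →ₐ[K] F') (hφ : φ.toRingHom.IsIntegral) (hfin : FiniteAlong K φ)
    (hsep : SeparableAlong K φ) (D : Divisor K F) :
    Divisor.pushforwardAlong φ hφ (Divisor.pullbackAlong φ hφ D) = (finrankAlong K φ : ℤ) • D :=
  letI := algebraAlong φ
  haveI := isScalarTower_along φ
  haveI : Module.Finite F F' := hfin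
  haveI : Algebra.IsSeparable F F' := hsep
  pushforward_pullback D

variable (φ : F →ₐ[K] F') (ψ : F' →ₐ[K] F'')

theorem isIntegral_comp (hφ : φ.toRingHom.IsIntegral) (hψ : ψ.toRingHom.IsIntegral) :
    (ψ.comp φ).toRingHom.IsIntegral :=
  RingHom.IsIntegral.trans _ _ hφ hψ

theorem finiteAlong_comp (hφ : FiniteAlong K φ) (hψ : FiniteAlong K ψ) :
    FiniteAlong K (ψ.comp φ) :=
  by
  letI := algebraAlong φ
  letI := algebraAlong ψ
  letI := algebraAlong (ψ.comp φ)
  haveI : IsScalarTower F F' F'' := IsScalarTower.of_algebraMap_eq fun _ => rfl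
  haveI : Module.Finite F F' := hφ
  haveI : Module.Finite F' F'' := hψ
  exact Module.Finite.trans F' F'' 

theorem finrankAlong_comp :
    finrankAlong K (ψ.comp φ) = finrankAlong K φ * finrankAlong K ψ :=
  by
  letI := algebraAlong φ
  letI := algebraAlong ψ
  letI := algebraAlong (ψ.comp φ)
  haveI : IsScalarTower F F' F'' := IsScalarTower.of_algebraMap_eq fun _ => rfl
  exact (Module.finrank_mul_finrank F F' F'').symm

theorem separableAlong_comp (hφ : SeparableAlong K φ) (hψ : SeparableAlong K ψ) :
    SeparableAlong K (ψ.comp φ) :=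
  by
  letI := algebraAlong φ
  letI := algebraAlong ψ
  letI := algebraAlong (ψ.comp φ)
  haveI : IsScalarTower F F' F'' := IsScalarTower.of_algebraMap_eq fun _ => rfl
  haveI : Algebra.IsSeparable F F' := hφ
  haveI : Algebra.IsSeparable F' F'' := hψ
  exact Algebra.IsSeparable.trans F F' F'' 

variable (hφ : φ.toRingHom.IsIntegral) (hψ : ψ.toRingHom.IsIntegral)
  (hψφ : (ψ.comp φ).toRingHom.IsIntegral)

theorem restrictAlong_comp (w : Place K F'') :
    w.restrictAlong (ψ.comp φ) hψφ = (w.restrictAlong ψ hψ).restrictAlong φ hφ :=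
  Place.ext rfl

include hφ hψφ in
theorem ramificationIndexAlong_comp (w : Place K F'') :
    w.ramificationIndexAlong (ψ.comp φ) =
      (w.restrictAlong ψ hψ).ramificationIndexAlong φ * w.ramificationIndexAlong ψ :=
  by
  obtain ⟨π, hπ⟩ := IsDiscreteValuationRing.exists_irreducible
    (w.restrictAlong (ψ.comp φ) hψφ).toValuationSubring
  have h := w.ord_restrictAlong (ψ.comp φ) hψφ (π : F)
  rw [Place.ord_coe_irreducible _ hπ, mul_one, AlgHom.comp_apply, w.ord_restrictAlong ψ hψ,
    (w.restrictAlong ψ hψ).ord_restrictAlong φ hφ, ← restrictAlong_comp φ ψ hφ hψ hψφ,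
    Place.ord_coe_irreducible _ hπ, mul_one] at h
  rw [mul_comm]
  exact_mod_cast h.symm

theorem inertiaDegAlong_comp (w : Place K F'') :
    w.inertiaDegAlong (ψ.comp φ) hψφ =
      (w.restrictAlong ψ hψ).inertiaDegAlong φ hφ * w.inertiaDegAlong ψ hψ :=
  by
  letI := algebraAlong φ
  letI := algebraAlong ψ
  letI := algebraAlong (ψ.comp φ)
  haveI : IsScalarTower F F' F'' := IsScalarTower.of_algebraMap_eq fun _ => rfl
  haveI := isScalarTower_along φ
  haveI := isScalarTower_along ψ
  haveI := isScalarTower_along (ψ.comp φ)
  haveI := isIntegral_along φ hφ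
  haveI := isIntegral_along ψ hψ
  haveI := isIntegral_along (ψ.comp φ) hψφ
  show Module.finrank (w.restrict F).ResidueField w.ResidueField =
    Module.finrank ((w.restrict F').restrict F).ResidueField (w.restrict F').ResidueField *
      Module.finrank (w.restrict F').ResidueField w.ResidueField
  letI : Algebra ((w.restrict F').restrict F).ResidueField w.ResidueField :=
    inferInstanceAs (Algebra (w.restrict F).ResidueField w.ResidueField)
  haveI : IsScalarTower ((w.restrict F').restrict F).ResidueField (w.restrict F').ResidueField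
      w.ResidueField := by
    refine IsScalarTower.of_algebraMap_eq fun a => ?_
    obtain ⟨a, rfl⟩ := IsLocalRing.residue_surjective a
    rfl
  exact (Module.finrank_mul_finrank ((w.restrict F').restrict F).ResidueField
    (w.restrict F').ResidueField w.ResidueField).symm

theorem pushforwardAlong_comp :
    Divisor.pushforwardAlong (ψ.comp φ) hψφ =
      (Divisor.pushforwardAlong φ hφ).comp (Divisor.pushforwardAlong ψ hψ) :=
  by
  refine Finsupp.addHom_ext fun w n => ?_
  rw [AddMonoidHom.comp_apply, Divisor.pushforwardAlong_single,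
    Divisor.pushforwardAlong_single, Divisor.pushforwardAlong_single,
    restrictAlong_comp φ ψ hφ hψ hψφ, inertiaDegAlong_comp φ ψ hφ hψ hψφ]
  push_cast
  ring_nf

theorem pullbackAlong_comp [HasPrincipalDivisors K F'] [HasPrincipalDivisors K F''] :
    Divisor.pullbackAlong (ψ.comp φ) hψφ =
      (Divisor.pullbackAlong ψ hψ).comp (Divisor.pullbackAlong φ hφ) :=
  by
  refine AddMonoidHom.ext fun D => Finsupp.ext fun w => ?_
  rw [AddMonoidHom.comp_apply, Divisor.pullbackAlong_apply, Divisor.pullbackAlong_apply,
    Divisor.pullbackAlong_apply, restrictAlong_comp φ ψ hφ hψ hψφ,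
    ramificationIndexAlong_comp φ ψ hφ hψ hψφ]
  push_cast
  ring

end Along

section Iso

variable {K F F' : Type*} [Field K] [Field F] [Field F'] [Algebra K F] [Algebra K F']

theorem ord_restrictAlong_algEquiv (e : F ≃ₐ[K] F') (he : e.toAlgHom.toRingHom.IsIntegral)
    (w : Place K F') (f : F) : (w.restrictAlong e.toAlgHom he).ord f = w.ord (e f) :=
  by
  obtain ⟨π, hπ⟩ := IsDiscreteValuationRing.exists_irreducible w.toValuationSubring
  have h1 := w.ord_coe_irreducible hπ
  have h := w.ord_restrictAlong e.toAlgHom he (e.symm (π : F'))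
  have h' := w.ord_restrictAlong e.toAlgHom he f
  rw [show e.toAlgHom (e.symm (π : F')) = (π : F') from e.apply_symm_apply _, h1] at h
  rw [show e.toAlgHom f = e f from rfl] at h'
  rcases Int.eq_one_or_neg_one_of_mul_eq_one' h.symm with ⟨he1, -⟩ | ⟨he1, -⟩
  · rw [h', he1, one_mul]
  · omega

theorem pullbackAlong_pushforwardAlong_algEquiv [HasPrincipalDivisors K F']
    (e : F ≃ₐ[K] F') (he : e.toAlgHom.toRingHom.IsIntegral) (D : Divisor K F') :
    Divisor.pullbackAlong e.toAlgHom he (Divisor.pushforwardAlong e.toAlgHom he D) = D :=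
  by
  have hres : ∀ w w' : Place K F', w.restrictAlong e.toAlgHom he = w'.restrictAlong e.toAlgHom he →
      w = w' := by
    intro w w' h
    refine Place.ext (SetLike.ext fun g => ?_)
    rw [PlacesOver.mem_iff_ord, PlacesOver.mem_iff_ord, ← e.apply_symm_apply g,
      ← ord_restrictAlong_algEquiv e he w, ← ord_restrictAlong_algEquiv e he w', h]
  have hram : ∀ w : Place K F', w.ramificationIndexAlong e.toAlgHom = 1 := by
    intro w
    obtain ⟨π, hπ⟩ := IsDiscreteValuationRing.exists_irreducible
      (w.restrictAlong e.toAlgHom he).toValuationSubring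
    have h := w.ord_restrictAlong e.toAlgHom he (π : F)
    rw [show e.toAlgHom (π : F) = e (π : F) from rfl, ← ord_restrictAlong_algEquiv e he,
      Place.ord_coe_irreducible _ hπ, mul_one] at h
    exact_mod_cast h.symm
  have hdeg : ∀ w : Place K F', w.inertiaDegAlong e.toAlgHom he = 1 := by
    intro w
    letI := algebraAlong e.toAlgHom
    haveI := isScalarTower_along e.toAlgHom
    haveI := isIntegral_along e.toAlgHom he
    have hs : Function.Surjective
        (algebraMap (w.restrict F).ResidueField w.ResidueField) := fun r => by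
      obtain ⟨g, rfl⟩ := IsLocalRing.residue_surjective r
      have hm : e.symm (g : F') ∈ (w.restrict F).toValuationSubring := by
        rw [Place.mem_restrict_iff]
        show e (e.symm (g : F')) ∈ _
        rw [e.apply_symm_apply]; exact g.2
      refine ⟨IsLocalRing.residue _ ⟨_, hm⟩, ?_⟩
      rw [Place.algebraMap_residueField_eq, Place.restrictResidueMap_residue]
      exact congrArg _ (Subtype.ext (e.apply_symm_apply _))
    exact (LinearEquiv.ofBijective (Algebra.linearMap _ _)
      ⟨RingHom.injective _, hs⟩).finrank_eq.symm.trans (Module.finrank_self _)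
  induction D using Finsupp.induction with
  | zero => simp
  | single_add w n D _ _ ih =>
    rw [map_add, map_add, ih, Divisor.pushforwardAlong_single, Divisor.pullbackAlong_single,
      hdeg w]
    rw [Finset.sum_eq_single_of_mem w (Place.mem_fiberAlong.mpr rfl) fun w' hw' hne =>
      absurd (hres w' w (Place.mem_fiberAlong.mp hw')) hne, hram w]
    simp

end Iso

section BaseChange

variable {K F F₁ F₂ Z : Type*} [Field K] [Field F] [Field F₁] [Field F₂] [Field Z]
  [Algebra K F] [Algebra K F₁] [Algebra K F₂] [Algebra K Z]

/-- Norms commute with base change in a cartesian square of fields. -/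
theorem norm_map_of_cartesian (α : F →ₐ[K] F₁) (β : F →ₐ[K] F₂) (u : F₁ →ₐ[K] Z)
    (t : F₂ →ₐ[K] Z) (hsq : u.comp α = t.comp β) (hβfin : FiniteAlong K β)
    (hufin : FiniteAlong K u) (hgen : u.fieldRange ⊔ t.fieldRange = ⊤)
    (hdeg : finrankAlong K u = finrankAlong K β) (f : F₂) :
    letI := algebraAlong β
    letI := algebraAlong u
    α (Algebra.norm F f) = Algebra.norm F₁ (t f) := by
  classical
  letI := algebraAlong β
  letI := algebraAlong u
  haveI : Module.Finite F F₂ := hβfin
  haveI : Module.Finite F₁ Z := hufin
  haveI := isScalarTower_along u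
  have hc : ∀ a : F, u (α a) = t (β a) := fun a => AlgHom.congr_fun hsq a
  have hlin : ∀ (a : F) (z : F₂), t (a • z) = α a • t z := fun a z => by
    rw [Algebra.smul_def, Algebra.smul_def, map_mul]
    show t (β a) * _ = u (α a) * _
    rw [hc]
  let b := Module.finBasis F F₂
  let V : Submodule F₁ Z := Submodule.span F₁ (Set.range (t ∘ b))
  have htV : ∀ z, t z ∈ V := fun z => by
    rw [← b.sum_repr z, map_sum]
    exact Submodule.sum_mem _ fun i _ => by
      rw [hlin]; exact Submodule.smul_mem _ _ (Submodule.subset_span ⟨i, rfl⟩)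
  have hA : Algebra.adjoin F₁ (Set.range t) ≤
      V.toSubalgebra (by simpa using htV 1) (fun x y hx hy => by
        induction hx using Submodule.span_induction with
        | mem x hx =>
          obtain ⟨i, rfl⟩ := hx
          induction hy using Submodule.span_induction with
          | mem y hy =>
            obtain ⟨j, rfl⟩ := hy
            simpa using htV (b i * b j)
          | zero => simp
          | add _ _ _ _ h₁ h₂ => rw [mul_add]; exact add_mem h₁ h₂
          | smul c _ _ h => rw [mul_smul_comm]; exact Submodule.smul_mem _ c h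
        | zero => simp
        | add _ _ _ _ h₁ h₂ => rw [add_mul]; exact add_mem h₁ h₂
        | smul c _ _ h => rw [smul_mul_assoc]; exact Submodule.smul_mem _ c h) :=
    Algebra.adjoin_le (by rintro _ ⟨z, rfl⟩; exact htV z)
  let A := Algebra.adjoin F₁ (Set.range t)
  have hAfield : IsField A := Subalgebra.isField_of_algebraic A
  let L : IntermediateField F₁ Z := A.toIntermediateField fun x hx => by
    rcases eq_or_ne x 0 with rfl | hx0
    · simp
    obtain ⟨c, hc'⟩ := hAfield.mul_inv_cancel (a := (⟨x, hx⟩ : A))
      (fun h => hx0 (congrArg Subtype.val h))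
    rw [inv_eq_of_mul_eq_one_right (congrArg Subtype.val hc' : x * (c : Z) = 1)]
    exact c.2
  have hV : ⊤ ≤ V := fun z _ => by
    refine hA (show z ∈ L.restrictScalars K from ?_)
    refine (sup_le ?_ ?_ : u.fieldRange ⊔ t.fieldRange ≤ L.restrictScalars K)
      (hgen ▸ IntermediateField.mem_top)
    · rintro _ ⟨a, rfl⟩; exact A.algebraMap_mem a
    · rintro _ ⟨a, rfl⟩; exact Algebra.subset_adjoin ⟨a, rfl⟩
  let b' : Module.Basis (Fin (Module.finrank F F₂)) F₁ Z :=
    basisOfTopLeSpanOfCardEqFinrank (t ∘ b) hV (by
      rw [Fintype.card_fin]; exact hdeg.symm)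
  rw [Algebra.norm_eq_matrix_det b, Algebra.norm_eq_matrix_det b']
  show α.toRingHom _ = _
  rw [RingHom.map_det]
  congr 1
  ext i j
  simp only [RingHom.mapMatrix_apply, Matrix.map_apply, Algebra.leftMulMatrix_eq_repr_mul]
  have hb : ∀ k, b' k = t (b k) := fun k => by simp [b']
  have h := congrArg t (b.sum_repr (f * b j)).symm
  rw [map_mul, map_sum, ← hb] at h
  simp only [hlin, ← hb] at h
  rw [h, b'.repr_sum_self]
  rfl

/-- Push–pull base change for a cartesian square `Z = F₁ ⊗_F F₂` of fields: `Z` is generated by
the two images and the degrees agree. -/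
theorem pullbackAlong_pushforwardAlong_of_cartesian
    [HasPrincipalDivisors K F₁] [HasPrincipalDivisors K F₂] [HasPrincipalDivisors K Z]
    (α : F →ₐ[K] F₁) (β : F →ₐ[K] F₂) (u : F₁ →ₐ[K] Z) (t : F₂ →ₐ[K] Z)
    (hsq : u.comp α = t.comp β)
    (hα : α.toRingHom.IsIntegral) (hβ : β.toRingHom.IsIntegral)
    (hu : u.toRingHom.IsIntegral) (ht : t.toRingHom.IsIntegral)
    (hβfin : FiniteAlong K β) (hufin : FiniteAlong K u)
    (hβsep : SeparableAlong K β) (husep : SeparableAlong K u)
    (hgen : u.fieldRange ⊔ t.fieldRange = ⊤) (hdeg : finrankAlong K u = finrankAlong K β)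
    (D : Divisor K F₂) :
    Divisor.pullbackAlong α hα (Divisor.pushforwardAlong β hβ D) =
      Divisor.pushforwardAlong u hu (Divisor.pullbackAlong t ht D) :=
  by
  classical
  induction D using Finsupp.induction with
  | zero => simp
  | single_add w2 n D _ _ ih =>
    simp only [map_add, ih]
    congr 1
    letI := algebraAlong α
    letI := algebraAlong β
    letI := algebraAlong u
    letI := algebraAlong t
    haveI := isScalarTower_along α
    haveI := isScalarTower_along β
    haveI := isScalarTower_along u
    haveI := isScalarTower_along t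
    haveI := isIntegral_along α hα
    haveI := isIntegral_along t ht
    haveI : Module.Finite F F₂ := hβfin
    haveI : Algebra.IsSeparable F F₂ := hβsep
    haveI : Module.Finite F₁ Z := hufin
    haveI : Algebra.IsSeparable F₁ Z := husep
    show Divisor.pullback F₁ (Divisor.pushforward F (Finsupp.single w2 n))
      = Divisor.pushforward F₁ (Divisor.pullback Z (Finsupp.single w2 n))
    ext w1
    rw [Divisor.pullback_apply, Divisor.pushforward_single, Divisor.pullback_single, map_sum,
      Finsupp.finsetSum_apply]
    have hres : ∀ W : Place K Z, (W.restrict F₁).restrict F = (W.restrict F₂).restrict F :=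
      fun W => Place.ext (SetLike.ext fun a => by
        simp only [Place.mem_restrict_iff]
        show u (α a) ∈ _ ↔ t (β a) ∈ _
        rw [show u (α a) = t (β a) from AlgHom.congr_fun hsq a])
    by_cases hv : w1.restrict F = w2.restrict F
    · rw [hv, Finsupp.single_eq_same]
      obtain ⟨f, hf0, hf1, hf2⟩ := exists_ord_eq_one_at_fiber (F := F) w2
      have e1 : (w2.restrict F).ord (Algebra.norm F f) = w2.inertiaDeg F := by
        rw [ord_norm_eq_sum _ hf0, Finset.sum_eq_single_of_mem w2 (mem_overFinset.mpr rfl)
          fun w hw hne => by rw [hf2 w (mem_overFinset.mp hw) hne, zero_mul], hf1, one_mul]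
      have e2 : (w1.ord (α (Algebra.norm F f)))
          = (w1.ramificationIndex F : ℤ) * w2.inertiaDeg F := by
        rw [show α (Algebra.norm F f) = algebraMap F F₁ (Algebra.norm F f) from rfl,
          w1.ord_restrict, hv, e1]
      rw [norm_map_of_cartesian α β u t hsq hβfin hufin hgen hdeg,
        ord_norm_eq_sum _ (by simpa using hf0)] at e2
      rw [mul_left_comm, ← e2, Finset.mul_sum]
      rw [← Finset.sum_filter_add_sum_filter_not (overFinset Z w1)
        (fun W => W.restrict F₂ = w2)]
      rw [← Finset.sum_filter_add_sum_filter_not (Place.fiber Z w2) (fun W => W.restrict F₁ = w1)]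
      congr 1
      · refine Finset.sum_congr (Finset.ext fun W => by simp [and_comm]) fun W hW => ?_
        simp only [Finset.mem_filter, mem_overFinset, Place.mem_fiber] at hW
        rw [Divisor.pushforward_single, hW.2, Finsupp.single_eq_same,
          show t f = algebraMap F₂ Z f from rfl, W.ord_restrict, hW.1, hf1]
        ring
      · rw [Finset.sum_eq_zero, Finset.sum_eq_zero]
        · intro W hW
          rw [Divisor.pushforward_single, Finsupp.single_eq_of_ne' (Finset.mem_filter.mp hW).2]
        · intro W hW
          simp only [Finset.mem_filter, mem_overFinset] at hW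
          rw [show t f = algebraMap F₂ Z f from rfl, W.ord_restrict,
            hf2 _ ((hres W).symm.trans (by rw [hW.1, hv])) hW.2]
          ring
    · rw [Finsupp.single_eq_of_ne hv, mul_zero, Finset.sum_eq_zero]
      intro W hW
      rw [Divisor.pushforward_single, Finsupp.single_eq_of_ne']
      intro h
      exact hv (by rw [← h, hres, Place.mem_fiber.mp hW])

end BaseChange

end Fermat.Agent.FF
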