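import Fermat.Agent.FF.Different
import Fermat.Agent.FF.PushPull
import Mathlib.Algebra.CharP.Defs

/-!
# Tame and wild ramification over an algebraically closed constant field
-/

set_option autoImplicit false
set_option linter.unusedSectionVars false

noncomputable section

open AlgebraicCurve WithZero Fermat.Agent.FF

namespace Fermat.Agent.FF.Diff

variable {K F F' : Type*} [Field K] [Field F] [Field F'] [Algebra K F] [Algebra K F']
  [Algebra F F'] [IsScalarTower K F F'] [FiniteDimensional F F'] [Algebra.IsSeparable F F']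
  [IsFunctionField K F'] [IsAlgClosed K]

theorem deg_eq_one_upstairs (w : Place K F') : w.deg = 1 :=
  w.deg_eq_one_of_isAlgClosed_of_finite

theorem deg_restrict_eq_one (w : Place K F') : (w.restrict F).deg = 1 :=
  Nat.eq_one_of_mul_eq_one_right
    ((w.deg_restrict_mul_inertiaDeg (F := F)).trans (deg_eq_one_upstairs w))

theorem exists_const_sub_mem (w : Place K F') {f : F'} (hf : f ∈ ordGE w 0) :
    ∃ c : K, f - algebraMap K F' c ∈ ordGE w 1 := by
  have hfin : Algebra.IsIntegral K w.ResidueField := Algebra.IsIntegral.of_finite K w.ResidueField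
  obtain ⟨c, hc⟩ := (IsAlgClosed.algebraMap_bijective_of_isIntegral
    (k := K) (K := w.ResidueField)).2
      (IsLocalRing.residue w.toValuationSubring ⟨f, (mem_ordGE_zero w).mp hf⟩)
  have hmem : f - algebraMap K F' c ∈ w.toValuationSubring :=
    sub_mem ((mem_ordGE_zero w).mp hf) (w.algebraMap_mem' c)
  refine ⟨c, (residue_eq_zero_iff w hmem).mp ?_⟩
  have hsplit : (⟨f - algebraMap K F' c, hmem⟩ : w.toValuationSubring)
      = ⟨f, (mem_ordGE_zero w).mp hf⟩ - algebraMap K w.toValuationSubring c := rfl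
  rw [hsplit, map_sub, sub_eq_zero]
  exact hc.symm

omit [FiniteDimensional F F'] [Algebra.IsSeparable F F'] [IsFunctionField K F'] [IsAlgClosed K] in
theorem mul_mem_ordGE' {v : Place K F'} {f g : F'} {m n k : ℤ} (hk : k ≤ m + n)
    (hf : f ∈ ordGE v m) (hg : g ∈ ordGE v n) : f * g ∈ ordGE v k :=
  ordGE_antitone v hk (mul_mem_ordGE v hf hg)

/-- A trace congruence: an idempotent-like function at `w` has trace congruent to `e`. -/
theorem exists_indicator (w : Place K F') :
    ∃ u : F', u - 1 ∈ ordGE w 1 ∧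
      (∀ w' : Place K F', w'.restrict F = w.restrict F → w' ≠ w →
        u ∈ ordGE w' (w'.ramificationIndex F)) ∧
      Algebra.trace F F' u - (w.ramificationIndex F : F) ∈ ordGE (w.restrict F) 1 := by
  classical
  set v := w.restrict F with hv
  let S := v.fiber F'
  let N : ℕ := 1 + ∑ w' ∈ S, w'.ramificationIndex F
  have hN : ∀ w' ∈ S, (w'.ramificationIndex F : ℤ) + 1 ≤ N := fun w' hw' => by
    have := Finset.single_le_sum (f := fun w' : Place K F' => w'.ramificationIndex F)
      (fun _ _ => Nat.zero_le _) hw'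
    simp only [N]
    omega
  let ι := Σ w' : S, Fin (w'.1.ramificationIndex F)
  have hb : ∀ j : ι, ∃ y : F', ∀ w' ∈ S,
      (w' ≠ j.1.1 → y ∈ ordGE w' N) ∧ (w' = j.1.1 → y ≠ 0 ∧ w'.ord y = (j.2.1 : ℤ)) := by
    intro j
    obtain ⟨t, ht0, ht⟩ := exists_ord_eq_one j.1.1
    obtain ⟨y, hy⟩ := exists_sub_mem_ordGE S
      (fun w' => if w' = j.1.1 then t ^ (j.2.1) else 0) (fun _ => (N : ℤ))
    refine ⟨y, fun w' hw' => ⟨fun hne => ?_, fun he => ?_⟩⟩
    · have := hy w' hw'
      rwa [if_neg hne, sub_zero] at this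
    · subst he
      have h1 := hy _ hw'
      rw [if_pos rfl] at h1
      have h2 := add_ne_zero_and_ord_eq_of_lt j.1.1 (f := t ^ (j.2.1)) (g := y - t ^ (j.2.1))
        (pow_ne_zero _ ht0) ?_
      · rw [add_sub_cancel, Fermat.Agent.FF.ord_pow, ht, mul_one] at h2
        exact h2
      · refine ((mem_ordGE j.1.1).mp h1).imp id fun h => ?_
        rw [Fermat.Agent.FF.ord_pow, ht]
        have := hN _ hw'
        have := j.2.2
        omega
  choose b hb using hb
  have hb0 : ∀ (j : ι) (w' : Place K F'), w' ∈ S → b j ∈ ordGE w' 0 := by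
    intro j w' hw'
    by_cases h : w' = j.1.1
    · exact mem_ordGE_of_le w' (((hb j w' hw').2 h).2 ▸ Int.natCast_nonneg _)
    · exact ordGE_antitone w' (Int.natCast_nonneg N) ((hb j w' hw').1 h)
  -- coordinates of a function vanishing to high order are small
  have key₀ : ∀ c : ι → F, (∀ j, c j ∈ ordGE v 0) →
      (∀ w' ∈ S, ∑ j, algebraMap F F' (c j) * b j ∈ ordGE w' N) → ∀ j, c j ∈ ordGE v 1 := by
    intro c hc hsum j
    by_contra hj
    obtain ⟨w₁, i⟩ := j
    let bad : Finset (Fin (w₁.1.ramificationIndex F)) :=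
      Finset.univ.filter fun i => c ⟨w₁, i⟩ ∉ ordGE v 1
    have hne : bad.Nonempty := ⟨i, by simpa [bad] using hj⟩
    obtain ⟨i₀, hi₀, hmin⟩ := bad.exists_min_image id hne
    simp only [bad, Finset.mem_filter, Finset.mem_univ, true_and] at hi₀
    have hw₁ : w₁.1 ∈ S := w₁.2
    have hr : (w₁.1).restrict F = v := Place.mem_fiber.mp w₁.2
    have hrest : ∑ j ∈ Finset.univ.erase (⟨w₁, i₀⟩ : ι), algebraMap F F' (c j) * b j
        ∈ ordGE w₁.1 ((i₀.1 : ℤ) + 1) := by
      refine Submodule.sum_mem _ fun j hj => ?_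
      obtain ⟨w₂, i₂⟩ := j
      have hne' := (Finset.mem_erase.mp hj).1
      by_cases h12 : w₁.1 = w₂.1
      · obtain rfl : w₁ = w₂ := Subtype.ext h12
        obtain ⟨hb1, hb2⟩ := (hb ⟨w₁, i₂⟩ _ hw₁).2 rfl
        have hne'' : i₂ ≠ i₀ := fun h => hne' (by rw [h])
        rcases lt_or_gt_of_ne hne'' with hlt | hgt
        · have hbad : c ⟨w₁, i₂⟩ ∈ ordGE v 1 := by
            by_contra h
            exact absurd (hmin i₂ (by simpa [bad] using h)) (not_le.mpr hlt)
          refine mul_mem_ordGE' ?_ (algebraMap_mem_ordGE hr hbad)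
            (mem_ordGE_of_le w₁.1 (le_of_eq hb2.symm))
          have := i₀.2
          simp only [mul_one]
          omega
        · refine mul_mem_ordGE' ?_ (algebraMap_mem_ordGE hr (hc _))
            (mem_ordGE_of_le w₁.1 (le_of_eq hb2.symm))
          have : i₀.1 < i₂.1 := hgt
          simp only [mul_zero, zero_add]
          omega
      · refine mul_mem_ordGE' ?_ (algebraMap_mem_ordGE hr (hc _)) ((hb ⟨w₂, i₂⟩ _ hw₁).1 h12)
        have := hN _ hw₁
        have := i₀.2
        simp only [mul_zero, zero_add]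
        omega
    have hterm : algebraMap F F' (c ⟨w₁, i₀⟩) * b ⟨w₁, i₀⟩ ∈ ordGE w₁.1 ((i₀.1 : ℤ) + 1) := by
      have htot : ∑ j, algebraMap F F' (c j) * b j ∈ ordGE w₁.1 ((i₀.1 : ℤ) + 1) := by
        refine ordGE_antitone _ ?_ (hsum _ hw₁)
        have := hN _ hw₁
        have := i₀.2
        omega
      rw [← Finset.add_sum_erase _ _ (Finset.mem_univ (⟨w₁, i₀⟩ : ι))] at htot
      simpa using sub_mem htot hrest
    obtain ⟨hb1, hb2⟩ := (hb ⟨w₁, i₀⟩ _ hw₁).2 rfl
    have hc0 : c ⟨w₁, i₀⟩ ≠ 0 := fun h => hi₀ (h ▸ zero_mem _)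
    have hord : v.ord (c ⟨w₁, i₀⟩) = 0 := by
      have h1 := le_ord_of_mem_ordGE v (hc ⟨w₁, i₀⟩) hc0
      by_contra h
      exact hi₀ (mem_ordGE_of_le v (by omega))
    have := le_ord_of_mem_ordGE _ hterm (mul_ne_zero (by simpa using hc0) hb1)
    rw [Place.ord_mul _ (by simpa using hc0) hb1, hb2, ord_algebraMap_of_restrict hr, hord] at this
    simp at this
  have key : ∀ c : ι → F,
      (∀ w' ∈ S, ∑ j, algebraMap F F' (c j) * b j ∈ ordGE w' N) → ∀ j, c j ∈ ordGE v 1 := by
    intro c hsum j
    by_cases hall : ∀ j, c j ∈ ordGE v 0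
    · exact key₀ c hall hsum j
    exfalso
    push Not at hall
    obtain ⟨j₁, hj₁⟩ := hall
    have hc1 : c j₁ ≠ 0 := fun h => hj₁ (h ▸ zero_mem _)
    obtain ⟨m, hm, hmin⟩ := (Finset.univ.filter fun j => c j ≠ 0).exists_min_image
      (fun j => v.ord (c j)) ⟨j₁, by simpa using hc1⟩
    simp only [Finset.mem_filter, Finset.mem_univ, true_and] at hm hmin
    have hneg : v.ord (c m) < 0 := by
      by_contra h
      exact hj₁ (mem_ordGE_of_le v (by have := hmin j₁ hc1; omega))
    have h1 := key₀ (fun j => (c m)⁻¹ * c j) (fun j => ?_) (fun w' hw' => ?_) m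
    · rw [inv_mul_cancel₀ hm, mem_ordGE, Place.ord_one] at h1
      simp at h1
    · rcases eq_or_ne (c j) 0 with h | h
      · simp [h]
      · refine mem_ordGE_of_le v ?_
        rw [Place.ord_mul _ (inv_ne_zero hm) h, Place.ord_inv]
        have := hmin j h
        omega
    · simp only [map_mul, mul_assoc, ← Finset.mul_sum]
      have hr : w'.restrict F = v := Place.mem_fiber.mp hw'
      refine mul_mem_ordGE' ?_ (mem_ordGE_of_le w' le_rfl) (hsum w' hw')
      rw [ord_algebraMap_of_restrict hr, Place.ord_inv]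
      have := mul_nonneg (Int.natCast_nonneg (w'.ramificationIndex F)) (by omega : 0 ≤ -v.ord (c m))
      omega
  have hli : LinearIndependent F b := by
    rw [Fintype.linearIndependent_iff]
    intro g hg j
    by_contra hj
    have h1 := key (fun j' => (g j)⁻¹ * g j') (fun w' _ => ?_) j
    · rw [inv_mul_cancel₀ hj, mem_ordGE, Place.ord_one] at h1
      simp at h1
    · have hg' : ∑ x, algebraMap F F' (g x) * b x = 0 := by simpa [Algebra.smul_def] using hg
      simp only [map_mul, mul_assoc, ← Finset.mul_sum, hg', mul_zero, zero_mem]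
  have hcard : Fintype.card ι = Module.finrank F F' := by
    have hfi := (fundamentalIdentity (K := K) (F := F) (F' := F')).sum_ramificationIndex_mul_deg v
    have hdv : v.deg = 1 := deg_restrict_eq_one w
    have hdw : ∀ w' : Place K F', w'.deg = 1 := fun w' => deg_eq_one_upstairs w'
    simp only [hdw, hdv, Nat.cast_one, mul_one] at hfi
    have : Fintype.card ι = ∑ w' ∈ S, w'.ramificationIndex F := by
      simp only [ι, Fintype.card_sigma, Fintype.card_fin]
      exact Finset.sum_coe_sort S fun w' => w'.ramificationIndex F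
    rw [this]
    exact_mod_cast hfi
  let B : Module.Basis ι F F' :=
    have : Nonempty ι := ⟨⟨⟨w, Place.restrict_mem_fiber w⟩, ⟨0, w.ramificationIndex_pos⟩⟩⟩
    basisOfLinearIndependentOfCardEqFinrank hli hcard
  have hB : ∀ j, B j = b j := fun j => by simp [B]
  obtain ⟨u, hu1, hu2⟩ := exists_piece (F := F) w (1 : F') N
  have hu1' : u - 1 ∈ ordGE w N := by simpa using neg_mem hu1
  have huS : ∀ w' ∈ S, u ∈ ordGE w' 0 := fun w' hw' => by
    by_cases h : w' = w
    · subst h
      rw [show u = (u - 1) + 1 by ring]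
      exact add_mem (ordGE_antitone _ (Int.natCast_nonneg N) hu1')
        (mem_ordGE_of_le _ (by simp))
    · exact ordGE_antitone _ (Int.natCast_nonneg N) (hu2 w' (Place.mem_fiber.mp hw') h)
  refine ⟨u, ordGE_antitone w
    (by have := hN w (Place.restrict_mem_fiber w); omega) hu1', fun w' hw' hne => ordGE_antitone w' ?_
    (hu2 w' hw' hne), ?_⟩
  · have := hN w' (Place.mem_fiber.mpr hw'); omega
  have hdiag : ∀ j : ι, B.repr (u * B j) j - (if j.1.1 = w then 1 else 0) ∈ ordGE v 1 := by
    intro j
    set δ : F := if j.1.1 = w then 1 else 0 with hδ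
    have hsplit : B.repr (u * B j) j - δ
        = B.repr (u * B j - algebraMap F F' δ * B j) j := by
      rw [← Algebra.smul_def, map_sub, map_smul, B.repr_self]
      simp
    rw [hsplit]
    refine key (fun j' => B.repr (u * B j - algebraMap F F' δ * B j) j') (fun w' hw' => ?_) j
    have hs : ∑ j', algebraMap F F' (B.repr (u * B j - algebraMap F F' δ * B j) j') * b j'
        = u * B j - algebraMap F F' δ * B j := by
      simp_rw [← hB, ← Algebra.smul_def]
      exact B.sum_repr _
    rw [hs, ← sub_mul, hB]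
    have hr : w'.restrict F = v := Place.mem_fiber.mp hw'
    by_cases h1 : w' = j.1.1
    · refine mul_mem_ordGE' (m := (N : ℤ)) (by omega) ?_ (hb0 j w' hw')
      by_cases h2 : j.1.1 = w
      · rw [hδ, if_pos h2, map_one, h1, h2]; exact hu1'
      · rw [hδ, if_neg h2, map_zero, sub_zero]
        exact hu2 w' hr (h1 ▸ h2)
    · refine mul_mem_ordGE' (m := 0) (by omega) (sub_mem (huS w' hw') ?_) ((hb j w' hw').1 h1)
      by_cases h2 : j.1.1 = w <;> simp [hδ, h2, mem_ordGE]
  have hsumδ : ∑ j : ι, (if j.1.1 = w then (1 : F) else 0) = (w.ramificationIndex F : F) := by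
    rw [Fintype.sum_sigma]
    have h1 : ∀ x : S, ∑ _i : Fin (x.1.ramificationIndex F), (if x.1 = w then (1 : F) else 0)
        = if x.1 = w then (x.1.ramificationIndex F : F) else 0 := fun x => by
      split <;> simp
    simp only [h1]
    rw [Finset.sum_coe_sort S (fun w' => if w' = w then (w'.ramificationIndex F : F) else 0),
      Finset.sum_ite_eq' S w, if_pos (Place.restrict_mem_fiber w)]
  rw [Algebra.trace_eq_matrix_trace B u, Matrix.trace, ← hsumδ, ← Finset.sum_sub_distrib]
  refine Submodule.sum_mem _ fun j _ => ?_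
  rw [Matrix.diag_apply, Algebra.leftMulMatrix_eq_repr_mul]
  exact hdiag j

/-- Tame: `d = e - 1`. -/
theorem differentExponent_eq_of_tame (w : Place K F')
    (h : (w.ramificationIndex F : K) ≠ 0) :
    differentExponent F w = w.ramificationIndex F - 1 := by
  refine le_antisymm (Nat.le_sub_one_of_lt (not_le.mp fun hle => ?_))
    (ramificationIndex_sub_one_le_differentExponent w)
  rw [le_differentExponent_iff] at hle
  obtain ⟨u, hu1, hu2, hu3⟩ := exists_indicator (F := F) w
  obtain ⟨t, ht0, ht⟩ := exists_ord_eq_one (w.restrict F)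
  have hu0 : u ∈ ordGE w 0 := by
    rw [show u = (u - 1) + 1 by ring]
    exact add_mem (ordGE_antitone _ zero_le_one hu1) (mem_ordGE_of_le _ (by simp))
  have h1 := hle (algebraMap F F' t⁻¹ * u)
    (mul_mem_ordGE' (by rw [ord_algebraMap_of_restrict rfl, Place.ord_inv, ht]; simp)
      (mem_ordGE_of_le _ le_rfl) hu0)
    fun w' hw' hne => mul_mem_ordGE'
      (by rw [ord_algebraMap_of_restrict hw', Place.ord_inv, ht]; simp)
      (mem_ordGE_of_le _ le_rfl) (hu2 w' hw' hne)
  rw [trace_algebraMap_mul, mul_mem_ordGE_iff _ (inv_ne_zero ht0), Place.ord_inv, ht] at h1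
  have h2 : (w.ramificationIndex F : F) ∈ ordGE (w.restrict F) 1 := by
    simpa using sub_mem (show Algebra.trace F F' u ∈ ordGE (w.restrict F) 1 by simpa using h1) hu3
  rw [← map_natCast (algebraMap K F), mem_ordGE, Fermat.Agent.FF.ord_algebraMap,
    map_eq_zero, or_iff_left (by decide)] at h2
  exact h h2

/-- Wild: `d ≥ e`. -/
theorem ramificationIndex_le_differentExponent_of_wild (w : Place K F')
    (h : (w.ramificationIndex F : K) = 0) :
    w.ramificationIndex F ≤ differentExponent F w := by
  rw [le_differentExponent_iff]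
  intro z hz hz'
  obtain ⟨t, ht0, ht⟩ := exists_ord_eq_one (w.restrict F)
  obtain ⟨u, hu1, hu2, hu3⟩ := exists_indicator (F := F) w
  have hy0 : algebraMap F F' t * z ∈ ordGE w 0 :=
    mul_mem_ordGE' (by rw [ord_algebraMap_of_restrict rfl, ht]; simp)
      (mem_ordGE_of_le _ le_rfl) hz
  obtain ⟨c, hc⟩ := exists_const_sub_mem w hy0
  have hrest : Algebra.trace F F' (algebraMap F F' t * z - algebraMap K F' c * u)
      ∈ ordGE (w.restrict F) 1 := by
    refine trace_mem_ordGE_one _ fun w' hw' => ?_
    have he := w'.ramificationIndex_pos (F := F)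
    by_cases hne : w' = w
    · subst hne
      rw [show algebraMap F F' t * z - algebraMap K F' c * u
        = (algebraMap F F' t * z - algebraMap K F' c) - algebraMap K F' c * (u - 1) by ring]
      exact sub_mem hc (mul_mem_ordGE' (le_of_eq (zero_add 1).symm)
        (algebraMap_mem_ordGE_zero w' c) hu1)
    · refine sub_mem (mul_mem_ordGE' (m := (w'.ramificationIndex F : ℤ)) (n := 0) (by omega)
        (mem_ordGE_of_le _ ?_) (hz' w' hw' hne))
        (mul_mem_ordGE' (by omega) (algebraMap_mem_ordGE_zero w' c) (hu2 w' hw' hne))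
      rw [ord_algebraMap_of_restrict hw', ht, mul_one]
  have he0 : (w.ramificationIndex F : F) = 0 := by
    rw [← map_natCast (algebraMap K F), h, map_zero]
  rw [he0, sub_zero] at hu3
  have hcu : Algebra.trace F F' (algebraMap K F' c * u) ∈ ordGE (w.restrict F) 1 := by
    rw [IsScalarTower.algebraMap_apply K F F', trace_algebraMap_mul, ← Algebra.smul_def]
    exact Submodule.smul_mem _ c hu3
  have htot := add_mem hrest hcu
  rw [← map_add, sub_add_cancel, trace_algebraMap_mul, mul_mem_ordGE_iff _ ht0, ht] at htot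
  simpa using htot

end Fermat.Agent.FF.Diff
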