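/-
Power series expansion at a place of degree one: `O_v → K⟦X⟧`, `F → K⸨X⸩` with `π ↦ X`.
-/
import Fermat.Prelude.Def_AlgebraicCurve_DivisorClassGroup
import Mathlib.RingTheory.LaurentSeries
import Mathlib.RingTheory.PowerSeries.Trunc
import Mathlib.RingTheory.PowerSeries.Derivative

set_option autoImplicit false

noncomputable section

open AlgebraicCurve

namespace Fermat.Agent.FF.KS

variable {K F : Type*} [Field K] [Field F] [Algebra K F]
variable (v : Place K F)

/-- An element of order `1` of the valuation ring; the input of all expansions. -/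
structure Coord (v : Place K F) where
  π : v.toValuationSubring
  irreducible : Irreducible π
  deg_one : v.deg = 1

variable {v}

theorem exists_coord (hv : v.deg = 1) : Nonempty (Coord v) :=
  ⟨⟨_, (IsDiscreteValuationRing.exists_irreducible v.toValuationSubring).choose_spec, hv⟩⟩

variable (t : Coord v)

namespace Coord

theorem π_ne_zero : t.π ≠ 0 := t.irreducible.ne_zero

theorem coe_π_ne_zero : (t.π : F) ≠ 0 := by
  simpa [ne_eq, ZeroMemClass.coe_eq_zero] using t.π_ne_zero

theorem ord_π : v.ord (t.π : F) = 1 := v.ord_coe_irreducible t.irreducible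

include t in
theorem residue_surjective (r : v.ResidueField) : ∃ c : K, algebraMap K v.ResidueField c = r :=
  haveI : Module.Finite K v.ResidueField := Module.finite_of_finrank_eq_succ (n := 0) t.deg_one
  ((bijective_algebraMap_of_linearEquiv
    (LinearEquiv.ofFinrankEq K v.ResidueField
      (by rw [Module.finrank_self]; exact t.deg_one.symm)))).2 r

theorem exists_digit (w : v.toValuationSubring) :
    ∃ c : K, t.π ∣ w - algebraMap K v.toValuationSubring c := by
  obtain ⟨c, hc⟩ := t.residue_surjective (IsLocalRing.residue _ w)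
  refine ⟨c, ?_⟩
  rw [← Ideal.mem_span_singleton, ← t.irreducible.maximalIdeal_eq,
    ← IsLocalRing.residue_eq_zero_iff, map_sub, ← hc]
  simp [IsScalarTower.algebraMap_apply K v.toValuationSubring v.ResidueField]

def digit (w : v.toValuationSubring) : K := (t.exists_digit w).choose

def tail (w : v.toValuationSubring) : v.toValuationSubring := (t.exists_digit w).choose_spec.choose

theorem digit_tail (w : v.toValuationSubring) :
    w = algebraMap K v.toValuationSubring (t.digit w) + t.π * t.tail w := by
  have h : w - algebraMap K v.toValuationSubring (t.digit w) = t.π * t.tail w :=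
    (t.exists_digit w).choose_spec.choose_spec
  rw [← h]; ring

def rawSeries (w : v.toValuationSubring) : PowerSeries K :=
  PowerSeries.mk fun n => t.digit (t.tail^[n] w)

/-- `f` is an expansion of `w`. -/
def IsExp (w : v.toValuationSubring) (f : PowerSeries K) : Prop :=
  ∀ N : ℕ, t.π ^ N ∣ w - Polynomial.aeval t.π (PowerSeries.trunc N f)

theorem isExp_rawSeries (w : v.toValuationSubring) : t.IsExp w (t.rawSeries w) := by
  intro N
  suffices h : w - Polynomial.aeval t.π (PowerSeries.trunc N (t.rawSeries w))
      = t.π ^ N * t.tail^[N] w from ⟨_, h⟩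
  induction N with
  | zero => simp
  | succ n ih =>
    rw [PowerSeries.trunc_succ, map_add, Polynomial.aeval_monomial, rawSeries,
      PowerSeries.coeff_mk, ← sub_sub]
    rw [rawSeries] at ih
    rw [ih, Function.iterate_succ_apply']
    have h := t.digit_tail (t.tail^[n] w)
    linear_combination (t.π ^ n) * h

theorem coeff_eq_zero_of_pow_dvd {P : Polynomial K} {N : ℕ}
    (h : t.π ^ N ∣ Polynomial.aeval t.π P) : ∀ i < N, P.coeff i = 0 := by
  intro i
  induction i using Nat.strong_induction_on with
  | _ i ih =>
    intro hi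
    obtain ⟨Q, hQ⟩ : Polynomial.X ^ i ∣ P :=
      Polynomial.X_pow_dvd_iff.mpr fun d hd => ih d hd (hd.trans hi)
    obtain ⟨r, hr⟩ := h
    obtain ⟨k, rfl⟩ : ∃ k, N = i + (k + 1) := ⟨N - i - 1, by omega⟩
    rw [hQ, map_mul, map_pow, Polynomial.aeval_X, pow_add, mul_assoc] at hr
    have hr' := mul_left_cancel₀ (pow_ne_zero i t.π_ne_zero) hr
    obtain ⟨Q', hQ'⟩ : Polynomial.X ∣ Q - Polynomial.C (Q.coeff 0) :=
      Polynomial.X_dvd_iff.mpr (by simp)
    have h0 : t.π ∣ algebraMap K v.toValuationSubring (Q.coeff 0) := by
      have hq : Polynomial.aeval t.π Q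
          - algebraMap K v.toValuationSubring (Q.coeff 0)
          = t.π * Polynomial.aeval t.π Q' := by
        have := congrArg (Polynomial.aeval t.π) hQ'
        simpa using this
      refine ⟨t.π ^ k * r - Polynomial.aeval t.π Q', ?_⟩
      rw [mul_sub, ← hq, hr', pow_succ']
      ring
    by_contra hne
    refine t.irreducible.not_isUnit (isUnit_of_dvd_unit h0 ?_)
    refine (IsUnit.mk0 _ ?_).map (algebraMap K v.toValuationSubring)
    rw [hQ] at hne
    simpa [Polynomial.coeff_X_pow_mul'] using hne

theorem isExp_unique {w : v.toValuationSubring} {f g : PowerSeries K}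
    (hf : t.IsExp w f) (hg : t.IsExp w g) : f = g := by
  ext n
  have h := dvd_sub (hg (n + 1)) (hf (n + 1))
  rw [sub_sub_sub_cancel_left, ← map_sub] at h
  have h' := t.coeff_eq_zero_of_pow_dvd h n n.lt_succ_self
  simpa [PowerSeries.coeff_trunc, sub_eq_zero] using h'

theorem rawSeries_eq {w : v.toValuationSubring} {f : PowerSeries K} (h : t.IsExp w f) :
    t.rawSeries w = f :=
  t.isExp_unique (t.isExp_rawSeries w) h

theorem isExp_algebraMap (c : K) :
    t.IsExp (algebraMap K v.toValuationSubring c) (PowerSeries.C c) := by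
  intro N
  cases N with
  | zero => simp
  | succ n => rw [PowerSeries.trunc_C]; simp

theorem isExp_π : t.IsExp t.π PowerSeries.X := by
  intro N
  match N with
  | 0 => simp
  | 1 => simp
  | n + 2 => rw [PowerSeries.trunc_X_of (by omega)]; simp

theorem isExp_add {a b : v.toValuationSubring} {f g : PowerSeries K}
    (hf : t.IsExp a f) (hg : t.IsExp b g) : t.IsExp (a + b) (f + g) := by
  intro N
  rw [map_add, map_add, add_sub_add_comm]
  exact dvd_add (hf N) (hg N)

theorem isExp_mul {a b : v.toValuationSubring} {f g : PowerSeries K}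
    (hf : t.IsExp a f) (hg : t.IsExp b g) : t.IsExp (a * b) (f * g) := by
  intro N
  set P := PowerSeries.trunc N f with hP
  set Q := PowerSeries.trunc N g with hQ
  have h1 : t.π ^ N ∣ a * b - Polynomial.aeval t.π P * Polynomial.aeval t.π Q := by
    have e : a * b - Polynomial.aeval t.π P * Polynomial.aeval t.π Q
      = (a - Polynomial.aeval t.π P) * b + Polynomial.aeval t.π P * (b - Polynomial.aeval t.π Q) := by
      ring
    rw [e]
    exact dvd_add (dvd_mul_of_dvd_left (hf N) _) (dvd_mul_of_dvd_right (hg N) _)
  have h2 : t.π ^ N ∣ Polynomial.aeval t.π P * Polynomial.aeval t.π Q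
      - Polynomial.aeval t.π (PowerSeries.trunc N (f * g)) := by
    obtain ⟨R, hR⟩ : Polynomial.X ^ N ∣ P * Q - PowerSeries.trunc N (f * g) := by
      rw [Polynomial.X_pow_dvd_iff]
      intro d hd
      have := congrArg (fun p => Polynomial.coeff p d) (PowerSeries.trunc_trunc_mul_trunc (n := N) f g)
      simp only [PowerSeries.coeff_trunc, hd, if_true, ← Polynomial.coe_mul,
        Polynomial.coeff_coe] at this
      rw [Polynomial.coeff_sub, hP, hQ, this, PowerSeries.coeff_trunc, if_pos hd, sub_self]
    refine ⟨Polynomial.aeval t.π R, ?_⟩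
    simpa using congrArg (Polynomial.aeval t.π) hR
  simpa using dvd_add h1 h2

/-- Expansion of regular functions. -/
def expand : v.toValuationSubring →ₐ[K] PowerSeries K where
  toFun := t.rawSeries
  map_one' := t.rawSeries_eq (by simpa using t.isExp_algebraMap 1)
  map_mul' a b := t.rawSeries_eq (t.isExp_mul (t.isExp_rawSeries a) (t.isExp_rawSeries b))
  map_zero' := t.rawSeries_eq (by simpa using t.isExp_algebraMap 0)
  map_add' a b := t.rawSeries_eq (t.isExp_add (t.isExp_rawSeries a) (t.isExp_rawSeries b))
  commutes' c := by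
    rw [t.rawSeries_eq (t.isExp_algebraMap c)]
    simp

theorem isExp_expand (w : v.toValuationSubring) : t.IsExp w (t.expand w) := t.isExp_rawSeries w

@[simp]
theorem expand_π : t.expand t.π = PowerSeries.X := t.rawSeries_eq t.isExp_π

theorem constantCoeff_expand_ne_zero (u : v.toValuationSubringˣ) :
    PowerSeries.constantCoeff (t.expand u) ≠ 0 :=
  ((u.isUnit.map t.expand).map (PowerSeries.constantCoeff (R := K))).ne_zero

theorem expand_injective : Function.Injective t.expand := by
  rw [injective_iff_map_eq_zero]
  intro w hw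
  by_contra hne
  obtain ⟨n, u, rfl⟩ := IsDiscreteValuationRing.eq_unit_mul_pow_irreducible hne t.irreducible
  rw [map_mul, map_pow, t.expand_π] at hw
  rcases mul_eq_zero.mp hw with h | h
  · exact t.constantCoeff_expand_ne_zero u (by rw [h]; simp)
  · exact pow_ne_zero n PowerSeries.X_ne_zero h

/-- Expansion of regular functions, as Laurent series. -/
def expandL : v.toValuationSubring →ₐ[K] LaurentSeries K :=
  { (HahnSeries.ofPowerSeries ℤ K).comp t.expand.toRingHom with
    commutes' := fun c => by
      show HahnSeries.ofPowerSeries ℤ K (t.expand (algebraMap K v.toValuationSubring c)) = _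
      rw [t.expand.commutes]
      rfl }

theorem expandL_apply (w : v.toValuationSubring) :
    t.expandL w = HahnSeries.ofPowerSeries ℤ K (t.expand w) := rfl

theorem expandL_injective : Function.Injective t.expandL :=
  HahnSeries.ofPowerSeries_injective.comp t.expand_injective

/-- Expansion of all functions. -/
def laurent : F →ₐ[K] LaurentSeries K :=
  IsFractionRing.liftAlgHom (A := v.toValuationSubring) (K := F) (g := t.expandL)
    t.expandL_injective

theorem laurent_coe (w : v.toValuationSubring) :
    t.laurent (w : F) = HahnSeries.ofPowerSeries ℤ K (t.expand w) :=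
  IsFractionRing.lift_algebraMap (A := v.toValuationSubring) (K := F)
    (g := (t.expandL : v.toValuationSubring →+* LaurentSeries K)) t.expandL_injective w

@[simp]
theorem laurent_π : t.laurent (t.π : F) = HahnSeries.single 1 1 := by
  rw [t.laurent_coe, t.expand_π, HahnSeries.ofPowerSeries_X]

theorem laurent_algebraMap (c : K) : t.laurent (algebraMap K F c) = HahnSeries.C c := by
  rw [show algebraMap K F c = ((algebraMap K v.toValuationSubring c : v.toValuationSubring) : F)
    from rfl, t.laurent_coe, t.expand.commutes]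
  exact HahnSeries.ofPowerSeries_C c

theorem laurent_smul (c : K) (f : F) : t.laurent (c • f) = c • t.laurent f := by
  rw [Algebra.smul_def, map_mul, t.laurent_algebraMap, HahnSeries.C_mul_eq_smul]

theorem laurent_injective : Function.Injective t.laurent := t.laurent.toRingHom.injective

theorem laurent_ne_zero {f : F} (hf : f ≠ 0) : t.laurent f ≠ 0 :=
  (map_ne_zero_iff _ t.laurent_injective).mpr hf

theorem orderTop_ofPowerSeries_eq_zero {f : PowerSeries K}
    (hf : PowerSeries.constantCoeff f ≠ 0) :
    (HahnSeries.ofPowerSeries ℤ K f).order = 0 := by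
  have h0 : (HahnSeries.ofPowerSeries ℤ K f).coeff 0 ≠ 0 := by
    simpa [PowerSeries.coeff_coe] using hf
  refine le_antisymm (HahnSeries.order_le_of_coeff_ne_zero h0) ?_
  have hne : HahnSeries.ofPowerSeries ℤ K f ≠ 0 := fun h => h0 (by simp [h])
  by_contra hlt
  apply mt HahnSeries.coeff_order_eq_zero.mp hne
  rw [PowerSeries.coeff_coe, if_pos (not_le.mp hlt)]

theorem order_single_one_zpow (n : ℤ) :
    ((HahnSeries.single (1 : ℤ) (1 : K)) ^ n).order = n := by
  rw [← RatFunc.single_zpow, HahnSeries.order_single one_ne_zero]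

theorem order_laurent {f : F} (hf : f ≠ 0) : (t.laurent f).order = v.ord f := by
  obtain ⟨u, hu⟩ := v.exists_unit_mul_zpow hf t.irreducible
  have h1 : (HahnSeries.ofPowerSeries ℤ K (t.expand u)).order = 0 :=
    orderTop_ofPowerSeries_eq_zero (t.constantCoeff_expand_ne_zero u)
  conv_lhs => rw [hu, map_mul, map_zpow₀, t.laurent_π, t.laurent_coe]
  rw [HahnSeries.order_mul, h1, order_single_one_zpow, zero_add]
  · intro h
    exact t.constantCoeff_expand_ne_zero u
      (by rw [HahnSeries.ofPowerSeries_injective (h.trans (map_zero _).symm)]; simp)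
  · exact zpow_ne_zero _ (HahnSeries.single_ne_zero one_ne_zero)

theorem ord_nonneg_of_laurent_coeff_neg {f : F} (hf : f ≠ 0)
    (h : ∀ n : ℤ, n < 0 → (t.laurent f).coeff n = 0) : 0 ≤ v.ord f := by
  rw [← t.order_laurent hf]
  by_contra hlt
  exact t.laurent_ne_zero hf (HahnSeries.coeff_order_eq_zero.mp (h _ (not_le.mp hlt)))

include t in
theorem mem_iff_ord_nonneg {f : F} (hf : f ≠ 0) :
    f ∈ v.toValuationSubring ↔ 0 ≤ v.ord f := by
  constructor
  · intro h
    refine t.ord_nonneg_of_laurent_coeff_neg hf fun n hn => ?_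
    have := t.laurent_coe ⟨f, h⟩
    simp only at this
    rw [this, PowerSeries.coeff_coe, if_pos hn]
  · intro h
    obtain ⟨u, hu⟩ := v.exists_unit_mul_zpow hf t.irreducible
    obtain ⟨n, hn⟩ := Int.eq_ofNat_of_zero_le h
    rw [hu, hn, zpow_natCast, ← SubmonoidClass.coe_pow]
    exact mul_mem (SetLike.coe_mem _) (SetLike.coe_mem _)

end Coord

end Fermat.Agent.FF.KS
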