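/-
Differentials and power series at a degree-one place: `DCoordGenerates`, `ordDifferential`.
-/
import Fermat.Agent.FF.KaehlerSeries
import Fermat.Prelude.Def_ModularCurve_CanonicalDivisor
import Fermat.Prelude.Def_AlgebraicCurve_IsCurveOver

set_option autoImplicit false

noncomputable section

open AlgebraicCurve KaehlerDifferential

namespace Fermat.Agent.FF.KS

variable {K : Type*} [Field K]

/-- The derivative of a Laurent series. -/
abbrev seriesDeriv (K : Type*) [Field K] : LaurentSeries K →ₗ[K] LaurentSeries K :=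
  LaurentSeries.derivative K

theorem seriesDeriv_coeff (f : LaurentSeries K) (n : ℤ) :
    (seriesDeriv K f).coeff n = ((n + 1 : ℤ) : K) * f.coeff (n + 1) := by
  simp [LaurentSeries.derivative_apply, LaurentSeries.hasseDeriv_coeff, zsmul_eq_mul]

theorem seriesDeriv_ofPowerSeries (p : PowerSeries K) :
    seriesDeriv K (HahnSeries.ofPowerSeries ℤ K p)
      = HahnSeries.ofPowerSeries ℤ K (PowerSeries.derivative K p) := by
  ext n
  rw [seriesDeriv_coeff, PowerSeries.coeff_coe, PowerSeries.coeff_coe]
  rcases lt_trichotomy n (-1) with h | h | h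
  · simp [show n + 1 < 0 by omega, show n < 0 by omega]
  · subst h; simp
  · obtain ⟨m, rfl⟩ := Int.eq_ofNat_of_zero_le (show 0 ≤ n by omega)
    simp only [show ¬((m : ℤ) + 1 < 0) by omega, show ¬((m : ℤ) < 0) by omega, if_false,
      Int.natAbs_natCast, show ((m : ℤ) + 1).natAbs = m + 1 by omega, PowerSeries.coeff_derivative]
    push_cast
    ring

theorem seriesDeriv_single_mul (m : ℤ) (p : LaurentSeries K) :
    seriesDeriv K (HahnSeries.single m (1 : K) * p)
      = (m : K) • (HahnSeries.single (m - 1) (1 : K) * p)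
        + HahnSeries.single m (1 : K) * seriesDeriv K p := by
  ext n
  obtain ⟨k, rfl⟩ : ∃ k, n = k + (m - 1) := ⟨n - (m - 1), by ring⟩
  rw [seriesDeriv_coeff, HahnSeries.coeff_add, HahnSeries.coeff_smul,
    HahnSeries.coeff_single_mul_add]
  rw [show k + (m - 1) + 1 = k + m by ring, HahnSeries.coeff_single_mul_add,
    show k + (m - 1) = (k - 1) + m by ring, HahnSeries.coeff_single_mul_add, seriesDeriv_coeff,
    sub_add_cancel]
  simp only [smul_eq_mul]
  push_cast
  ring

theorem seriesDeriv_mul (f g : LaurentSeries K) :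
    seriesDeriv K (f * g) = f * seriesDeriv K g + g * seriesDeriv K f := by
  obtain ⟨a, p, rfl⟩ : ∃ a p, f = HahnSeries.single a 1 * HahnSeries.ofPowerSeries ℤ K p :=
    ⟨_, _, (LaurentSeries.single_order_mul_powerSeriesPart f).symm⟩
  obtain ⟨b, q, rfl⟩ : ∃ b q, g = HahnSeries.single b 1 * HahnSeries.ofPowerSeries ℤ K q :=
    ⟨_, _, (LaurentSeries.single_order_mul_powerSeriesPart g).symm⟩
  rw [show HahnSeries.single a (1 : K) * HahnSeries.ofPowerSeries ℤ K p *
      (HahnSeries.single b 1 * HahnSeries.ofPowerSeries ℤ K q)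
      = HahnSeries.single (a + b) 1 * HahnSeries.ofPowerSeries ℤ K (p * q) by
    rw [map_mul, mul_mul_mul_comm, HahnSeries.single_mul_single, one_mul]]
  simp only [seriesDeriv_single_mul, seriesDeriv_ofPowerSeries, Derivation.leibniz, smul_eq_mul]
  simp only [map_add, map_mul, Int.cast_add, ← HahnSeries.C_mul_eq_smul]
  have e1 : HahnSeries.single (a + b - 1) (1 : K)
      = HahnSeries.single (a - 1) 1 * HahnSeries.single b 1 := by
    rw [HahnSeries.single_mul_single, one_mul]; congr 1; ring_nf
  have e2 : HahnSeries.single (a - 1) (1 : K) * HahnSeries.single b 1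
      = HahnSeries.single a 1 * HahnSeries.single (b - 1) 1 := by
    rw [HahnSeries.single_mul_single, HahnSeries.single_mul_single]; congr 1; ring_nf
  have e3 : HahnSeries.single (a + b) (1 : K)
      = HahnSeries.single a 1 * HahnSeries.single b 1 := by
    rw [HahnSeries.single_mul_single, one_mul]
  rw [e1, e3]
  linear_combination (HahnSeries.C (b : K) * (HahnSeries.ofPowerSeries ℤ K p)
    * (HahnSeries.ofPowerSeries ℤ K q)) * e2

variable {F : Type*} [Field F] [Algebra K F] {v : Place K F}

/-- Laurent series, regarded as an `F`-vector space through the expansion at `v`. -/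
def SeriesMod (_t : Coord v) : Type _ := LaurentSeries K

namespace SeriesMod

variable (t : Coord v)

def mk' (f : LaurentSeries K) : SeriesMod t := f

variable {t} in
/-- The underlying series. -/
def out (x : SeriesMod t) : LaurentSeries K := x

instance : AddCommGroup (SeriesMod t) := inferInstanceAs (AddCommGroup (LaurentSeries K))

instance : Module K (SeriesMod t) := inferInstanceAs (Module K (LaurentSeries K))

instance : Module F (SeriesMod t) where
  smul f x := mk' t (t.laurent f * out x)
  one_smul x := show t.laurent 1 * out x = out x by rw [map_one, one_mul]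
  mul_smul f g x := show t.laurent (f * g) * out x = t.laurent f * (t.laurent g * out x) by
    rw [map_mul, mul_assoc]
  smul_zero f := show t.laurent f * (0 : LaurentSeries K) = 0 from mul_zero _
  smul_add f x y := show t.laurent f * (out x + out y) = t.laurent f * out x + t.laurent f * out y
    from mul_add _ _ _
  add_smul f g x := show t.laurent (f + g) * out x = t.laurent f * out x + t.laurent g * out x by
    rw [map_add, add_mul]
  zero_smul x := show t.laurent 0 * out x = 0 by rw [map_zero, zero_mul]

theorem out_smul (f : F) (x : SeriesMod t) : out (f • x) = t.laurent f * out x := rfl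

instance : IsScalarTower K F (SeriesMod t) where
  smul_assoc c f x := show t.laurent (c • f) * out x = c • (t.laurent f * out x) by
    rw [t.laurent_smul, ← HahnSeries.C_mul_eq_smul, ← HahnSeries.C_mul_eq_smul, mul_assoc]

end SeriesMod

namespace Coord

variable (t : Coord v)

def deriv : Derivation K F (SeriesMod t) :=
  Derivation.mk'
    { toFun := fun f => SeriesMod.mk' t (seriesDeriv K (t.laurent f))
      map_add' := fun f g => show seriesDeriv K (t.laurent (f + g))
          = seriesDeriv K (t.laurent f) + seriesDeriv K (t.laurent g) by rw [map_add, map_add]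
      map_smul' := fun c f => show seriesDeriv K (t.laurent (c • f))
          = c • seriesDeriv K (t.laurent f) by rw [t.laurent_smul, map_smul] }
    fun a b => show seriesDeriv K (t.laurent (a * b))
        = t.laurent a * seriesDeriv K (t.laurent b) + t.laurent b * seriesDeriv K (t.laurent a) by
      rw [map_mul, seriesDeriv_mul]

/-- The series `Φ(ω)` with `ω = Φ(ω) dπ`. -/
def diffSeries (ω : Ω[F⁄K]) : LaurentSeries K :=
  SeriesMod.out (t.deriv.liftKaehlerDifferential ω)

theorem diffSeries_add (ω η : Ω[F⁄K]) :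
    t.diffSeries (ω + η) = t.diffSeries ω + t.diffSeries η :=
  congrArg SeriesMod.out (t.deriv.liftKaehlerDifferential.map_add ω η)

@[simp]
theorem diffSeries_zero : t.diffSeries 0 = 0 :=
  congrArg SeriesMod.out t.deriv.liftKaehlerDifferential.map_zero

theorem diffSeries_smul (f : F) (ω : Ω[F⁄K]) :
    t.diffSeries (f • ω) = t.laurent f * t.diffSeries ω :=
  congrArg SeriesMod.out (t.deriv.liftKaehlerDifferential.map_smul f ω)

theorem diffSeries_D (f : F) : t.diffSeries (D K F f) = seriesDeriv K (t.laurent f) :=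
  congrArg SeriesMod.out (Derivation.liftKaehlerDifferential_comp_D t.deriv f)

theorem diffSeries_D_coe (w : v.toValuationSubring) :
    t.diffSeries (D K F (w : F))
      = HahnSeries.ofPowerSeries ℤ K (PowerSeries.derivative K (t.expand w)) := by
  rw [t.diffSeries_D, t.laurent_coe, seriesDeriv_ofPowerSeries]

theorem diffSeries_dπ : t.diffSeries (D K F (t.π : F)) = 1 := by
  rw [t.diffSeries_D_coe, t.expand_π, PowerSeries.derivative_X, map_one]

theorem dπ_ne_zero : D K F (t.π : F) ≠ 0 := fun h => by
  simpa [h] using t.diffSeries_dπ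

include t in
theorem span_dπ [IsCurveOver K F] : Submodule.span F {D K F (t.π : F)} = ⊤ := by
  rw [eq_top_iff]
  rintro ω -
  obtain ⟨c, hc⟩ := (finrank_eq_one_iff_of_nonzero' _ t.dπ_ne_zero).mp
    IsCurveOver.finrank_kaehler ω
  exact Submodule.mem_span_singleton.mpr ⟨c, hc⟩

theorem exists_eq_smul_dπ [IsCurveOver K F] (ω : Ω[F⁄K]) : ∃ c : F, ω = c • D K F (t.π : F) :=
  let ⟨c, hc⟩ := (finrank_eq_one_iff_of_nonzero' _ t.dπ_ne_zero).mp IsCurveOver.finrank_kaehler ω
  ⟨c, hc.symm⟩

theorem diffSeries_injective [IsCurveOver K F] {ω : Ω[F⁄K]} (h : t.diffSeries ω = 0) : ω = 0 := by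
  obtain ⟨c, rfl⟩ := t.exists_eq_smul_dπ ω
  rw [t.diffSeries_smul, t.diffSeries_dπ, mul_one] at h
  rw [(map_eq_zero_iff _ t.laurent_injective).mp h, zero_smul]

theorem constantCoeff_derivative_expand (s : Coord v) :
    PowerSeries.constantCoeff (PowerSeries.derivative K (t.expand s.π)) ≠ 0 := by
  obtain ⟨u, hu⟩ := IsDiscreteValuationRing.associated_of_irreducible _ t.irreducible s.irreducible
  have h : t.expand s.π = PowerSeries.X * t.expand u := by
    rw [← hu, map_mul, t.expand_π]
  rw [h, ← PowerSeries.coeff_zero_eq_constantCoeff_apply, PowerSeries.coeff_derivative]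
  simpa [PowerSeries.coeff_succ_X_mul] using t.constantCoeff_expand_ne_zero u

end Coord

theorem dCoordGenerates [IsCurveOver K F] (v : Place K F) (hv : v.deg = 1) : v.DCoordGenerates :=
  ⟨by
    obtain ⟨t, ht⟩ : ∃ t : Coord v, v.dCoord = D K F (t.π : F) :=
      ⟨⟨_, (IsDiscreteValuationRing.exists_irreducible v.toValuationSubring).choose_spec, hv⟩, rfl⟩
    rw [ht]; exact t.span_dπ⟩

instance instDCoordGenerates [IsAlgClosed K] [IsCurveOver K F] (v : Place K F) :
    v.DCoordGenerates :=
  dCoordGenerates v (IsCurveOver.deg_eq_one_of_isAlgClosed v)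

variable [IsCurveOver K F]

/-- The order of a differential is the order of its expansion in any coordinate. -/
theorem ordDifferential_eq_order (t : Coord v) {ω : Ω[F⁄K]} (hω : ω ≠ 0) :
    v.ordDifferential ω = (t.diffSeries ω).order := by
  have := dCoordGenerates v t.deg_one
  obtain ⟨s, hs⟩ : ∃ s : Coord v, v.dCoord = D K F (s.π : F) :=
    ⟨⟨_, (IsDiscreteValuationRing.exists_irreducible v.toValuationSubring).choose_spec, t.deg_one⟩,
      rfl⟩
  have h := v.differentialCoeff_smul_dCoord ω
  have hc : v.differentialCoeff ω ≠ 0 := fun h0 => hω (by rw [← h, h0, zero_smul])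
  have h0 := t.constantCoeff_derivative_expand s
  conv_rhs => rw [← h, t.diffSeries_smul, hs, t.diffSeries_D_coe]
  rw [HahnSeries.order_mul (t.laurent_ne_zero hc), Coord.orderTop_ofPowerSeries_eq_zero h0,
    add_zero, t.order_laurent hc]
  · rfl
  · intro he
    exact h0 (by rw [HahnSeries.ofPowerSeries_injective (he.trans (map_zero _).symm)]; simp)

theorem ordDifferential_smul_dπ (t : Coord v) {c : F} (hc : c ≠ 0) :
    v.ordDifferential (c • D K F (t.π : F)) = v.ord c := by
  rw [ordDifferential_eq_order t (smul_ne_zero hc t.dπ_ne_zero), t.diffSeries_smul,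
    t.diffSeries_dπ, mul_one, t.order_laurent hc]

theorem ordDifferential_smul' (hv : v.deg = 1) {c : F} (hc : c ≠ 0) {ω : Ω[F⁄K]} (hω : ω ≠ 0) :
    v.ordDifferential (c • ω) = v.ord c + v.ordDifferential ω := by
  obtain ⟨t⟩ := exists_coord hv
  rw [ordDifferential_eq_order t (smul_ne_zero hc hω), ordDifferential_eq_order t hω,
    t.diffSeries_smul, HahnSeries.order_mul (t.laurent_ne_zero hc)
      (fun h => hω (t.diffSeries_injective h)), t.order_laurent hc]

theorem ordDifferential_D_nonneg (hv : v.deg = 1) {w : F} (hw : w ∈ v.toValuationSubring)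
    (hd : D K F w ≠ 0) : 0 ≤ v.ordDifferential (D K F w) := by
  obtain ⟨t⟩ := exists_coord hv
  rw [ordDifferential_eq_order t hd, show w = ((⟨w, hw⟩ : v.toValuationSubring) : F) from rfl,
    t.diffSeries_D_coe]
  by_contra hlt
  have hne : t.diffSeries (D K F w) ≠ 0 := fun h => hd (t.diffSeries_injective h)
  rw [show w = ((⟨w, hw⟩ : v.toValuationSubring) : F) from rfl, t.diffSeries_D_coe] at hne
  refine hne (HahnSeries.coeff_order_eq_zero.mp ?_)
  rw [PowerSeries.coeff_coe, if_pos (not_le.mp hlt)]

/-- Away from zeros and poles of `x` with order invertible in `K`, `ord dx = ord x - 1`. -/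
theorem ordDifferential_D_eq (hv : v.deg = 1) {x : F} (hx : (v.ord x : K) ≠ 0) :
    v.ordDifferential (D K F x) = v.ord x - 1 := by
  obtain ⟨t⟩ := exists_coord hv
  have hx0 : x ≠ 0 := fun h => hx (by simp [h])
  have hc : (seriesDeriv K (t.laurent x)).coeff (v.ord x - 1) ≠ 0 := by
    rw [seriesDeriv_coeff, sub_add_cancel, ← t.order_laurent hx0]
    exact mul_ne_zero (by rwa [t.order_laurent hx0])
      (mt HahnSeries.coeff_order_eq_zero.mp (t.laurent_ne_zero hx0))
  have hd : D K F x ≠ 0 := fun h => by
    rw [← t.diffSeries_D, h, t.diffSeries_zero] at hc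
    simp at hc
  rw [ordDifferential_eq_order t hd, t.diffSeries_D]
  refine le_antisymm (HahnSeries.order_le_of_coeff_ne_zero hc) ?_
  rw [HahnSeries.le_order_iff_forall (fun h => by rw [h] at hc; simp at hc)]
  intro n hn
  rw [seriesDeriv_coeff, HahnSeries.coeff_eq_zero_of_lt_order (x := t.laurent x), mul_zero]
  rw [t.order_laurent hx0]; omega

omit [IsCurveOver K F] in
theorem D_ne_zero_of_ord (hv : v.deg = 1) {x : F} (hx : (v.ord x : K) ≠ 0) : D K F x ≠ 0 := by
  obtain ⟨t⟩ := exists_coord hv
  have hx0 : x ≠ 0 := fun h => hx (by simp [h])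
  intro h
  have h2 : seriesDeriv K (t.laurent x) = 0 := by rw [← t.diffSeries_D, h, t.diffSeries_zero]
  have h3 := congrArg (fun s : LaurentSeries K => s.coeff (v.ord x - 1)) h2
  simp only [seriesDeriv_coeff, sub_add_cancel, HahnSeries.coeff_zero] at h3
  rw [← t.order_laurent hx0] at h3
  rcases mul_eq_zero.mp h3 with h4 | h4
  · exact hx (by rwa [t.order_laurent hx0] at h4)
  · exact t.laurent_ne_zero hx0 (HahnSeries.coeff_order_eq_zero.mp h4)

end Fermat.Agent.FF.KS
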