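/-
`HasCanonicalDivisor` for function fields in characteristic zero, and the divisor of `dx`.
-/
import Fermat.Agent.FF.KaehlerOrd
import Fermat.Prelude.Def_AlgebraicCurve_CanonicalDivisor
import Fermat.Prelude.Def_AlgebraicCurve_Repartitions

set_option autoImplicit false

noncomputable section

open AlgebraicCurve KaehlerDifferential

namespace Fermat.Agent.FF.KS

variable {K F : Type*} [Field K] [Field F] [Algebra K F]

section coeffD

variable [IsCurveOver K F] {x : F} (hx : D K F x ≠ 0)

include hx in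
theorem exists_eq_smul_D (ω : Ω[F⁄K]) : ∃ c : F, ω = c • D K F x :=
  let ⟨c, hc⟩ := (finrank_eq_one_iff_of_nonzero' _ hx).mp IsCurveOver.finrank_kaehler ω
  ⟨c, hc.symm⟩

/-- The derivation `d/dx`, as a function. -/
def ddx (f : F) : F := (exists_eq_smul_D hx (D K F f)).choose

theorem ddx_spec (f : F) : D K F f = ddx hx f • D K F x :=
  (exists_eq_smul_D hx (D K F f)).choose_spec

omit [IsCurveOver K F] in
theorem smul_D_inj {a b : F} (h : a • D K F x = b • D K F x) (hx : D K F x ≠ 0) : a = b :=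
  smul_left_injective F hx h

theorem ddx_eq {f c : F} (h : D K F f = c • D K F x) : ddx hx f = c :=
  smul_D_inj (h ▸ (ddx_spec hx f).symm) hx

theorem ddx_algebraMap (a : K) : ddx hx (algebraMap K F a) = 0 :=
  ddx_eq hx (by simp)

theorem ddx_add (f g : F) : ddx hx (f + g) = ddx hx f + ddx hx g :=
  ddx_eq hx (by rw [map_add, add_smul, ← ddx_spec, ← ddx_spec])

theorem ddx_mul (f g : F) : ddx hx (f * g) = f * ddx hx g + g * ddx hx f :=
  ddx_eq hx (by rw [Derivation.leibniz, add_smul, mul_smul, mul_smul, ← ddx_spec, ← ddx_spec])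

theorem ddx_inv {f : F} : ddx hx f⁻¹ = -(f⁻¹ * f⁻¹ * ddx hx f) :=
  ddx_eq hx (by
    rw [Derivation.leibniz_inv, neg_smul, neg_smul, mul_smul, ← ddx_spec, sq])

theorem ddx_mem_adjoin {G : Set F} (hG : ∀ g ∈ G, ddx hx g ∈ Algebra.adjoin K G) {c : F}
    (hc : c ∈ Algebra.adjoin K G) : ddx hx c ∈ Algebra.adjoin K G := by
  induction hc using Algebra.adjoin_induction with
  | mem g hg => exact hG g hg
  | algebraMap a => rw [ddx_algebraMap]; exact zero_mem _
  | add a b _ _ ha hb => rw [ddx_add]; exact add_mem ha hb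
  | mul a b ha' hb' ha hb => rw [ddx_mul]; exact add_mem (mul_mem ha' hb) (mul_mem hb' ha)

/-- A finite generating set whose span is stable under `d/dx`. -/
theorem exists_stable_generators [Algebra.EssFiniteType K F] :
    ∃ G : Finset F, x ∈ G ∧ (∀ g ∈ G, ddx hx g ∈ Algebra.adjoin K (G : Set F)) ∧
      ∀ f : F, ∃ t ∈ Algebra.adjoin K (G : Set F), t ≠ 0 ∧ f * t ∈ Algebra.adjoin K (G : Set F) := by
  classical
  obtain ⟨σ, hσ⟩ := (Algebra.essFiniteType_iff K F).mp inferInstance
  choose den hden hunit hnum using hσ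
  set b := ∏ s ∈ insert x σ, den (ddx hx s) with hb
  have hb_mem : b ∈ Algebra.adjoin K (σ : Set F) := prod_mem fun s _ => hden _
  have hb0 : b ≠ 0 := Finset.prod_ne_zero_iff.mpr fun s _ => (hunit _).ne_zero
  refine ⟨insert b⁻¹ (insert x σ), by simp, ?_, ?_⟩
  · set A := Algebra.adjoin K ((insert b⁻¹ (insert x σ) : Finset F) : Set F) with hA
    have hσA : Algebra.adjoin K (σ : Set F) ≤ A := Algebra.adjoin_mono (by intro y; simp; tauto)
    have hinv : b⁻¹ ∈ A := Algebra.subset_adjoin (by simp)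
    have hmain : ∀ s ∈ insert x σ, ddx hx s ∈ A := by
      intro s hs
      have hcof : (∏ u ∈ (insert x σ).erase s, den (ddx hx u)) ∈ A :=
        prod_mem fun u _ => hσA (hden _)
      have e : ddx hx s = ddx hx s * den (ddx hx s) *
          (∏ u ∈ (insert x σ).erase s, den (ddx hx u)) * b⁻¹ := by
        rw [mul_assoc (ddx hx s), Finset.mul_prod_erase _ (fun u => den (ddx hx u)) hs, ← hb, mul_assoc,
          mul_inv_cancel₀ hb0, mul_one]
      rw [e]
      exact mul_mem (mul_mem (hσA (hnum _)) hcof) hinv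
    have hDσ : ∀ c ∈ Algebra.adjoin K (σ : Set F), ddx hx c ∈ A := by
      intro c hc
      induction hc using Algebra.adjoin_induction with
      | mem g hg => exact hmain g (Finset.mem_insert_of_mem hg)
      | algebraMap a => rw [ddx_algebraMap]; exact zero_mem _
      | add a b _ _ ha hb => rw [ddx_add]; exact add_mem ha hb
      | mul a b ha' hb' ha hb =>
        rw [ddx_mul]; exact add_mem (mul_mem (hσA ha') hb) (mul_mem (hσA hb') ha)
    intro g hg
    rcases Finset.mem_insert.mp hg with rfl | hg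
    · rw [ddx_inv]
      exact neg_mem (mul_mem (mul_mem hinv hinv) (hDσ b hb_mem))
    · exact hmain g hg
  · intro f
    have hσA : Algebra.adjoin K (σ : Set F) ≤
        Algebra.adjoin K ((insert b⁻¹ (insert x σ) : Finset F) : Set F) :=
      Algebra.adjoin_mono (by intro y; simp; tauto)
    exact ⟨den f, hσA (hden f), (hunit f).ne_zero, hσA (hnum f)⟩

end coeffD

variable [IsCurveOver K F]

/-- At a place where every generator is regular and `d/dx` preserves them, `ord dx = 0`. -/
theorem ordDifferential_eq_zero_of_stable [CharZero K] {x : F} (hx : D K F x ≠ 0) {G : Set F}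
    (hxG : x ∈ G) (hstab : ∀ g ∈ G, ddx hx g ∈ Algebra.adjoin K G)
    (hfrac : ∀ f : F, ∃ t ∈ Algebra.adjoin K G, t ≠ 0 ∧ f * t ∈ Algebra.adjoin K G)
    (v : Place K F) (hv : v.deg = 1) (hreg : ∀ g ∈ G, g ∈ v.toValuationSubring) :
    v.ordDifferential (D K F x) = 0 := by
  obtain ⟨t⟩ := exists_coord hv
  have hR : ∀ c ∈ Algebra.adjoin K G, c ∈ v.toValuationSubring := by
    intro c hc
    induction hc using Algebra.adjoin_induction with
    | mem g hg => exact hreg g hg
    | algebraMap a => exact v.algebraMap_mem' a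
    | add a b _ _ ha hb => exact add_mem ha hb
    | mul a b _ _ ha hb => exact mul_mem ha hb
  have hnn : 0 ≤ v.ordDifferential (D K F x) := ordDifferential_D_nonneg hv (hreg x hxG) hx
  by_contra hne
  set e : ℤ := v.ordDifferential (D K F x) + 1 with he
  -- every order occurring in the ring is a multiple of `e`
  have key : ∀ n : ℕ, ∀ c ∈ Algebra.adjoin K G, c ≠ 0 → v.ord c = n → e ∣ (n : ℤ) := by
    intro n
    induction n using Nat.strong_induction_on with
    | _ n ih =>
      intro c hc hc0 hord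
      rcases eq_or_ne n 0 with rfl | hn
      · simp
      have hcast : (v.ord c : K) ≠ 0 := by rw [hord]; exact_mod_cast hn
      have h1 := ordDifferential_D_eq hv hcast
      have hD0 : D K F c ≠ 0 := D_ne_zero_of_ord hv hcast
      have hd0 : ddx hx c ≠ 0 := fun h => hD0 (by rw [ddx_spec hx c, h, zero_smul])
      rw [ddx_spec hx c, ordDifferential_smul' hv hd0 hx, hord] at h1
      have hmem := ddx_mem_adjoin hx hstab hc
      have hpos : 0 ≤ v.ord (ddx hx c) := (t.mem_iff_ord_nonneg hd0).mp (hR _ hmem)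
      obtain ⟨k, hk⟩ := Int.eq_ofNat_of_zero_le hpos
      have h2 := ih k (by omega) _ hmem hd0 hk
      have h3 : (n : ℤ) = k + e := by omega
      rw [h3]; exact dvd_add h2 dvd_rfl
  have key' : ∀ c ∈ Algebra.adjoin K G, c ≠ 0 → e ∣ v.ord c := by
    intro c hc hc0
    obtain ⟨k, hk⟩ := Int.eq_ofNat_of_zero_le ((t.mem_iff_ord_nonneg hc0).mp (hR c hc))
    rw [hk]; exact key k c hc hc0 hk
  obtain ⟨b, hb, hb0, hab⟩ := hfrac (t.π : F)
  have h4 : e ∣ v.ord ((t.π : F) * b) := key' _ hab (mul_ne_zero t.coe_π_ne_zero hb0)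
  rw [v.ord_mul t.coe_π_ne_zero hb0, t.ord_π] at h4
  have h5 : e ∣ 1 := (dvd_add_left (key' b hb hb0)).mp h4
  have := Int.le_of_dvd one_pos h5
  omega

theorem finite_ord_neg {f : F} : {v : Place K F | v.ord f < 0}.Finite := by
  rcases eq_or_ne f 0 with rfl | hf
  · simp
  obtain ⟨E, hE, -⟩ := HasPrincipalDivisors.exists_divisor (K := K) f hf
  refine E.support.finite_toSet.subset fun v hv => ?_
  rw [Finset.mem_coe, Finsupp.mem_support_iff, hE v]
  exact (ne_of_lt hv)

/-- `dx` has a nonzero order at only finitely many places. -/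
theorem finite_ordDifferential_D [CharZero K] [Algebra.EssFiniteType K F]
    (hdeg : ∀ v : Place K F, v.deg = 1) {x : F} (hx : D K F x ≠ 0) :
    {v : Place K F | v.ordDifferential (D K F x) ≠ 0}.Finite := by
  obtain ⟨G, hxG, hstab, hfrac⟩ := exists_stable_generators hx
  refine ((G.finite_toSet.biUnion fun g _ => finite_ord_neg (f := g))).subset fun v hv => ?_
  by_contra hnot
  simp only [Set.mem_iUnion, Set.mem_ofPred_eq, not_exists, not_lt] at hnot
  refine hv (ordDifferential_eq_zero_of_stable hx hxG hstab hfrac v (hdeg v) fun g hg => ?_)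
  rcases eq_or_ne g 0 with rfl | hg0
  · exact zero_mem _
  obtain ⟨t⟩ := exists_coord (hdeg v)
  exact (t.mem_iff_ord_nonneg hg0).mpr (hnot g hg)

theorem finite_ordDifferential [CharZero K] [Algebra.EssFiniteType K F]
    (hdeg : ∀ v : Place K F, v.deg = 1) {ω : Ω[F⁄K]} (hω : ω ≠ 0) :
    {v : Place K F | v.ordDifferential ω ≠ 0}.Finite := by
  rcases isEmpty_or_nonempty (Place K F) with h | ⟨⟨v₀⟩⟩
  · exact Set.toFinite _
  obtain ⟨t⟩ := exists_coord (hdeg v₀)
  obtain ⟨c, rfl⟩ := exists_eq_smul_D t.dπ_ne_zero ω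
  have hc : c ≠ 0 := fun h => hω (by rw [h, zero_smul])
  obtain ⟨E, hE, -⟩ := HasPrincipalDivisors.exists_divisor (K := K) c hc
  refine (E.support.finite_toSet.union (finite_ordDifferential_D hdeg t.dπ_ne_zero)).subset
    fun v hv => ?_
  by_contra hnot
  simp only [Set.mem_union, Finset.mem_coe, Finsupp.mem_support_iff, Set.mem_ofPred_eq, not_or,
    not_not, hE] at hnot
  exact hv (by rw [ordDifferential_smul' (hdeg v) hc t.dπ_ne_zero, hnot.1, hnot.2, add_zero])

theorem hasCanonicalDivisor_of_deg_one [CharZero K] [Algebra.EssFiniteType K F]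
    (hdeg : ∀ v : Place K F, v.deg = 1) : HasCanonicalDivisor (K := K) (F := F) :=
  ⟨fun _ω hω => ⟨Finsupp.ofSupportFinite _ (finite_ordDifferential hdeg hω),
    fun _ => rfl⟩⟩

instance instHasCanonicalDivisor [IsAlgClosed K] [CharZero K] [Algebra.EssFiniteType K F] :
    HasCanonicalDivisor (K := K) (F := F) :=
  hasCanonicalDivisor_of_deg_one IsCurveOver.deg_eq_one_of_isAlgClosed

variable [HasCanonicalDivisor (K := K) (F := F)]

/-- Divisors of two differentials differ by a principal divisor. -/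
theorem canonicalDivisorOf_smul (hdeg : ∀ v : Place K F, v.deg = 1) {ω η : Ω[F⁄K]} (hω : ω ≠ 0)
    (hη : η ≠ 0) :
    canonicalDivisorOf hω - canonicalDivisorOf hη ∈ Divisor.principal (K := K) (F := F) := by
  obtain ⟨c, hc⟩ := (finrank_eq_one_iff_of_nonzero' η hη).mp IsCurveOver.finrank_kaehler ω
  subst hc
  have hc0 : c ≠ 0 := fun h => hω (by rw [h, zero_smul])
  refine ⟨c, hc0, fun v => ?_⟩
  rw [Finsupp.sub_apply, canonicalDivisorOf_apply, canonicalDivisorOf_apply,
    ordDifferential_smul' (hdeg v) hc0 hη, add_sub_cancel_right]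

omit [HasCanonicalDivisor (K := K) (F := F)] in
theorem degree_eq_zero_of_mem_principal {E : Divisor K F}
    (hE : E ∈ Divisor.principal (K := K) (F := F)) : Divisor.degree E = 0 := by
  obtain ⟨f, hf, hEf⟩ := hE
  obtain ⟨E', hE', h0⟩ := HasPrincipalDivisors.exists_divisor (K := K) f hf
  rwa [Finsupp.ext (fun v => (hEf v).trans (hE' v).symm)]

theorem degree_canonicalDivisorOf (hdeg : ∀ v : Place K F, v.deg = 1) {ω η : Ω[F⁄K]} (hω : ω ≠ 0)
    (hη : η ≠ 0) :
    Divisor.degree (canonicalDivisorOf hω) = Divisor.degree (canonicalDivisorOf hη) := by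
  have h := degree_eq_zero_of_mem_principal (canonicalDivisorOf_smul hdeg hω hη)
  rwa [map_sub, sub_eq_zero] at h

/-- The genus, from the degree of any differential. -/
theorem genus_eq_of_degree (hdeg : ∀ v : Place K F, v.deg = 1) {ω : Ω[F⁄K]} (hω : ω ≠ 0) {g : ℕ}
    (h : Divisor.degree (canonicalDivisorOf hω) = 2 * (g : ℤ) - 2) : genus K F = g := by
  have hex : ∃ ω : Ω[F⁄K], ω ≠ 0 := ⟨ω, hω⟩
  rw [genus, dif_pos hex, degree_canonicalDivisorOf hdeg hex.choose_spec hω, h]
  omega

theorem canonicalDivisorOf_nonneg_iff (hdeg : ∀ v : Place K F, v.deg = 1) {ω : Ω[F⁄K]}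
    (hω : ω ≠ 0) (c : F) :
    c ∈ riemannRochSpace (canonicalDivisorOf hω) ↔
      ∀ v : Place K F, c • ω = 0 ∨ 0 ≤ v.ordDifferential (c • ω) := by
  rw [mem_riemannRochSpace_iff]
  refine forall_congr' fun v => ?_
  rcases eq_or_ne c 0 with rfl | hc
  · simp
  rw [canonicalDivisorOf_apply, ordDifferential_smul' (hdeg v) hc hω]
  simp only [hc, false_or, smul_eq_zero, hω, or_self]
  omega

variable (K F)

/-- Differentials without poles. -/
def holomorphicForms (hdeg : ∀ v : Place K F, v.deg = 1) : Submodule K Ω[F⁄K] where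
  carrier := {ω | ∀ v : Place K F, ω = 0 ∨ 0 ≤ v.ordDifferential ω}
  zero_mem' _ := Or.inl rfl
  add_mem' := by
    intro a b ha hb v
    rcases eq_or_ne (a + b) 0 with h | h
    · exact Or.inl h
    refine Or.inr ?_
    obtain ⟨t⟩ := exists_coord (hdeg v)
    have hne : t.diffSeries (a + b) ≠ 0 := fun h0 => h (t.diffSeries_injective h0)
    rw [ordDifferential_eq_order t h, t.diffSeries_add] at *
    rw [HahnSeries.le_order_iff_forall hne]
    intro n hn
    have hz : ∀ c : Ω[F⁄K], c = 0 ∨ 0 ≤ v.ordDifferential c → (t.diffSeries c).coeff n = 0 := by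
      intro c hc
      rcases eq_or_ne c 0 with rfl | hc0
      · simp
      · refine HahnSeries.coeff_eq_zero_of_lt_order ?_
        rw [← ordDifferential_eq_order t hc0]
        exact hn.trans_le (hc.resolve_left hc0)
    rw [HahnSeries.coeff_add, hz a (ha v), hz b (hb v), add_zero]
  smul_mem' := by
    intro a ω hω v
    rcases eq_or_ne (a • ω) 0 with h | h
    · exact Or.inl h
    refine Or.inr ?_
    have ha : algebraMap K F a ≠ 0 := fun h0 =>
      h (by rw [← algebraMap_smul F a ω, h0, zero_smul])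
    have hω0 : ω ≠ 0 := fun h0 => h (by rw [h0, smul_zero])
    obtain ⟨t⟩ := exists_coord (hdeg v)
    rw [← algebraMap_smul F a ω, ordDifferential_smul' (hdeg v) ha hω0]
    exact add_nonneg ((t.mem_iff_ord_nonneg ha).mp (v.algebraMap_mem' a))
      ((hω v).resolve_left hω0)

variable {K F}

omit [HasCanonicalDivisor (K := K) (F := F)] in
theorem mem_holomorphicForms (hdeg : ∀ v : Place K F, v.deg = 1) {ω : Ω[F⁄K]} :
    ω ∈ holomorphicForms K F hdeg ↔ ∀ v : Place K F, ω = 0 ∨ 0 ≤ v.ordDifferential ω := Iff.rfl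

/-- `c ↦ c • ω` from `L(div ω)` to the differentials without poles. -/
def toForms (hdeg : ∀ v : Place K F, v.deg = 1) {ω : Ω[F⁄K]} (hω : ω ≠ 0) :
    ↥(riemannRochSpace (canonicalDivisorOf hω)) →ₗ[K] ↥(holomorphicForms K F hdeg) where
  toFun c := ⟨(c : F) • ω, (canonicalDivisorOf_nonneg_iff hdeg hω c).mp c.2⟩
  map_add' a b := Subtype.ext (add_smul (a : F) (b : F) ω)
  map_smul' a c := Subtype.ext (smul_assoc a (c : F) ω)

/-- `c ↦ c • ω` identifies `L(div ω)` with the differentials without poles. -/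
def riemannRochEquivForms (hdeg : ∀ v : Place K F, v.deg = 1) {ω : Ω[F⁄K]} (hω : ω ≠ 0) :
    ↥(riemannRochSpace (canonicalDivisorOf hω)) ≃ₗ[K] ↥(holomorphicForms K F hdeg) :=
  LinearEquiv.ofBijective (toForms hdeg hω)
    ⟨fun a b h => Subtype.ext (smul_left_injective F hω (congrArg Subtype.val h)),
      fun η => by
        obtain ⟨c, hc⟩ := (finrank_eq_one_iff_of_nonzero' ω hω).mp IsCurveOver.finrank_kaehler η.1
        refine ⟨⟨c, (canonicalDivisorOf_nonneg_iff hdeg hω c).mpr ?_⟩, Subtype.ext hc⟩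
        rw [hc]; exact η.2⟩

end Fermat.Agent.FF.KS
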