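/-
The local shape of `div (dx)` in characteristic zero: `e - 1` at finite places, `-e - 1` at poles.
-/
import Fermat.Agent.FF.KaehlerCanonical

set_option autoImplicit false

noncomputable section

open AlgebraicCurve KaehlerDifferential

namespace Fermat.Agent.FF.KS

variable {K F : Type*} [Field K] [Field F] [Algebra K F]

/-- At a place where `x` is regular, `x` takes a value. -/
theorem exists_ord_sub_pos {v : Place K F} (hv : v.deg = 1) {x : F}
    (hxv : x ∈ v.toValuationSubring) (hxK : ∀ a : K, x ≠ algebraMap K F a) :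
    ∃ a : K, 0 < v.ord (x - algebraMap K F a) := by
  obtain ⟨t⟩ := exists_coord hv
  obtain ⟨a, c, hc⟩ := t.exists_digit ⟨x, hxv⟩
  refine ⟨a, ?_⟩
  have hF : x - algebraMap K F a = (t.π : F) * (c : F) := by
    have := congrArg Subtype.val hc
    simpa using! this
  have hc0 : (c : F) ≠ 0 := fun h => hxK a (sub_eq_zero.mp (by rw [hF, h, mul_zero]))
  rw [hF, v.ord_mul t.coe_π_ne_zero hc0, t.ord_π]
  have := (t.mem_iff_ord_nonneg hc0).mp c.2
  omega

theorem ne_algebraMap_of_D_ne_zero {x : F} (hx : D K F x ≠ 0) (a : K) : x ≠ algebraMap K F a :=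
  fun h => hx (by rw [h, Derivation.map_algebraMap])

variable [IsCurveOver K F] [CharZero K]

/-- At a zero of `x - a` of order `e`, `ord dx = e - 1`. -/
theorem ordDifferential_D_of_sub_pos {v : Place K F} (hv : v.deg = 1) {x : F} {a : K}
    (h : 0 < v.ord (x - algebraMap K F a)) :
    v.ordDifferential (D K F x) = v.ord (x - algebraMap K F a) - 1 := by
  have hd : D K F x = D K F (x - algebraMap K F a) := by simp
  rw [hd, ordDifferential_D_eq hv (by exact_mod_cast h.ne')]

/-- At a pole of `x` of order `e`, `ord dx = -e - 1`. -/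
theorem ordDifferential_D_of_neg {v : Place K F} (hv : v.deg = 1) {x : F} (h : v.ord x < 0) :
    v.ordDifferential (D K F x) = v.ord x - 1 :=
  ordDifferential_D_eq hv (by exact_mod_cast h.ne)

theorem ordDifferential_D_cases {v : Place K F} (hv : v.deg = 1) {x : F} (hx : D K F x ≠ 0) :
    (v.ord x < 0 ∧ v.ordDifferential (D K F x) = v.ord x - 1) ∨
      (0 ≤ v.ord x ∧ ∃ a : K, 0 < v.ord (x - algebraMap K F a) ∧
        v.ordDifferential (D K F x) = v.ord (x - algebraMap K F a) - 1) := by
  have hx0 : x ≠ 0 := fun h => hx (by simp [h])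
  rcases lt_or_ge (v.ord x) 0 with h | h
  · exact Or.inl ⟨h, ordDifferential_D_of_neg hv h⟩
  · obtain ⟨t⟩ := exists_coord hv
    obtain ⟨a, ha⟩ := exists_ord_sub_pos hv ((t.mem_iff_ord_nonneg hx0).mpr h)
      (ne_algebraMap_of_D_ne_zero hx)
    exact Or.inr ⟨h, a, ha, ordDifferential_D_of_sub_pos hv ha⟩

end Fermat.Agent.FF.KS
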