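/-
`div (dx) = -2 (poles of x) + Diff (F / K(x))` in characteristic zero, `genus = genusFF`,
and `dim (holomorphic differentials) = genusFF`.
-/
import Fermat.Agent.FF.KaehlerDivX
import Fermat.Agent.FF.Cotrace
import Fermat.Agent.FF.DifferentTame

set_option autoImplicit false

noncomputable section

open AlgebraicCurve KaehlerDifferential IntermediateField

namespace Fermat.Agent.FF.KS

variable {K F : Type*} [Field K] [Field F] [Algebra K F] [IsAlgClosed K]

/-- If every `x - b` has order divisible by `m`, so has every element of `K(x)`. -/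
theorem dvd_ord_of_mem_adjoin (v : Place K F) {x : F} (hxK : ∀ b : K, x ≠ algebraMap K F b) {m : ℤ}
    (hm : ∀ b : K, m ∣ v.ord (x - algebraMap K F b)) {f : F} (hf : f ∈ K⟮x⟯) :
    m ∣ v.ord f := by
  have hpoly : ∀ p : Polynomial K, m ∣ v.ord (Polynomial.aeval x p) := by
    intro p
    rcases eq_or_ne (Polynomial.aeval x p) 0 with h | h
    · simp [h]
    rw [(IsAlgClosed.splits p).eq_prod_roots, map_mul, Polynomial.aeval_C] at h ⊢
    obtain ⟨h1, h2⟩ := mul_ne_zero_iff.mp h
    rw [v.ord_mul h1 h2, Fermat.Agent.FF.ord_algebraMap, zero_add]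
    clear h h2
    induction p.roots using Multiset.induction_on with
    | empty => simp
    | cons b s ih =>
      rw [Multiset.map_cons, Multiset.prod_cons, map_mul, map_sub, Polynomial.aeval_X,
        Polynomial.aeval_C]
      have hs : Polynomial.aeval x (s.map fun a => Polynomial.X - Polynomial.C a).prod ≠ 0 := by
        rw [map_multiset_prod]
        refine Multiset.prod_ne_zero ?_
        simp only [Multiset.map_map, Multiset.mem_map, not_exists, not_and]
        intro c _ hc
        exact hxK c (sub_eq_zero.mp (by simpa using hc))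
      rw [v.ord_mul (sub_ne_zero.mpr (hxK b)) hs]
      exact dvd_add (hm b) ih
  obtain ⟨p, q, rfl⟩ := (IntermediateField.mem_adjoin_simple_iff K f).mp hf
  rcases eq_or_ne (Polynomial.aeval x p) 0 with h | h
  · simp [h]
  rcases eq_or_ne (Polynomial.aeval x q) 0 with h' | h'
  · simp [h']
  rw [Fermat.Agent.FF.ord_div v h h']
  exact dvd_sub (hpoly p) (hpoly q)

variable [IsFunctionField K F] {x : F}

theorem ramificationIndex_eq_natAbs (hx : IsSeparatingElement K x) (v : Place K F) {f : F}
    (hf : f ∈ K⟮x⟯) (hf0 : v.ord f ≠ 0)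
    (hm : ∀ b : K, v.ord f ∣ v.ord (x - algebraMap K F b)) :
    v.ramificationIndex K⟮x⟯ = (v.ord f).natAbs := by
  have := finiteDimensional_adjoin hx.transcendental
  have hf' : (⟨f, hf⟩ : K⟮x⟯) ≠ 0 := fun h => hf0 (by
    rw [show f = 0 from congrArg Subtype.val h]; simp)
  have h0 := v.ramificationIndex_dvd_ord (F := K⟮x⟯) hf'
  rw [IntermediateField.algebraMap_apply] at h0
  have h1 : (v.ramificationIndex K⟮x⟯ : ℤ) ∣ v.ord f := h0
  obtain ⟨g, hg0, hg⟩ := v.exists_ord_eq_ramificationIndex (F := K⟮x⟯)
  rw [IntermediateField.algebraMap_apply] at hg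
  have hxK : ∀ b : K, x ≠ algebraMap K F b := fun b h =>
    hx.transcendental (h ▸ isAlgebraic_algebraMap b)
  have h2 : v.ord f ∣ (v.ramificationIndex K⟮x⟯ : ℤ) := by
    rw [← hg]
    exact dvd_ord_of_mem_adjoin v hxK hm g.2
  exact Nat.dvd_antisymm (Int.natCast_dvd.mp h1)
    (by simpa using Int.natAbs_dvd_natAbs.mpr h2)

omit [IsAlgClosed K] in
theorem D_ne_zero_of_isSeparatingElement (hx : IsSeparatingElement K x) : D K F x ≠ 0 :=
  hx.D_ne_zero

variable [CharZero K] [IsCurveOver K F]

instance (priority := 100) instHasCanonicalDivisorFF : HasCanonicalDivisor (K := K) (F := F) :=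
  have := IsFunctionField.essFiniteType (K := K) (F := F)
  inferInstance

/-- `div (dx) = -2 (poles of x) + Diff (F / K(x))`. -/
theorem ordDifferential_D_eq_canonicalDiv (hx : IsSeparatingElement K x) (v : Place K F) :
    v.ordDifferential (D K F x) = hx.canonicalDiv v := by
  have := finiteDimensional_adjoin hx.transcendental
  have := hx.isSeparable
  have hv : v.deg = 1 := IsCurveOver.deg_eq_one_of_isAlgClosed v
  have hxmem : x ∈ K⟮x⟯ := IntermediateField.mem_adjoin_simple_self K x
  have htame : hx.diff v = (v.ramificationIndex K⟮x⟯ : ℤ) - 1 := by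
    have hpos := v.ramificationIndex_pos (F := K⟮x⟯)
    rw [hx.diff_apply, Diff.differentExponent_eq_of_tame v (by exact_mod_cast hpos.ne')]
    omega
  rw [hx.canonicalDiv_apply, htame]
  rcases ordDifferential_D_cases hv (D_ne_zero_of_isSeparatingElement hx) with
    ⟨h, hd⟩ | ⟨h, a, ha, hd⟩
  · have e := ramificationIndex_eq_natAbs hx v hxmem h.ne fun b => by
      rw [show v.ord (x - algebraMap K F b) = v.ord x from ?_]
      rcases eq_or_ne b 0 with rfl | hb
      · simp
      · rw [sub_eq_add_neg, ← map_neg]
        refine (add_ne_zero_and_ord_eq_of_lt v (by rintro rfl; simp at h) (Or.inr ?_)).2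
        rw [Fermat.Agent.FF.ord_algebraMap]; exact h
    rw [hd, e, max_eq_left (by omega)]
    omega
  · have e := ramificationIndex_eq_natAbs hx v (sub_mem hxmem (IntermediateField.algebraMap_mem _ a)) ha.ne' fun b => by
      rcases eq_or_ne b a with rfl | hb
      · exact dvd_rfl
      · rw [show v.ord (x - algebraMap K F b) = 0 from ?_]
        · exact dvd_zero _
        have hab : algebraMap K F (a - b) ≠ 0 := by simpa [sub_eq_zero] using hb.symm
        have e : x - algebraMap K F b = algebraMap K F (a - b) + (x - algebraMap K F a) := by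
          rw [map_sub]; ring
        rw [e, (add_ne_zero_and_ord_eq_of_lt v hab (Or.inr (by rw [Fermat.Agent.FF.ord_algebraMap]; exact ha))).2,
          Fermat.Agent.FF.ord_algebraMap]
    rw [hd, e, max_eq_right (by omega)]
    omega

variable [HasCanonicalDivisor (K := K) (F := F)]

theorem canonicalDivisorOf_D (hx : IsSeparatingElement K x) :
    canonicalDivisorOf (D_ne_zero_of_isSeparatingElement hx) = hx.canonicalDiv := by
  ext v
  rw [canonicalDivisorOf_apply, ordDifferential_D_eq_canonicalDiv hx v]

variable (K F)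

/-- The differential genus is the repartition genus. -/
theorem genus_eq_genusFF : genus K F = genusFF K F := by
  obtain ⟨x, hx⟩ := exists_isSeparatingElement K F
  refine genus_eq_of_degree IsCurveOver.deg_eq_one_of_isAlgClosed
    (D_ne_zero_of_isSeparatingElement hx) ?_
  rw [canonicalDivisorOf_D hx, hx.degree_canonicalDiv]

/-- There are exactly `genusFF` independent differentials without poles. -/
theorem finrank_holomorphicForms :
    Module.finrank K (holomorphicForms K F IsCurveOver.deg_eq_one_of_isAlgClosed)
      = genusFF K F := by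
  obtain ⟨x, hx⟩ := exists_isSeparatingElement K F
  rw [← (riemannRochEquivForms IsCurveOver.deg_eq_one_of_isAlgClosed
    (D_ne_zero_of_isSeparatingElement hx)).finrank_eq, canonicalDivisorOf_D hx]
  exact hx.rrDim_canonicalDiv

end Fermat.Agent.FF.KS
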