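import Fermat.Prelude.Def_AlgebraicCurve_DivisorPushPull
import Fermat.Prelude.Def_AlgebraicCurve_Repartitions
import Mathlib.RingTheory.DedekindDomain.IntegralClosure
import Mathlib.RingTheory.Trace.Basic
import Mathlib.RingTheory.Valuation.LocalSubring

/-!
# Valuation rings over a place, and integrality of the trace

For a finite separable extension `F'/F`, every valuation ring of `F'` lying over the valuation
ring of a place of `F` is the ring of a place; consequently the trace of a function which is
regular (resp. vanishing) at all places over `v` is regular (resp. vanishing) at `v`.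
-/

set_option autoImplicit false
set_option linter.style.haveILetI false

noncomputable section

open AlgebraicCurve IsDedekindDomain WithZero

namespace Fermat.Agent.FF.Diff

section SinglePlace

variable {K F : Type*} [Field K] [Field F] [Algebra K F] (v : Place K F)

theorem mem_iff_valuation_le_one {z : F} :
    z ∈ v.toValuationSubring ↔ v.adicValuation z ≤ 1 := by
  refine ⟨v.adicValuation_le_one_of_mem, fun h => ?_⟩
  by_contra hz
  have hzi : z⁻¹ ∈ v.toValuationSubring := (v.toValuationSubring.mem_or_inv_mem z).resolve_left hz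
  have h1 : v.adicValuation z⁻¹ ≤ 1 := v.adicValuation_le_one_of_mem hzi
  have hz0 : z ≠ 0 := fun e => hz (e ▸ v.toValuationSubring.zero_mem)
  have h2 : v.adicValuation z * v.adicValuation z⁻¹ = 1 := by
    rw [← map_mul, mul_inv_cancel₀ hz0, map_one]
  have h3 : v.adicValuation z⁻¹ = 1 := by
    refine le_antisymm h1 ?_
    calc (1 : ℤᵐ⁰) = v.adicValuation z * v.adicValuation z⁻¹ := h2.symm
      _ ≤ 1 * v.adicValuation z⁻¹ := mul_le_mul_left h _
      _ = _ := one_mul _
  have hu : IsUnit (⟨z⁻¹, hzi⟩ : v.toValuationSubring) :=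
    (v.adicValuation_coe_eq_one_iff _).mp h3
  obtain ⟨b, hb⟩ := isUnit_iff_exists_inv.mp hu
  have hb' : z⁻¹ * (b : F) = 1 := congrArg Subtype.val hb
  exact hz ((inv_mul_eq_one₀ hz0).mp hb' ▸ b.2)

theorem mem_nonunits_iff_valuation_lt_one {z : F} :
    z ∈ v.toValuationSubring.nonunits ↔ v.adicValuation z < 1 := by
  rw [ValuationSubring.mem_nonunits_iff_exists_mem_maximalIdeal]
  constructor
  · rintro ⟨hz, h⟩
    refine lt_of_le_of_ne (v.adicValuation_le_one_of_mem hz) fun e => ?_
    exact h ((v.adicValuation_coe_eq_one_iff ⟨z, hz⟩).mp e)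
  · intro h
    have hz := (mem_iff_valuation_le_one v).mpr h.le
    exact ⟨hz, fun hu => h.ne ((v.adicValuation_coe_eq_one_iff ⟨z, hz⟩).mpr hu)⟩

theorem place_eq_of_le {w : Place K F} (h : v.toValuationSubring ≤ w.toValuationSubring) :
    v = w :=
  Place.ext (ValuationSubring.eq_of_le_of_ne_top _ h w.ne_top')

end SinglePlace

variable {K F F' : Type*} [Field K] [Field F] [Field F'] [Algebra K F] [Algebra K F']
  [Algebra F F'] [IsScalarTower K F F'] [FiniteDimensional F F'] [Algebra.IsSeparable F F']

/-- A valuation ring of `F'` over the ring of a place of `F` is the ring of a place. -/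
theorem exists_place_of_comap_eq (v : Place K F) (V : ValuationSubring F')
    (hV : V.comap (algebraMap F F') = v.toValuationSubring) :
    ∃ w : Place K F', w.toValuationSubring = V ∧ w.restrict F = v := by
  suffices h : ∃ w : Place K F', w.toValuationSubring = V by
    obtain ⟨w, rfl⟩ := h
    exact ⟨w, rfl, Place.ext hV⟩
  let A := v.toValuationSubring
  letI : Algebra A F' := ((algebraMap F F').comp (algebraMap A F)).toAlgebra
  haveI : IsScalarTower A F F' := IsScalarTower.of_algebraMap_eq fun _ => rfl
  let B := integralClosure A F'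
  haveI : IsDedekindDomain B := IsIntegralClosure.isDedekindDomain A F F' B
  haveI : IsFractionRing B F' :=
    IsIntegralClosure.isFractionRing_of_finite_extension A F F' B
  have hAV : ∀ a : A, algebraMap A F' a ∈ V := fun a =>
    (ValuationSubring.mem_comap (A := V) (f := algebraMap F F')).mp (hV.symm ▸ a.2)
  have hBV : ∀ b : B, (b : F') ∈ V := by
    intro b
    letI : Algebra A V := ((algebraMap A F').codRestrict V.toSubring hAV).toAlgebra
    haveI : IsScalarTower A V F' := IsScalarTower.of_algebraMap_eq fun _ => rfl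
    obtain ⟨y, hy⟩ := IsIntegrallyClosed.isIntegral_iff.mp (b.2.tower_top (A := V))
    exact hy ▸ y.2
  let ι : B →+* V :=
    { toFun := fun b => ⟨b, hBV b⟩
      map_one' := rfl
      map_mul' := fun _ _ => rfl
      map_zero' := rfl
      map_add' := fun _ _ => rfl }
  let P : Ideal B := (IsLocalRing.maximalIdeal V).comap ι
  have hP0 : P ≠ ⊥ := by
    obtain ⟨π, hπ⟩ := IsDiscreteValuationRing.exists_irreducible A
    have hπB : IsIntegral A (algebraMap A F' π) := isIntegral_algebraMap
    intro hbot
    have hnu : ¬IsUnit (ι ⟨algebraMap A F' π, hπB⟩) := by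
      intro hu
      obtain ⟨c, hc⟩ := isUnit_iff_exists_inv.mp hu
      have hc' : algebraMap F F' (π : F) * (c : F') = 1 := congrArg Subtype.val hc
      have hπ0 : (π : F) ≠ 0 := by
        simpa [ne_eq, ZeroMemClass.coe_eq_zero] using hπ.ne_zero
      have hce : (c : F') = algebraMap F F' (π : F)⁻¹ := by
        rw [map_inv₀]; exact (eq_inv_of_mul_eq_one_right hc')
      have hmem : (π : F)⁻¹ ∈ V.comap (algebraMap F F') :=
        ValuationSubring.mem_comap.mpr (hce ▸ c.2)
      rw [hV] at hmem
      exact hπ.not_isUnit (isUnit_iff_exists_inv.mpr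
        ⟨⟨_, hmem⟩, Subtype.ext (mul_inv_cancel₀ hπ0)⟩)
    have hmem : (⟨algebraMap A F' π, hπB⟩ : B) ∈ P := hnu
    rw [hbot, Ideal.mem_bot] at hmem
    have : algebraMap F F' (π : F) = 0 := congrArg Subtype.val hmem
    exact hπ.ne_zero (Subtype.ext (by simpa using this))
  let P₀ : HeightOneSpectrum B := ⟨P, Ideal.comap_isPrime ι _, hP0⟩
  have hle : HeightOneSpectrum.valuationSubringAtPrime F' P₀ ≤ V := by
    rintro x ⟨a, s, hs, rfl⟩
    have hsu : IsUnit (ι s) := not_not.mp hs
    obtain ⟨c, hc⟩ := isUnit_iff_exists_inv.mp hsu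
    have hc' : (s : F') * (c : F') = 1 := congrArg Subtype.val hc
    have hsinv : (algebraMap B F' s)⁻¹ = (c : F') := (eq_inv_of_mul_eq_one_right hc').symm
    rw [hsinv]
    exact mul_mem (hBV a) c.2
  have hne : V ≠ ⊤ := fun h => v.ne_top' (by
    rw [← hV, h]
    exact SetLike.ext fun x => by simp [ValuationSubring.mem_comap])
  refine ⟨⟨V, fun a => ?_, hne, ?_⟩, rfl⟩
  · rw [IsScalarTower.algebraMap_apply K F F']
    exact hAV ⟨_, v.algebraMap_mem' a⟩
  · rw [← ValuationSubring.eq_of_le_of_ne_top _ hle hne,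
      HeightOneSpectrum.valuationSubringAtPrime_eq_valuationSubring]
    exact Place.isPrincipalIdealRing_valuationSubring P₀

/-- The conjugates, in any field, of a function with prescribed behaviour at the places over `v`. -/
theorem mem_of_forall_place {Ω : Type*} [Field Ω] [Algebra F Ω] (v : Place K F)
    (U : ValuationSubring Ω) (hU : U.comap (algebraMap F Ω) = v.toValuationSubring)
    (σ : F' →ₐ[F] Ω) :
    ∃ w : Place K F', w.restrict F = v ∧
      (∀ z : F', z ∈ w.toValuationSubring ↔ σ z ∈ U) ∧
      ∀ z : F', w.adicValuation z < 1 → σ z ∈ U.nonunits := by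
  obtain ⟨w, hw, hwv⟩ := exists_place_of_comap_eq v (U.comap σ.toRingHom) (by
    rw [ValuationSubring.comap_comap, ← hU]
    congr 1
    exact RingHom.ext fun a => σ.commutes a)
  refine ⟨w, hwv, fun z => by rw [hw]; exact Iff.rfl, fun z hz => ?_⟩
  have hz' : σ z ∈ U := by
    have := (mem_iff_valuation_le_one w).mpr hz.le
    rw [hw] at this; exact this
  rw [ValuationSubring.mem_nonunits_iff_exists_mem_maximalIdeal]
  refine ⟨hz', fun hu => ?_⟩
  obtain ⟨c, hc⟩ := isUnit_iff_exists_inv.mp hu
  have hc' : σ z * (c : Ω) = 1 := congrArg Subtype.val hc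
  have hz0 : z ≠ 0 := by rintro rfl; simp at hc'
  have hci : (c : Ω) = σ z⁻¹ := by rw [map_inv₀]; exact eq_inv_of_mul_eq_one_right hc'
  have hmem : z⁻¹ ∈ w.toValuationSubring := by
    rw [hw]
    show σ z⁻¹ ∈ U
    rw [← hci]
    exact c.2
  have h1 : w.adicValuation z * w.adicValuation z⁻¹ < 1 :=
    lt_of_le_of_lt (mul_le_of_le_one_right' (w.adicValuation_le_one_of_mem hmem)) hz
  rw [← map_mul, mul_inv_cancel₀ hz0, map_one] at h1
  exact lt_irrefl _ h1

omit [FiniteDimensional F F'] [Algebra.IsSeparable F F'] in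
theorem exists_valuationSubring_comap_eq (v : Place K F) (Ω : Type*) [Field Ω] [Algebra F Ω] :
    ∃ U : ValuationSubring Ω, U.comap (algebraMap F Ω) = v.toValuationSubring := by
  obtain ⟨U, hAU, hloc⟩ := IsLocalRing.exists_factor_valuationRing
    ((algebraMap F Ω).comp (algebraMap v.toValuationSubring F))
  refine ⟨U, (ValuationSubring.eq_of_le_of_ne_top _ (fun a ha => ?_) ?_).symm⟩
  · exact ValuationSubring.mem_comap.mpr (hAU ⟨a, ha⟩)
  · intro htop
    obtain ⟨π, hπ⟩ := IsDiscreteValuationRing.exists_irreducible v.toValuationSubring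
    have hπ0 : (π : F) ≠ 0 := by
      simpa [ne_eq, ZeroMemClass.coe_eq_zero] using hπ.ne_zero
    have hinv : algebraMap F Ω (π : F)⁻¹ ∈ U :=
      ValuationSubring.mem_comap.mp (htop.symm ▸ ValuationSubring.mem_top _)
    refine hπ.not_isUnit (hloc.map_nonunit π (isUnit_iff_exists_inv.mpr ⟨⟨_, hinv⟩, ?_⟩))
    apply Subtype.ext
    show algebraMap F Ω (π : F) * algebraMap F Ω (π : F)⁻¹ = 1
    rw [← map_mul, mul_inv_cancel₀ hπ0, map_one]

/-- The trace of a function regular at all places over `v` is regular at `v`. -/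
theorem trace_mem_of_forall_mem (v : Place K F) {z : F'}
    (hz : ∀ w : Place K F', w.restrict F = v → z ∈ w.toValuationSubring) :
    Algebra.trace F F' z ∈ v.toValuationSubring := by
  obtain ⟨U, hU⟩ := exists_valuationSubring_comap_eq v (AlgebraicClosure F)
  rw [← hU, ValuationSubring.mem_comap, trace_eq_sum_embeddings]
  refine sum_mem fun σ _ => ?_
  obtain ⟨w, hwv, hw, -⟩ := mem_of_forall_place v U hU σ
  exact (hw z).mp (hz w hwv)

/-- The trace of a function vanishing at all places over `v` vanishes at `v`. -/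
theorem valuation_trace_lt_one (v : Place K F) {z : F'}
    (hz : ∀ w : Place K F', w.restrict F = v → w.adicValuation z < 1) :
    v.adicValuation (Algebra.trace F F' z) < 1 := by
  obtain ⟨U, hU⟩ := exists_valuationSubring_comap_eq v (AlgebraicClosure F)
  have hsum : U.valuation (algebraMap F (AlgebraicClosure F) (Algebra.trace F F' z)) < 1 := by
    rw [trace_eq_sum_embeddings]
    refine Valuation.map_sum_lt _ one_ne_zero fun σ _ => ?_
    obtain ⟨w, hwv, -, hw⟩ := mem_of_forall_place v U hU σ
    exact (ValuationSubring.mem_nonunits_iff (A := U)).mp (hw z (hz w hwv))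
  have hmem : Algebra.trace F F' z ∈ v.toValuationSubring := by
    rw [← hU, ValuationSubring.mem_comap, ← U.valuation_le_one_iff]
    exact hsum.le
  refine lt_of_le_of_ne (v.adicValuation_le_one_of_mem hmem) fun e => ?_
  obtain ⟨c, hc⟩ := isUnit_iff_exists_inv.mp ((v.adicValuation_coe_eq_one_iff ⟨_, hmem⟩).mp e)
  have hc' : Algebra.trace F F' z * (c : F) = 1 := congrArg Subtype.val hc
  have hcU : algebraMap F (AlgebraicClosure F) c ∈ U :=
    (ValuationSubring.mem_comap (A := U)).mp (hU.symm ▸ c.2)
  have h1 := mul_lt_one_of_lt_of_le hsum ((U.valuation_le_one_iff _).mpr hcU)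
  rw [← map_mul, ← map_mul, hc', map_one, map_one] at h1
  exact lt_irrefl _ h1

/-- Every place of `F` extends to `F'`. -/
theorem exists_place_over (v : Place K F) : ∃ w : Place K F', w.restrict F = v := by
  obtain ⟨U, hU⟩ := exists_valuationSubring_comap_eq v F'
  obtain ⟨w, -, hw⟩ := exists_place_of_comap_eq v U hU
  exact ⟨w, hw⟩

end Fermat.Agent.FF.Diff
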