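import Fermat.Agent.FF.Different
import Fermat.Agent.FF.Curve

/-!
# The different divisor over `K(x)` and the canonical divisor `-2 (poles of x) + Diff`
-/

set_option autoImplicit false

noncomputable section

open AlgebraicCurve IntermediateField WithZero Fermat.Agent.FF

namespace Fermat.Agent.FF.Diff

variable {K F F' : Type*} [Field K] [Field F] [Field F'] [Algebra K F] [Algebra K F']
  [Algebra F F'] [IsScalarTower K F F'] [FiniteDimensional F F'] [Algebra.IsSeparable F F']
  [IsFunctionField K F']

/-- Only finitely many places have a nonzero different exponent. -/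
theorem finite_differentExponent_ne_zero :
    {w : Place K F' | differentExponent F w ≠ 0}.Finite := by
  classical
  let b := Module.finBasis F F'
  let bd := b.traceDual
  have hbad : ∀ f : F', {v : Place K F | ∃ w : Place K F', w.restrict F = v ∧
      w.ord f < 0}.Finite := fun f => by
    rcases eq_or_ne f 0 with rfl | hf
    · refine Set.Finite.subset Set.finite_empty ?_
      rintro v ⟨w, -, hw⟩
      simp at hw
    · refine ((finite_ord_ne_zero f).image fun w => w.restrict F).subset ?_
      rintro v ⟨w, hw, hneg⟩
      exact ⟨w, hneg.ne, hw⟩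
  let S : Set (Place K F) := ⋃ i, ({v | ∃ w : Place K F', w.restrict F = v ∧ w.ord (b i) < 0} ∪
    {v | ∃ w : Place K F', w.restrict F = v ∧ w.ord (bd i) < 0})
  have hS : S.Finite := Set.finite_iUnion fun i => (hbad _).union (hbad _)
  refine (hS.biUnion fun v _ => (Place.restrict_fiber_finite (F' := F') v)).subset ?_
  intro w hw
  simp only [Set.mem_iUnion, Set.mem_ofPred_eq, exists_prop]
  refine ⟨w.restrict F, ?_, rfl⟩
  by_contra hv
  simp only [S, Set.mem_iUnion, Set.mem_union, Set.mem_ofPred_eq, not_exists, not_or,
    not_and, not_lt] at hv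
  refine hw (Nat.eq_zero_of_not_pos fun hd => ?_)
  -- a function with a simple pole at `w` only would lie in the inverse different
  obtain ⟨z, hz0, hz⟩ := exists_ord_eq ((w.restrict F).fiber F')
    (fun w' : Place K F' => if w' = w then (-1 : ℤ) else 0)
  have hzw : w.ord z = -1 := by rw [hz w (Place.restrict_mem_fiber w), if_pos rfl]
  have hcoord : ∀ i, Algebra.trace F F' (z * b i) ∈ ordGE (w.restrict F) 0 := by
    intro i
    refine trace_mem_of_forall_differentExponent _ fun w' hw' => ?_
    refine ordGE_antitone w' ?_ (mul_mem_ordGE w' (mem_ordGE_of_le w' le_rfl)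
      (mem_ordGE_of_le w' ((hv i).1 w' hw')))
    rw [hz w' (Place.mem_fiber.mpr hw')]
    split
    · next h => subst h; omega
    · omega
  have hzmem : z ∈ ordGE w 0 := by
    rw [← bd.sum_repr z]
    refine Submodule.sum_mem _ fun i _ => ?_
    rw [Algebra.smul_def]
    refine ordGE_antitone w ?_ (mul_mem_ordGE w (algebraMap_mem_ordGE rfl
      (show bd.repr z i ∈ ordGE (w.restrict F) 0 by
        rw [Module.Basis.traceDual_repr_apply, Algebra.traceForm_apply]; exact hcoord i))
      (mem_ordGE_of_le w ((hv i).2 w rfl)))
    simp
  have := le_ord_of_mem_ordGE w hzmem hz0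
  omega

variable (K F F') in
/-- The different divisor of `F'/F`. -/
def differentDivisor : Divisor K F' :=
  Finsupp.ofSupportFinite (fun w => (differentExponent F w : ℤ))
    ((finite_differentExponent_ne_zero (K := K) (F := F) (F' := F')).subset fun w hw h0 =>
      hw (by simp [h0]))

theorem differentDivisor_apply (w : Place K F') :
    differentDivisor K F F' w = differentExponent F w := rfl

theorem differentDivisor_nonneg : 0 ≤ differentDivisor K F F' := fun w =>
  (differentDivisor_apply (F := F) w).symm ▸ Int.natCast_nonneg _

end Fermat.Agent.FF.Diff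

namespace Fermat.Agent.FF

open Fermat.Agent.FF.Diff

variable {K F : Type*} [Field K] [Field F] [Algebra K F] [IsFunctionField K F]

variable {x : F}

/-- `Diff (F / K(x))`. -/
def IsSeparatingElement.diff (hx : IsSeparatingElement K x) : Divisor K F :=
  haveI := finiteDimensional_adjoin hx.transcendental
  haveI := hx.isSeparable
  differentDivisor K K⟮x⟯ F

theorem IsSeparatingElement.diff_apply (hx : IsSeparatingElement K x) (w : Place K F) :
    haveI := finiteDimensional_adjoin hx.transcendental
    hx.diff w = differentExponent K⟮x⟯ w := rfl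

/-- The canonical divisor `-2 (poles of x) + Diff (F / K(x))` attached to `x`. -/
def IsSeparatingElement.canonicalDiv (hx : IsSeparatingElement K x) : Divisor K F :=
  hx.diff - 2 • poleDivisor K x

theorem IsSeparatingElement.canonicalDiv_apply (hx : IsSeparatingElement K x) (w : Place K F) :
    hx.canonicalDiv w = hx.diff w - 2 * max (-w.ord x) 0 := by
  simp [IsSeparatingElement.canonicalDiv]

end Fermat.Agent.FF
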