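import Fermat.Agent.FF.Approximation
import Mathlib.Algebra.Polynomial.Div

/-!
# The residue at infinity on `K(x)`

`resInf` is the coefficient of `1/x` in the expansion at infinity.
-/

set_option autoImplicit false
set_option linter.unusedSectionVars false

noncomputable section

open AlgebraicCurve IntermediateField Polynomial WithZero Fermat.Agent.FF

namespace Fermat.Agent.FF.Diff

variable {K F : Type*} [Field K] [Field F] [Algebra K F] {x : F}

theorem aeval_ne_zero (hx : Transcendental K x) {b : K[X]} (hb : b ≠ 0) : aeval x b ≠ 0 :=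
  fun h => hb (transcendental_iff.mp hx b h)

theorem exists_rep (hx : Transcendental K x) (r : K⟮x⟯) :
    ∃ a b : K[X], b.Monic ∧ (r : F) = aeval x a / aeval x b := by
  obtain ⟨a, b, h⟩ := (mem_adjoin_simple_iff (F := K) (r : F)).mp r.2
  rcases eq_or_ne b 0 with rfl | hb
  · exact ⟨0, 1, monic_one, by simp [h]⟩
  refine ⟨a * C b.leadingCoeff⁻¹, b * C b.leadingCoeff⁻¹,
    monic_mul_leadingCoeff_inv hb, ?_⟩
  rw [h, map_mul, map_mul, mul_div_mul_right]
  exact aeval_ne_zero hx (C_ne_zero.mpr (inv_ne_zero (leadingCoeff_ne_zero.mpr hb)))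

/-- The coefficient of `X⁻¹` of `a / b` at infinity, for monic `b`. -/
def ratRes (a b : K[X]) : K := (a %ₘ b).coeff (b.natDegree - 1)

theorem ratRes_mul (a : K[X]) {b c : K[X]} (hb : b.Monic) (hc : c.Monic) :
    ratRes (a * c) (b * c) = ratRes a b := by
  rcases eq_or_ne b 1 with rfl | hb1
  · simp [ratRes, (modByMonic_eq_zero_iff_dvd hc).mpr (dvd_mul_left c a)]
  have hlt := natDegree_modByMonic_lt a hb hb1
  have hmod : (a * c) %ₘ (b * c) = (a %ₘ b) * c := by
    refine (div_modByMonic_unique (a /ₘ b) _ (hb.mul hc) ⟨?_, ?_⟩).2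
    · conv_rhs => rw [← modByMonic_add_div a b]
      ring
    · rw [degree_mul, degree_mul]
      exact WithBot.add_lt_add_right (by rw [ne_eq, degree_eq_bot]; exact hc.ne_zero)
        (degree_modByMonic_lt a hb)
  have hsplit : (b * c).natDegree - 1 = (b.natDegree - 1) + c.natDegree := by
    rw [hb.natDegree_mul hc]; omega
  rw [ratRes, ratRes, hmod, hsplit,
    coeff_mul_add_eq_of_natDegree_le (by omega) le_rfl, hc.coeff_natDegree, mul_one]

theorem ratRes_eq (hx : Transcendental K x) {a b a' b' : K[X]} (hb : b.Monic) (hb' : b'.Monic)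
    (h : aeval x a / aeval x b = aeval x a' / aeval x b') : ratRes a b = ratRes a' b' := by
  rw [div_eq_div_iff (aeval_ne_zero hx hb.ne_zero) (aeval_ne_zero hx hb'.ne_zero),
    ← map_mul, ← map_mul] at h
  have heq : a * b' = a' * b := sub_eq_zero.mp (transcendental_iff.mp hx _ (by rw [map_sub, h, sub_self]))
  rw [← ratRes_mul a hb hb', ← ratRes_mul a' hb' hb, heq, mul_comm b b']

/-- The underlying function of `resInf`. -/
def resInfFun (hx : Transcendental K x) (r : K⟮x⟯) : K :=
  ratRes (exists_rep hx r).choose (exists_rep hx r).choose_spec.choose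

theorem resInfFun_eq (hx : Transcendental K x) {r : K⟮x⟯} {a b : K[X]} (hb : b.Monic)
    (h : (r : F) = aeval x a / aeval x b) : resInfFun hx r = ratRes a b :=
  ratRes_eq hx (exists_rep hx r).choose_spec.choose_spec.1 hb
    ((exists_rep hx r).choose_spec.choose_spec.2.symm.trans h)

/-- The residue at infinity, `coefficient of 1/x`. -/
def resInf (hx : Transcendental K x) : K⟮x⟯ →ₗ[K] K where
  toFun := resInfFun hx
  map_add' r s := by
    obtain ⟨a, b, hb, hr⟩ := exists_rep hx r
    obtain ⟨c, d, hd, hs⟩ := exists_rep hx s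
    have h1 : ((r + s : K⟮x⟯) : F) = aeval x (a * d + c * b) / aeval x (b * d) := by
      push_cast
      rw [hr, hs, map_add, map_mul, map_mul, map_mul,
        div_add_div _ _ (aeval_ne_zero hx hb.ne_zero) (aeval_ne_zero hx hd.ne_zero),
        mul_comm (aeval x b) (aeval x c)]
    rw [resInfFun_eq hx (hb.mul hd) h1, resInfFun_eq hx hb hr, resInfFun_eq hx hd hs,
      ← ratRes_mul a hb hd, ← ratRes_mul c hd hb, mul_comm d b]
    simp [ratRes, add_modByMonic]
  map_smul' k r := by
    obtain ⟨a, b, hb, hr⟩ := exists_rep hx r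
    have h1 : ((k • r : K⟮x⟯) : F) = aeval x (k • a) / aeval x b := by
      rw [map_smul, IntermediateField.coe_smul, hr, smul_div_assoc]
    rw [resInfFun_eq hx hb h1, resInfFun_eq hx hb hr]
    simp [ratRes, smul_modByMonic]

theorem resInf_eq (hx : Transcendental K x) {r : K⟮x⟯} {a b : K[X]} (hb : b.Monic)
    (h : (r : F) = aeval x a / aeval x b) : resInf hx r = ratRes a b :=
  resInfFun_eq hx hb h

theorem resInf_poly (hx : Transcendental K x) {r : K⟮x⟯} {p : K[X]}
    (h : (r : F) = aeval x p) : resInf hx r = 0 := by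
  rw [resInf_eq hx monic_one (a := p) (by simpa using h)]
  simp [ratRes]

theorem resInf_inv_gen (hx : Transcendental K x) {r : K⟮x⟯} (h : (r : F) = x⁻¹) :
    resInf hx r = 1 := by
  rw [resInf_eq hx monic_X (a := 1) (by simpa using h)]
  simp [ratRes, (modByMonic_eq_self_iff monic_X).mpr]

theorem exists_ne_zero_resInf_mul (hx : Transcendental K x) {r : K⟮x⟯}
    (h : ∀ p : K[X], (r : F) ≠ aeval x p) :
    ∃ p : K⟮x⟯, (∃ q : K[X], (p : F) = aeval x q) ∧ resInf hx (p * r) ≠ 0 := by
  obtain ⟨a, b, hb, hr⟩ := exists_rep hx r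
  have hc : a %ₘ b ≠ 0 := by
    intro h0
    refine h (a /ₘ b) ?_
    rw [hr, div_eq_iff (aeval_ne_zero hx hb.ne_zero), ← map_mul]
    conv_lhs => rw [← modByMonic_add_div a b, h0, zero_add, mul_comm b]
  have hb1 : b ≠ 1 := fun h1 => hc (by rw [h1, modByMonic_one])
  have hlt := natDegree_modByMonic_lt a hb hb1
  set k := b.natDegree - 1 - (a %ₘ b).natDegree with hk
  refine ⟨(AdjoinSimple.gen K x) ^ k, ⟨X ^ k, by simp⟩, ?_⟩
  rw [resInf_eq hx hb (a := X ^ k * a) (by push_cast; simp [hr, mul_div_assoc])]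
  have hmod : (X ^ k * a) %ₘ b = X ^ k * (a %ₘ b) := by
    refine (div_modByMonic_unique (X ^ k * (a /ₘ b)) _ hb ⟨?_, ?_⟩).2
    · conv_rhs => rw [← modByMonic_add_div a b]
      ring
    · rw [← natDegree_lt_natDegree_iff (mul_ne_zero (pow_ne_zero _ X_ne_zero) hc),
        natDegree_mul (pow_ne_zero _ X_ne_zero) hc, natDegree_X_pow]
      omega
  rw [ratRes, hmod, show b.natDegree - 1 = (a %ₘ b).natDegree + k by omega, mul_comm,
    coeff_mul_X_pow, coeff_natDegree]
  exact leadingCoeff_ne_zero.mpr hc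

/-! ### Behaviour at the poles of `x` -/

theorem ord_aeval_of_pole {w : Place K F} (hw : w.ord x < 0) {p : K[X]} (hp : p ≠ 0) :
    aeval x p ≠ 0 ∧ w.ord (aeval x p) = p.natDegree * w.ord x := by
  have hx : Transcendental K x := transcendental_of_ord_ne_zero w hw.ne
  have hx0 : x ≠ 0 := fun h => by simp [h] at hw
  refine ⟨aeval_ne_zero hx hp, ?_⟩
  induction hn : p.natDegree using Nat.strong_induction_on generalizing p with
  | _ n ih =>
    have hlead : algebraMap K F p.leadingCoeff * x ^ n ≠ 0 :=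
      mul_ne_zero (by simpa using leadingCoeff_ne_zero.mpr hp) (pow_ne_zero _ hx0)
    have hord : w.ord (algebraMap K F p.leadingCoeff * x ^ n) = n * w.ord x := by
      rw [Place.ord_mul _ (by simpa using leadingCoeff_ne_zero.mpr hp) (pow_ne_zero _ hx0),
        Fermat.Agent.FF.ord_algebraMap, Fermat.Agent.FF.ord_pow, zero_add]
    have hp' : aeval x p = algebraMap K F p.leadingCoeff * x ^ n + aeval x p.eraseLead := by
      conv_lhs => rw [← eraseLead_add_C_mul_X_pow p, hn]
      simp [add_comm]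
    rw [hp', (add_ne_zero_and_ord_eq_of_lt w hlead ?_).2, hord]
    rcases eq_or_ne p.eraseLead 0 with h0 | h0
    · exact Or.inl (by rw [h0, map_zero])
    · refine Or.inr ?_
      rcases eraseLead_natDegree_lt_or_eraseLead_eq_zero p with hlt | h
      · rw [hord, ih _ (hn ▸ hlt) h0 rfl]
        exact mul_lt_mul_of_neg_right (by exact_mod_cast hn ▸ hlt) hw
      · exact absurd h h0

theorem ord_div_of_pole {w : Place K F} (hw : w.ord x < 0) {a b : K[X]} (ha : a ≠ 0)
    (hb : b ≠ 0) : w.ord (aeval x a / aeval x b)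
      = ((a.natDegree : ℤ) - b.natDegree) * w.ord x := by
  obtain ⟨ha0, ha1⟩ := ord_aeval_of_pole hw ha
  obtain ⟨hb0, hb1⟩ := ord_aeval_of_pole hw hb
  rw [Fermat.Agent.FF.ord_div w ha0 hb0, ha1, hb1, sub_mul]

/-- On `K(x)` the order at a pole of `x` is a multiple of `ord x`. -/
theorem exists_ord_eq_mul_of_pole {w : Place K F} (hw : w.ord x < 0) (r : K⟮x⟯) :
    ∃ k : ℤ, w.ord (r : F) = k * w.ord x := by
  obtain ⟨a, b, hb, hr⟩ := exists_rep (transcendental_of_ord_ne_zero w hw.ne) r
  rcases eq_or_ne a 0 with rfl | ha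
  · exact ⟨0, by simp [hr]⟩
  exact ⟨_, by rw [hr, ord_div_of_pole hw ha hb.ne_zero]⟩

/-- Any two poles of `x` lie over the same place of `K(x)`. -/
theorem mem_iff_of_pole {w w' : Place K F} (hw : w.ord x < 0) (hw' : w'.ord x < 0) (r : K⟮x⟯) :
    (r : F) ∈ w.toValuationSubring ↔ (r : F) ∈ w'.toValuationSubring := by
  obtain ⟨a, b, hb, hr⟩ := exists_rep (transcendental_of_ord_ne_zero w hw.ne) r
  rcases eq_or_ne a 0 with rfl | ha
  · simp [hr]
  rw [Fermat.Agent.FF.mem_iff_ord_nonneg, Fermat.Agent.FF.mem_iff_ord_nonneg, hr,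
    ord_div_of_pole hw ha hb.ne_zero, ord_div_of_pole hw' ha hb.ne_zero]
  rcases le_or_gt (a.natDegree : ℤ) b.natDegree with h | h
  · constructor <;> intro _ <;> exact mul_nonneg_of_nonpos_of_nonpos (by omega) (le_of_lt ‹_›)
  · constructor <;> intro h' <;> exfalso
    · have := mul_neg_of_pos_of_neg (by omega : (0 : ℤ) < a.natDegree - b.natDegree) hw
      omega
    · have := mul_neg_of_pos_of_neg (by omega : (0 : ℤ) < a.natDegree - b.natDegree) hw'
      omega

theorem resInf_eq_zero_of_ordGE {w : Place K F} (hw : w.ord x < 0) {r : K⟮x⟯}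
    (h : (r : F) ∈ ordGE w (-2 * w.ord x)) :
    resInf (transcendental_of_ord_ne_zero w hw.ne) r = 0 := by
  have hx := transcendental_of_ord_ne_zero w hw.ne
  obtain ⟨a, b, hb, hr⟩ := exists_rep hx r
  rw [resInf_eq hx hb hr]
  rcases eq_or_ne a 0 with rfl | ha
  · simp [ratRes]
  have hr0 : (r : F) ≠ 0 :=
    hr ▸ div_ne_zero (aeval_ne_zero hx ha) (aeval_ne_zero hx hb.ne_zero)
  have h1 := le_ord_of_mem_ordGE w h hr0
  rw [hr, ord_div_of_pole hw ha hb.ne_zero] at h1
  have h2 : (a.natDegree : ℤ) + 2 ≤ b.natDegree := by nlinarith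
  rw [ratRes, (modByMonic_eq_self_iff hb).mpr (degree_lt_degree (by omega)),
    coeff_eq_zero_of_natDegree_lt]
  omega

/-! ### Regular at all finite places -/

theorem exists_poly_of_forall_ord_nonneg [IsFunctionField K F] [IsAlgClosed K]
    (hx : Transcendental K x) (r : K⟮x⟯)
    (h : ∀ w : Place K F, 0 ≤ w.ord x → (r : F) ∈ w.toValuationSubring) :
    ∃ p : K[X], (r : F) = aeval x p := by
  obtain ⟨a, b, hb, hr⟩ := exists_rep hx r
  induction hn : b.natDegree generalizing a b with
  | zero =>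
    obtain rfl : b = 1 := hb.natDegree_eq_zero.mp hn
    exact ⟨a, by simpa using hr⟩
  | succ n ih =>
    obtain ⟨β, hβ⟩ := IsAlgClosed.exists_root b
      (fun h0 => by rw [natDegree_eq_zero_iff_degree_le_zero.mpr h0.le] at hn; omega)
    obtain ⟨b', rfl⟩ := dvd_iff_isRoot.mpr hβ
    have hb' : b'.Monic := (monic_X_sub_C β).of_mul_monic_left hb
    by_cases ha : a.IsRoot β
    · obtain ⟨a', rfl⟩ := dvd_iff_isRoot.mpr ha
      refine ih a' b' hb' ?_ ?_
      · rw [hr, map_mul, map_mul, mul_div_mul_left]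
        exact aeval_ne_zero hx (X_sub_C_ne_zero β)
      · rw [natDegree_mul (X_sub_C_ne_zero β) hb'.ne_zero, natDegree_X_sub_C] at hn
        omega
    exfalso
    have hy : Transcendental K (x - algebraMap K F β) := fun halg => hx (by
      simpa using halg.add (isAlgebraic_algebraMap β))
    obtain ⟨w, hw⟩ := exists_place_ord_pos hy
    have hy1 : x - algebraMap K F β ∈ ordGE w 1 := mem_ordGE_of_le w hw
    have hxw : x ∈ ordGE w 0 := by
      rw [show x = (x - algebraMap K F β) + algebraMap K F β by ring]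
      exact add_mem (ordGE_antitone w zero_le_one hy1) (algebraMap_mem_ordGE_zero w β)
    have hfin : 0 ≤ w.ord x := by
      rcases eq_or_ne x 0 with h0 | h0
      · simp [h0]
      · exact le_ord_of_mem_ordGE w hxw h0
    -- the value of a polynomial at `w` is its value at `β`
    have hval : ∀ p : K[X], aeval x p - algebraMap K F (p.eval β) ∈ ordGE w 1 := fun p => by
      obtain ⟨q, hq⟩ := dvd_iff_isRoot.mpr
        (show (p - C (p.eval β)).IsRoot β by simp [IsRoot])
      have h1 := congrArg (aeval x) hq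
      rw [map_sub, aeval_C, map_mul, map_sub, aeval_X, aeval_C] at h1
      rw [h1]
      exact mul_mem_ordGE w hy1 (aeval_mem_ordGE_zero w hxw q) |> fun hh => by simpa using hh
    have hbw : aeval x ((X - C β) * b') ∈ ordGE w 1 := by
      have hh := hval ((X - C β) * b')
      rwa [hβ.eq_zero, map_zero, sub_zero] at hh
    have haw : aeval x a ∈ ordGE w 1 := by
      have hmul := mul_mem_ordGE w ((mem_ordGE_zero w).mpr (h w hfin)) hbw
      rwa [hr, div_mul_cancel₀ _ (aeval_ne_zero hx hb.ne_zero), zero_add] at hmul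
    have hc := sub_mem haw (hval a)
    rw [sub_sub_cancel, mem_ordGE, Fermat.Agent.FF.ord_algebraMap, map_eq_zero] at hc
    rcases hc with hc | hc
    · exact ha hc
    · omega

end Fermat.Agent.FF.Diff
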