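import Fermat.Agent.FF.CotraceDefs
import Fermat.Agent.FF.CotraceResidue
import Fermat.Agent.FF.RiemannRoch

/-!
# The cotrace of `resInf` and its divisor

The Weil differential `res_∞ ∘ Tr` of `F / K(x)`, read on repartitions through
`F → H¹(W)`, `f ↦ (f at the poles of x, 0 elsewhere)`, has divisor exactly
`W = Diff - 2 (poles of x)`.
-/

set_option autoImplicit false
set_option linter.unusedSectionVars false

noncomputable section

open AlgebraicCurve IntermediateField WithZero Fermat.Agent.FF

namespace Fermat.Agent.FF.Diff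

variable {K F : Type*} [Field K] [Field F] [Algebra K F] [IsFunctionField K F] [IsAlgClosed K]
variable {x : F} (hx : Transcendental K x)

theorem mem_ordGE_neg_iff (v : Place K F) (f : F) (n : ℤ) :
    f ∈ ordGE v (-n) ↔ v.adicValuation f ≤ exp n := by
  show v.adicValuation f ≤ exp (- -n) ↔ _
  rw [neg_neg]

theorem exists_pole (hx : Transcendental K x) : ∃ P : Place K F, P.ord x < 0 :=
  exists_place_ord_neg hx

/-- Approximation at all places that are not poles of `x`, with exact bounds. -/
theorem exists_approx_finite (hx : Transcendental K x) (D : Divisor K F) (a : Place K F → F)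
    (ha : {v : Place K F | ¬v.adicValuation (a v) ≤ 1}.Finite) :
    ∃ g : F, ∀ v : Place K F, 0 ≤ v.ord x → a v - g ∈ ordGE v (-D v) := by
  obtain ⟨P, hP⟩ := exists_pole hx
  let m : ℤ := max (2 * (genusFF K F : ℤ) - 1 - Divisor.degree D) 0
  have hdeg : 2 * (genusFF K F : ℤ) - 2 < Divisor.degree (D + Finsupp.single P m) := by
    have h1 : (1 : ℤ) ≤ P.deg := by exact_mod_cast placeDeg_pos P
    have h2 : m ≤ m * P.deg := le_mul_of_one_le_right (le_max_right _ _) h1
    rw [map_add, Divisor.degree_single]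
    omega
  obtain ⟨g, hg⟩ := exists_approx_of_lt_degree hdeg a ha
  refine ⟨g, fun v hv => (mem_ordGE_neg_iff v _ _).mpr ?_⟩
  have := hg v
  rwa [Finsupp.add_apply, Finsupp.single_eq_of_ne, add_zero] at this
  rintro rfl
  exact absurd hP (not_lt.mpr hv)

/-- `f` at the poles of `x`, `0` elsewhere. -/
def poleRep (hx : Transcendental K x) : F →ₗ[K] ↥(repartitions K F) :=
  LinearMap.codRestrict ((repartitions K F).toSubmodule.restrictScalars K)
    (LinearMap.pi fun v : Place K F => if 0 ≤ v.ord x then 0 else LinearMap.id)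
    fun f => by
      refine mem_repartitions_of_finite ((finite_ord_ne_zero x).subset fun v hv => ?_)
      by_contra h
      simp only [Set.mem_ofPred_eq, not_not] at h
      simp [h] at hv

theorem poleRep_apply_finite (f : F) {v : Place K F} (hv : 0 ≤ v.ord x) :
    (poleRep hx f : Place K F → F) v = 0 := by
  show (if 0 ≤ v.ord x then (0 : F →ₗ[K] F) else LinearMap.id) f = 0
  rw [if_pos hv]; rfl

theorem poleRep_apply_pole (f : F) {v : Place K F} (hv : v.ord x < 0) :
    (poleRep hx f : Place K F → F) v = f := by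
  show (if 0 ≤ v.ord x then (0 : F →ₗ[K] F) else LinearMap.id) f = f
  rw [if_neg (not_le.mpr hv)]; rfl

variable [FiniteDimensional K⟮x⟯ F] [Algebra.IsSeparable K⟮x⟯ F]

variable (K x) in
/-- The candidate canonical divisor. -/
def cotraceDiv : Divisor K F :=
  differentDivisor K K⟮x⟯ F - 2 • poleDivisor K x

theorem cotraceDiv_apply (v : Place K F) :
    cotraceDiv K x v = (differentExponent K⟮x⟯ v : ℤ) - 2 * max (-v.ord x) 0 := by
  simp [cotraceDiv, differentDivisor_apply]

theorem cotraceDiv_apply_finite {v : Place K F} (hv : 0 ≤ v.ord x) :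
    cotraceDiv K x v = (differentExponent K⟮x⟯ v : ℤ) := by
  rw [cotraceDiv_apply, max_eq_right (by omega)]; ring

theorem cotraceDiv_apply_pole {v : Place K F} (hv : v.ord x < 0) :
    cotraceDiv K x v = (differentExponent K⟮x⟯ v : ℤ) + 2 * v.ord x := by
  rw [cotraceDiv_apply, max_eq_left (by omega)]; ring

/-- `res_∞ ∘ Tr`. -/
def resTrace : F →ₗ[K] K :=
  (resInf hx).comp ((Algebra.trace K⟮x⟯ F).restrictScalars K)

theorem resTrace_apply (f : F) : resTrace hx f = resInf hx (Algebra.trace K⟮x⟯ F f) := rfl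

theorem ord_gen_nonneg_iff (w : Place K F) :
    0 ≤ (w.restrict K⟮x⟯).ord (AdjoinSimple.gen K x) ↔ 0 ≤ w.ord x := by
  have hg : algebraMap K⟮x⟯ F (AdjoinSimple.gen K x) = x := rfl
  rw [← Fermat.Agent.FF.mem_iff_ord_nonneg, Place.mem_restrict_iff,
    Fermat.Agent.FF.mem_iff_ord_nonneg, hg]

/-- `res_∞ (Tr g) = 0` if `g` lies in the inverse different at all finite places. -/
theorem resTrace_eq_zero_of_finite {g : F}
    (hg : ∀ v : Place K F, 0 ≤ v.ord x → g ∈ ordGE v (-cotraceDiv K x v)) :
    resTrace hx g = 0 := by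
  obtain ⟨p, hp⟩ := exists_poly_of_forall_ord_nonneg hx (Algebra.trace K⟮x⟯ F g) fun w hw => by
    have h := trace_mem_of_forall_differentExponent (w.restrict K⟮x⟯) (z := g) fun w' hw' => by
      have hw'x : 0 ≤ w'.ord x := by
        rw [← ord_gen_nonneg_iff, hw', ord_gen_nonneg_iff]; exact hw
      simpa [cotraceDiv_apply_finite hw'x] using hg w' hw'x
    rw [mem_ordGE_zero, Place.mem_restrict_iff] at h
    exact h
  rw [resTrace_apply, resInf_poly hx hp]

/-- `res_∞ (Tr g) = 0` if `g` is within the bound at all poles of `x`. -/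
theorem resTrace_eq_zero_of_pole {g : F}
    (hg : ∀ v : Place K F, v.ord x < 0 → g ∈ ordGE v (-cotraceDiv K x v)) :
    resTrace hx g = 0 := by
  obtain ⟨w, hw⟩ := exists_pole hx
  set xE : K⟮x⟯ := AdjoinSimple.gen K x with hxE
  have hxE' : algebraMap K⟮x⟯ F xE = x := rfl
  have hx0 : x ≠ 0 := fun h => by simp [h] at hw
  have h := trace_mem_of_forall_differentExponent (w.restrict K⟮x⟯)
    (z := algebraMap K⟮x⟯ F (xE ^ 2) * g) fun w' hw' => by
      have hw'x : w'.ord x < 0 := by
        rw [← not_le, ← ord_gen_nonneg_iff, hw', ord_gen_nonneg_iff, not_le]; exact hw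
      have hm := mul_mem_ordGE w' (mem_ordGE_of_le w' (f := x ^ 2) le_rfl) (hg w' hw'x)
      rw [Fermat.Agent.FF.ord_pow, cotraceDiv_apply_pole hw'x] at hm
      rw [map_pow, hxE']
      exact ordGE_antitone w' (by push_cast; omega) hm
  rw [trace_algebraMap_mul, mem_ordGE_zero, Place.mem_restrict_iff, map_mul, map_pow, hxE',
    ← mem_ordGE_zero, mul_mem_ordGE_iff _ (pow_ne_zero _ hx0), Fermat.Agent.FF.ord_pow] at h
  have := resInf_eq_zero_of_ordGE hw (r := Algebra.trace K⟮x⟯ F g)
    (ordGE_antitone w (by push_cast; omega) h)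
  exact this

/-- `F → H¹(W)`. -/
def toH1W : F →ₗ[K] H1 (cotraceDiv K x) :=
  (Submodule.mkQ _).comp (poleRep hx)

theorem toH1W_surjective : Function.Surjective (toH1W hx) := by
  classical
  intro q
  obtain ⟨α, rfl⟩ := Submodule.Quotient.mk_surjective _ q
  obtain ⟨g, hg⟩ := exists_approx_finite hx (cotraceDiv K x) (α : Place K F → F)
    (mem_repartitions_iff.mp α.2)
  obtain ⟨f, hf⟩ := exists_sub_mem_ordGE (finite_ord_ne_zero x).toFinset
    (fun v => (α : Place K F → F) v - g) (fun v => -cotraceDiv K x v)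
  refine ⟨f, ((Submodule.Quotient.eq _).mpr ?_).symm⟩
  rw [Submodule.mem_sup]
  refine ⟨α - poleRep hx f - constRep K g, fun v => ?_, constRep K g,
    constRep_mem_principalRepartitions g, sub_add_cancel _ _⟩
  show v.adicValuation ((α : Place K F → F) v - (poleRep hx f : Place K F → F) v - g) ≤ _
  rw [← mem_ordGE_neg_iff]
  rcases le_or_gt 0 (v.ord x) with hv | hv
  · rw [poleRep_apply_finite hx f hv, sub_zero]
    exact hg v hv
  · rw [poleRep_apply_pole hx f hv]
    have hh := neg_mem (hf v (by simp only [Set.Finite.mem_toFinset, Set.mem_ofPred_eq]; omega))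
    have he : -(f - ((α : Place K F → F) v - g)) = (α : Place K F → F) v - f - g := by ring
    rwa [he] at hh

theorem resTrace_eq_zero_of_toH1W {f : F} (h : toH1W hx f = 0) : resTrace hx f = 0 := by
  have h' : (Submodule.Quotient.mk (poleRep hx f) : H1 (cotraceDiv K x)) = 0 := h
  rw [Submodule.Quotient.mk_eq_zero, Submodule.mem_sup] at h'
  obtain ⟨β, hβ, γ, hγ, hsum⟩ := h'
  obtain ⟨g, hgγ⟩ := mem_principalRepartitions_iff.mp hγ
  have hval : ∀ v : Place K F,
      (β : Place K F → F) v + g = (poleRep hx f : Place K F → F) v := fun v => by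
    rw [← hsum]
    show (β : Place K F → F) v + g = (β : Place K F → F) v + (γ : Place K F → F) v
    rw [hgγ]
  have hb : ∀ v, (β : Place K F → F) v ∈ ordGE v (-cotraceDiv K x v) := fun v =>
    (mem_ordGE_neg_iff v _ _).mpr (hβ v)
  have h1 : resTrace hx g = 0 := resTrace_eq_zero_of_finite hx fun v hv => by
    have h := hval v
    rw [poleRep_apply_finite hx f hv] at h
    rw [eq_neg_of_add_eq_zero_right h]
    exact neg_mem (hb v)
  have h2 : resTrace hx (f - g) = 0 := resTrace_eq_zero_of_pole hx fun v hv => by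
    have h := hval v
    rw [poleRep_apply_pole hx f hv] at h
    rw [show f - g = (β : Place K F → F) v by rw [← h]; ring]
    exact hb v
  rw [map_sub, h1, sub_zero] at h2
  exact h2

/-- The cotrace Weil differential. -/
def cotrace : Module.Dual K ↥(repartitions K F) :=
  (((toH1W hx).ker.liftQ (resTrace hx) fun _ hf => resTrace_eq_zero_of_toH1W hx hf).comp
    ((toH1W hx).quotKerEquivOfSurjective (toH1W_surjective hx)).symm.toLinearMap).comp
    (Submodule.mkQ _)

theorem cotrace_poleRep (f : F) : cotrace hx (poleRep hx f) = resTrace hx f := by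
  have h : ((toH1W hx).quotKerEquivOfSurjective (toH1W_surjective hx)).symm (toH1W hx f)
      = Submodule.Quotient.mk f := by
    rw [LinearEquiv.symm_apply_eq]
    rfl
  show ((toH1W hx).ker.liftQ (resTrace hx) fun _ hf => resTrace_eq_zero_of_toH1W hx hf)
    (((toH1W hx).quotKerEquivOfSurjective (toH1W_surjective hx)).symm (toH1W hx f)) = _
  rw [h]
  rfl

theorem cotrace_mem : cotrace hx ∈ weilDiffOf (cotraceDiv K x) := by
  rw [weilDiffOf, Submodule.mem_dualAnnihilator]
  intro α hα
  rw [cotrace, LinearMap.comp_apply, Submodule.mkQ_apply,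
    (Submodule.Quotient.mk_eq_zero _).mpr hα, map_zero]

theorem cotrace_not_mem_pole {w : Place K F} (hw : w.ord x < 0) :
    cotrace hx ∉ weilDiffOf (cotraceDiv K x + Finsupp.single w 1) := by
  classical
  intro hmem
  obtain ⟨z, hz1, hz2, hz3⟩ := exists_trace_not_mem (F := K⟮x⟯) w
  set r := Algebra.trace K⟮x⟯ F z with hr
  have hrF : (r : F) ∉ w.toValuationSubring := fun h =>
    hz3 ((mem_ordGE_zero _).mpr ((Place.mem_restrict_iff (w := w)).mpr h))
  have hr0 : r ≠ 0 := fun h => hrF (by simp [h])
  have hr0' : (r : F) ≠ 0 := fun h => hr0 (Subtype.ext h)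
  have hx0 : x ≠ 0 := fun h => by simp [h] at hw
  set c : K⟮x⟯ := (AdjoinSimple.gen K x)⁻¹ * r⁻¹ with hc
  have hcF : algebraMap K⟮x⟯ F c = x⁻¹ * (r : F)⁻¹ := by
    rw [hc, map_mul, map_inv₀, map_inv₀]; rfl
  -- `ord` of `r` at any pole `v` over the same place is at most `ord x`
  have hrv : ∀ v : Place K F, v.ord x < 0 → v.ord (r : F) ≤ v.ord x := by
    intro v hv
    have hneg : v.ord (r : F) < 0 := by
      by_contra h
      exact hrF ((mem_iff_of_pole hv hw r).mp
        ((Fermat.Agent.FF.mem_iff_ord_nonneg v).mpr (not_lt.mp h)))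
    obtain ⟨k, hk⟩ := exists_ord_eq_mul_of_pole hv r
    rw [hk] at hneg ⊢
    have : 1 ≤ k := by
      by_contra h
      nlinarith
    nlinarith
  have hbound : ∀ v : Place K F, v.ord x < 0 → ∀ n : ℤ, z ∈ ordGE v n →
      algebraMap K⟮x⟯ F c * z ∈ ordGE v (-2 * v.ord x + n) := by
    intro v hv n hn
    rw [hcF]
    refine ordGE_antitone v ?_ (mul_mem_ordGE v (mem_ordGE_of_le v le_rfl) hn)
    rw [Place.ord_mul _ (inv_ne_zero hx0) (inv_ne_zero hr0'), Place.ord_inv, Place.ord_inv]
    have := hrv v hv
    omega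
  have htr : resTrace hx (algebraMap K⟮x⟯ F c * z) = 1 := by
    rw [resTrace_apply, trace_algebraMap_mul, ← hr]
    refine resInf_inv_gen hx ?_
    rw [hc, mul_assoc, inv_mul_cancel₀ hr0, mul_one]
    push_cast
    rfl
  have hmem' : poleRep hx (algebraMap K⟮x⟯ F c * z)
      ∈ repartitionsOf (cotraceDiv K x + Finsupp.single w 1) := by
    intro v
    rw [← mem_ordGE_neg_iff]
    rcases le_or_gt 0 (v.ord x) with hv | hv
    · rw [poleRep_apply_finite hx _ hv]; exact zero_mem _
    rw [poleRep_apply_pole hx _ hv]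
    have hsame : v.restrict K⟮x⟯ = w.restrict K⟮x⟯ := by
      refine Place.ext (SetLike.ext fun e => ?_)
      rw [Place.mem_restrict_iff, Place.mem_restrict_iff]
      exact mem_iff_of_pole hv hw e
    by_cases h : v = w
    · subst h
      refine ordGE_antitone v ?_ (hbound v hv _ hz1)
      rw [Finsupp.add_apply, Finsupp.single_eq_same, cotraceDiv_apply_pole hv]
      omega
    · refine ordGE_antitone v ?_ (hbound v hv _ (hz2 v hsame h))
      rw [Finsupp.add_apply, Finsupp.single_eq_of_ne h, cotraceDiv_apply_pole hv]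
      omega
  have h0 := (mem_weilDiffOf.mp hmem).1 _ hmem'
  rw [cotrace_poleRep, htr] at h0
  exact one_ne_zero h0

theorem cotrace_not_mem_finite {w : Place K F} (hw : 0 ≤ w.ord x) :
    cotrace hx ∉ weilDiffOf (cotraceDiv K x + Finsupp.single w 1) := by
  classical
  intro hmem
  obtain ⟨z, hz1, hz2, hz3⟩ := exists_trace_not_mem (F := K⟮x⟯) w
  obtain ⟨g, hg⟩ := exists_approx_finite hx (cotraceDiv K x)
    (singleRep w z : Place K F → F) (mem_repartitions_iff.mp (singleRep w z).2)
  have hrtr : ¬∀ p : Polynomial K,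
      ((Algebra.trace K⟮x⟯ F g : K⟮x⟯) : F) ≠ Polynomial.aeval x p := by
    intro hnp
    obtain ⟨p, ⟨q, hq⟩, hp⟩ := exists_ne_zero_resInf_mul hx hnp
    have hqv : ∀ v : Place K F, 0 ≤ v.ord x → algebraMap K⟮x⟯ F p ∈ ordGE v 0 := fun v hv => by
      rw [show algebraMap K⟮x⟯ F p = (p : F) from rfl, hq]
      exact aeval_mem_ordGE_zero v (mem_ordGE_of_le v hv) q
    set P := algebraMap K⟮x⟯ F p with hP
    -- `P·z` at `w` and `-P·g` at the poles differ by something killed
    have hpole : cotrace hx (poleRep hx (-(P * g))) = cotrace hx (singleRep w (P * z)) := by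
      have hdiff : singleRep w (P * z) - constRep K (P * g) - poleRep hx (-(P * g))
          ∈ repartitionsOf (cotraceDiv K x) := by
        intro v
        rw [← mem_ordGE_neg_iff]
        show (singleRep w (P * z) : Place K F → F) v - P * g
          - (poleRep hx (-(P * g)) : Place K F → F) v ∈ _
        rcases le_or_gt 0 (v.ord x) with hv | hv
        · rw [poleRep_apply_finite hx _ hv, sub_zero]
          have hh := ordGE_antitone v (le_of_eq (zero_add _).symm)
            (mul_mem_ordGE v (hqv v hv) (hg v hv))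
          by_cases h : v = w
          · subst h
            simp only [singleRep_apply_same] at hh ⊢
            rwa [mul_sub] at hh
          · simp only [singleRep_apply_of_ne h] at hh ⊢
            rwa [mul_sub, mul_zero] at hh
        · have hvw : v ≠ w := fun h => by subst h; omega
          rw [poleRep_apply_pole hx _ hv, singleRep_apply_of_ne hvw, zero_sub, sub_neg_eq_add,
            neg_add_cancel]
          exact zero_mem _
      have h := (mem_weilDiffOf.mp (cotrace_mem hx)).1 _ hdiff
      rw [map_sub, map_sub, (mem_weilDiffOf.mp (cotrace_mem hx)).2, sub_zero, sub_eq_zero] at h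
      exact h.symm
    have hkill : cotrace hx (singleRep w (P * z)) = 0 := by
      refine singleRep_eq_zero_of_mem_weilDiffOf hmem w _ ((mem_ordGE_neg_iff _ _ _).mp ?_)
      refine ordGE_antitone w ?_ (mul_mem_ordGE w (hqv w hw) hz1)
      rw [Finsupp.add_apply, Finsupp.single_eq_same, cotraceDiv_apply_finite hw]
      omega
    rw [hkill, cotrace_poleRep, map_neg, neg_eq_zero, resTrace_apply, hP, trace_algebraMap_mul]
      at hpole
    exact hp hpole
  push Not at hrtr
  obtain ⟨q, hq⟩ := hrtr
  apply hz3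
  rw [show z = g + (z - g) by ring, map_add]
  refine add_mem ?_ (trace_mem_of_forall_differentExponent _ fun v hv => ?_)
  · rw [mem_ordGE_zero, Place.mem_restrict_iff, ← mem_ordGE_zero,
      show algebraMap K⟮x⟯ F (Algebra.trace K⟮x⟯ F g) = Polynomial.aeval x q from hq]
    exact aeval_mem_ordGE_zero w (mem_ordGE_of_le w hw) q
  · have hvx : 0 ≤ v.ord x := by
      rw [← ord_gen_nonneg_iff, hv, ord_gen_nonneg_iff]; exact hw
    have h := hg v hvx
    rw [cotraceDiv_apply_finite hvx] at h
    by_cases hne : v = w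
    · subst hne
      rwa [singleRep_apply_same] at h
    · rw [singleRep_apply_of_ne hne, zero_sub] at h
      rw [show z - g = z + -g by ring]
      exact add_mem (ordGE_antitone v (by omega) (hz2 v hv hne)) h

theorem cotrace_ne_zero : cotrace hx ≠ 0 := by
  obtain ⟨w, hw⟩ := exists_pole hx
  intro h
  exact cotrace_not_mem_pole hx hw (h ▸ zero_mem _)

/-- The divisor of the cotrace differential. -/
theorem cotrace_divisor (D : Divisor K F) :
    cotrace hx ∈ weilDiffOf D ↔ D ≤ cotraceDiv K x := by
  obtain ⟨W, hW⟩ := exists_weilDivisor (cotrace_mem hx) (cotrace_ne_zero hx)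
  have h : cotraceDiv K x = W :=
    eq_weilDivisor_of_maximal hW (cotrace_mem hx) fun v => by
      rcases le_or_gt 0 (v.ord x) with hv | hv
      · exact cotrace_not_mem_finite hx hv
      · exact cotrace_not_mem_pole hx hv
  rw [h]
  exact hW D

end Fermat.Agent.FF.Diff
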