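import Fermat.Agent.FF.DifferentPlaceExtend
import Fermat.Agent.FF.Degree

/-!
# The different exponent of a place in a finite separable extension

`differentExponent F w` is the largest `m` such that the trace of every function with
`ord_w ≥ -m`, regular at the other places over the same place, is regular.  Main results: the
characterisation of the trace dual of the local integral closure, the bound `e - 1 ≤ d`, the tame
and wild cases over an algebraically closed constant field, and transitivity in towers.
-/

set_option autoImplicit false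

noncomputable section

open AlgebraicCurve WithZero Fermat.Agent.FF

namespace Fermat.Agent.FF.Diff

variable {K F F' : Type*} [Field K] [Field F] [Field F'] [Algebra K F] [Algebra K F']
  [Algebra F F'] [IsScalarTower K F F'] [FiniteDimensional F F']

variable (F) in
/-- `m` is an admissible exponent at `w`. -/
def IsDifferentBound (w : Place K F') (m : ℕ) : Prop :=
  ∀ z : F', z ∈ ordGE w (-(m : ℤ)) →
    (∀ w' : Place K F', w'.restrict F = w.restrict F → w' ≠ w → z ∈ ordGE w' 0) →
    Algebra.trace F F' z ∈ ordGE (w.restrict F) 0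

variable (F) in
/-- The different exponent of `w` over `F`. -/
def differentExponent (w : Place K F') : ℕ := sSup {m | IsDifferentBound F w m}

theorem IsDifferentBound.mono {w : Place K F'} {m m' : ℕ} (h : IsDifferentBound F w m)
    (hle : m' ≤ m) : IsDifferentBound F w m' := fun z hz hz' =>
  h z (ordGE_antitone w (by omega) hz) hz'

omit [FiniteDimensional F F'] in
theorem exists_unit_uniformizer (v : Place K F) : ∃ t : F, t ≠ 0 ∧ v.ord t = 1 :=
  exists_ord_eq_one v

theorem ord_algebraMap_of_restrict {w : Place K F'} {v : Place K F} (hw : w.restrict F = v)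
    (f : F) : w.ord (algebraMap F F' f) = w.ramificationIndex F * v.ord f := by
  subst hw; exact w.ord_restrict f

theorem algebraMap_mem_ordGE {w : Place K F'} {v : Place K F} (hw : w.restrict F = v) {f : F}
    {n : ℤ} (hf : f ∈ ordGE v n) :
    algebraMap F F' f ∈ ordGE w (w.ramificationIndex F * n) := by
  rcases (mem_ordGE v).mp hf with rfl | h
  · rw [map_zero]; exact zero_mem _
  · refine mem_ordGE_of_le w ?_
    rw [ord_algebraMap_of_restrict hw]
    exact mul_le_mul_of_nonneg_left h (by positivity)

omit [FiniteDimensional F F'] in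
/-- Scaling the trace by a function of `F`. -/
theorem trace_algebraMap_mul (c : F) (z : F') :
    Algebra.trace F F' (algebraMap F F' c * z) = c * Algebra.trace F F' z := by
  rw [← Algebra.smul_def, map_smul, smul_eq_mul]

section Separable

variable [Algebra.IsSeparable F F']

theorem trace_mem_ordGE_zero (v : Place K F) {z : F'}
    (hz : ∀ w : Place K F', w.restrict F = v → z ∈ ordGE w 0) :
    Algebra.trace F F' z ∈ ordGE v 0 :=
  (mem_ordGE_zero v).mpr <| trace_mem_of_forall_mem v fun w hw =>
    (mem_ordGE_zero w).mp (hz w hw)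

theorem valuation_lt_one_iff_mem_ordGE_one (v : Place K F) {z : F} :
    v.adicValuation z < 1 ↔ z ∈ ordGE v 1 := by
  rw [mem_ordGE]
  rcases eq_or_ne z 0 with rfl | h
  · simp
  · rw [v.adicValuation_eq_exp_neg_ord h, ← exp_zero, exp_lt_exp]
    simp only [h, false_or]
    omega

theorem trace_mem_ordGE_one (v : Place K F) {z : F'}
    (hz : ∀ w : Place K F', w.restrict F = v → z ∈ ordGE w 1) :
    Algebra.trace F F' z ∈ ordGE v 1 :=
  (valuation_lt_one_iff_mem_ordGE_one v).mp <| valuation_trace_lt_one v fun w hw =>
    (valuation_lt_one_iff_mem_ordGE_one w).mpr (hz w hw)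

theorem isDifferentBound_zero (w : Place K F') : IsDifferentBound F w 0 := by
  intro z hz hz'
  refine trace_mem_ordGE_zero _ fun w' hw' => ?_
  by_cases h : w' = w
  · subst h; simpa using hz
  · exact hz' w' hw' h

theorem exists_trace_eq_one : ∃ z : F', Algebra.trace F F' z = 1 :=
  Algebra.trace_surjective F F' 1

variable [IsFunctionField K F']

open Classical in
omit [FiniteDimensional F F'] in
/-- Split a function at a place: the piece keeps the behaviour at `w` and is regular elsewhere
over the same place. -/
theorem exists_piece (w : Place K F') (z : F') (N : ℕ) :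
    ∃ u : F', z - u ∈ ordGE w N ∧
      ∀ w' : Place K F', w'.restrict F = w.restrict F → w' ≠ w → u ∈ ordGE w' N := by
  obtain ⟨u, hu⟩ := exists_sub_mem_ordGE ((w.restrict F).fiber F')
    (fun w' => if w' = w then z else 0) (fun _ => (N : ℤ))
  refine ⟨u, ?_, fun w' hw' hne => ?_⟩
  · have := hu w (Place.restrict_mem_fiber w)
    rw [if_pos rfl] at this
    simpa using neg_mem this
  · have := hu w' (Place.mem_fiber.mpr hw')
    rwa [if_neg hne, sub_zero] at this

theorem bddAbove_differentBound (w : Place K F') :
    BddAbove {m | IsDifferentBound F w m} := by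
  by_contra hbdd
  rw [not_bddAbove_iff] at hbdd
  have hall : ∀ z : F', (∀ w' : Place K F', w'.restrict F = w.restrict F → w' ≠ w →
      z ∈ ordGE w' 0) → Algebra.trace F F' z ∈ ordGE (w.restrict F) 0 := by
    intro z hz
    obtain ⟨m, hm, hlt⟩ := hbdd (w.ord z).natAbs
    refine hm z (mem_ordGE_of_le w ?_) hz
    omega
  -- so a function close to `1` at `w` and to `0` at the others has coordinates close to `0`
  classical
  obtain ⟨t, ht0, ht⟩ := exists_ord_eq_one (w.restrict F)
  let b := Module.finBasis F F'
  let bd := b.traceDual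
  let k : ℕ := ∑ i, (w.ord (bd i)).natAbs + 1
  obtain ⟨u, hu, hu'⟩ := exists_piece (F := F) w 1
    (1 + ∑ w' ∈ (w.restrict F).fiber F',
      (w'.ramificationIndex F * k + ∑ i, (w'.ord (b i)).natAbs))
  have hcoord : ∀ i, Algebra.trace F F' (u * b i) ∈ ordGE (w.restrict F) (k : ℤ) := by
    intro i
    have h1 := hall (algebraMap F F' (t ^ k)⁻¹ * (u * b i)) fun w' hw' hne => by
      have hm := mul_mem_ordGE w' (hu' w' hw' hne) (mem_ordGE_of_le w' (f := b i) le_rfl)
      refine ordGE_antitone w' ?_ (mul_mem_ordGE w' (mem_ordGE_of_le w' le_rfl) hm)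
      rw [ord_algebraMap_of_restrict hw', Place.ord_inv, Fermat.Agent.FF.ord_pow, ht, mul_one]
      have h2 := Finset.single_le_sum
        (f := fun w'' : Place K F' =>
          w''.ramificationIndex F * k + ∑ i, (w''.ord (b i)).natAbs)
        (fun _ _ => Nat.zero_le _) (Place.mem_fiber.mpr hw')
      have h3 := Finset.single_le_sum (f := fun i => (w'.ord (b i)).natAbs)
        (fun _ _ => Nat.zero_le _) (Finset.mem_univ i)
      zify at h2 h3 ⊢
      have h4 := neg_abs_le (w'.ord (b i))
      rw [mul_neg]
      linarith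
    rw [trace_algebraMap_mul, mul_mem_ordGE_iff _ (inv_ne_zero (pow_ne_zero _ ht0)),
      Place.ord_inv, Fermat.Agent.FF.ord_pow, ht] at h1
    simpa using h1
  have hu1 : u ∈ ordGE w 1 := by
    rw [← bd.sum_repr u]
    refine Submodule.sum_mem _ fun i _ => ?_
    rw [Algebra.smul_def]
    refine ordGE_antitone w ?_ (mul_mem_ordGE w (algebraMap_mem_ordGE rfl
      (show bd.repr u i ∈ ordGE (w.restrict F) (k : ℤ) by
        rw [Module.Basis.traceDual_repr_apply, Algebra.traceForm_apply]; exact hcoord i))
      (mem_ordGE_of_le w (f := bd i) le_rfl))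
    have h3 := Finset.single_le_sum (f := fun i => (w.ord (bd i)).natAbs)
      (fun _ _ => Nat.zero_le _) (Finset.mem_univ i)
    have hk : ((w.ord (bd i)).natAbs : ℤ) + 1 ≤ k := by exact_mod_cast Nat.add_le_add_right h3 1
    have he : (1 : ℤ) ≤ w.ramificationIndex F := by exact_mod_cast w.ramificationIndex_pos (F := F)
    have hk0 : (0 : ℤ) ≤ k := Int.natCast_nonneg k
    have h4 := neg_abs_le (w.ord (bd i))
    rw [Int.natCast_natAbs] at hk
    nlinarith
  have h1 : (1 : F') ∈ ordGE w 1 := by
    rw [show (1 : F') = (1 - u) + u by ring]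
    refine add_mem (ordGE_antitone w ?_ hu) hu1
    push_cast
    have : (0 : ℤ) ≤ ((∑ w' ∈ (w.restrict F).fiber F',
      (w'.ramificationIndex F * k + ∑ i, (w'.ord (b i)).natAbs) : ℕ) : ℤ) := Int.natCast_nonneg _
    push_cast at this
    linarith
  rw [mem_ordGE, Place.ord_one] at h1
  simp at h1

theorem isDifferentBound_differentExponent (w : Place K F') :
    IsDifferentBound F w (differentExponent F w) :=
  Nat.sSup_mem ⟨0, isDifferentBound_zero w⟩ (bddAbove_differentBound w)

theorem le_differentExponent_iff (w : Place K F') (m : ℕ) :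
    m ≤ differentExponent F w ↔ IsDifferentBound F w m :=
  ⟨(isDifferentBound_differentExponent w).mono, fun h => le_csSup (bddAbove_differentBound w) h⟩

/-- A function showing that the different exponent is not larger. -/
theorem exists_trace_not_mem (w : Place K F') :
    ∃ z : F', z ∈ ordGE w (-(differentExponent F w : ℤ) - 1) ∧
      (∀ w' : Place K F', w'.restrict F = w.restrict F → w' ≠ w → z ∈ ordGE w' 0) ∧
      Algebra.trace F F' z ∉ ordGE (w.restrict F) 0 := by
  have h : ¬IsDifferentBound F w (differentExponent F w + 1) := fun h =>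
    absurd ((le_differentExponent_iff w _).mpr h) (by omega)
  simp only [IsDifferentBound, not_forall, exists_prop] at h
  obtain ⟨z, hz, hz', hz''⟩ := h
  exact ⟨z, by simpa [neg_add, sub_eq_add_neg, add_comm] using hz, hz', hz''⟩

/-- The trace is regular at `v` on the inverse different over `v`. -/
theorem trace_mem_of_forall_differentExponent (v : Place K F) {z : F'}
    (hz : ∀ w : Place K F', w.restrict F = v → z ∈ ordGE w (-(differentExponent F w : ℤ))) :
    Algebra.trace F F' z ∈ ordGE v 0 := by
  classical
  obtain ⟨N, hN⟩ : ∃ N : ℕ, ∀ w ∈ v.fiber F', (differentExponent F w : ℤ) ≤ N :=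
    ⟨∑ w ∈ v.fiber F', differentExponent F w, fun w hw => by
      exact_mod_cast Finset.single_le_sum (fun _ _ => Nat.zero_le _) hw⟩
  have hp : ∀ w : Place K F', ∃ u : F', w.restrict F = v → z - u ∈ ordGE w N ∧
      ∀ w' : Place K F', w'.restrict F = v → w' ≠ w → u ∈ ordGE w' N := by
    intro w
    by_cases hw : w.restrict F = v
    · obtain ⟨u, h1, h2⟩ := exists_piece (F := F) w z N
      exact ⟨u, fun _ => ⟨h1, fun w' hw' => h2 w' (hw'.trans hw.symm)⟩⟩
    · exact ⟨0, fun h => absurd h hw⟩
  choose u hu using hp
  have hsum : ∀ w ∈ v.fiber F', Algebra.trace F F' (u w) ∈ ordGE v 0 := by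
    intro w hw
    rw [Place.mem_fiber] at hw
    subst hw
    refine isDifferentBound_differentExponent w (u w) ?_ fun w' hw' hne =>
      ordGE_antitone w' (Int.natCast_nonneg N) ((hu w rfl).2 w' hw' hne)
    rw [show u w = z - (z - u w) by ring]
    refine sub_mem (hz w rfl) (ordGE_antitone w ?_ (hu w rfl).1)
    omega
  have hrest : Algebra.trace F F' (z - ∑ w ∈ v.fiber F', u w) ∈ ordGE v 0 := by
    refine trace_mem_ordGE_zero v fun w' hw' => ordGE_antitone w' (Int.natCast_nonneg N) ?_
    rw [← Finset.add_sum_erase _ _ (Place.mem_fiber.mpr hw'), ← sub_sub]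
    refine sub_mem (hu w' hw').1 (Submodule.sum_mem _ fun w hw => ?_)
    obtain ⟨hne, hw⟩ := Finset.mem_erase.mp hw
    exact (hu w (Place.mem_fiber.mp hw)).2 w' hw' hne.symm
  rw [show z = (z - ∑ w ∈ v.fiber F', u w) + ∑ w ∈ v.fiber F', u w by ring, map_add, map_sum]
  exact add_mem hrest (Submodule.sum_mem _ hsum)

/-- Outside the inverse different some multiple by a function regular over `v` has singular
trace; the multiplier can be chosen to vanish to any given order at the other places. -/
theorem exists_mul_trace_not_mem (w : Place K F') {z : F'}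
    (hz : z ∉ ordGE w (-(differentExponent F w : ℤ))) (N : ℕ) :
    ∃ y : F', y ∈ ordGE w 0 ∧
      (∀ w' : Place K F', w'.restrict F = w.restrict F → w' ≠ w → y ∈ ordGE w' N) ∧
      Algebra.trace F F' (z * y) ∉ ordGE (w.restrict F) 0 := by
  have hz0 : z ≠ 0 := fun h => hz (h ▸ zero_mem _)
  have hzord : w.ord z ≤ -(differentExponent F w : ℤ) - 1 := by
    by_contra h
    exact hz (mem_ordGE_of_le w (by omega))
  obtain ⟨z₀, h1, h2, h3⟩ := exists_trace_not_mem (F := F) w
  obtain ⟨M, hM, hMN⟩ : ∃ M : ℕ,
      (∀ w' ∈ (w.restrict F).fiber F', ((w'.ord z).natAbs : ℤ) ≤ M) ∧ N ≤ M :=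
    ⟨N + ∑ w' ∈ (w.restrict F).fiber F', (w'.ord z).natAbs, fun w' hw' => by
      exact_mod_cast le_add_left (Finset.single_le_sum (f := fun w' : Place K F' => (w'.ord z).natAbs)
        (fun _ _ => Nat.zero_le _) hw'), Nat.le_add_right _ _⟩
  obtain ⟨y, hy, hy'⟩ := exists_piece (F := F) w (z₀ / z) M
  have hq : z₀ / z ∈ ordGE w 0 := by
    have h := mul_mem_ordGE w h1 (mem_ordGE_of_le w (f := z⁻¹) le_rfl)
    rw [← div_eq_mul_inv, Place.ord_inv] at h
    exact ordGE_antitone w (by omega) h
  refine ⟨y, ?_, fun w' hw' hne => ordGE_antitone w' (by exact_mod_cast hMN) (hy' w' hw' hne),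
    fun hmem => h3 ?_⟩
  · rw [show y = z₀ / z - (z₀ / z - y) by ring]
    exact sub_mem hq (ordGE_antitone w (by omega) hy)
  have hd : z₀ - z * y = z * (z₀ / z - y) := by field_simp
  have hdiff : Algebra.trace F F' (z₀ - z * y) ∈ ordGE (w.restrict F) 0 := by
    refine trace_mem_ordGE_zero _ fun w' hw' => ?_
    by_cases hne : w' = w
    · subst hne
      rw [hd]
      refine ordGE_antitone w' ?_ (mul_mem_ordGE w' (mem_ordGE_of_le w' le_rfl) hy)
      have := hM w' (Place.mem_fiber.mpr hw')
      omega
    · refine sub_mem (h2 w' hw' hne) (ordGE_antitone w' ?_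
        (mul_mem_ordGE w' (mem_ordGE_of_le w' le_rfl) (hy' w' hw' hne)))
      have := hM w' (Place.mem_fiber.mpr hw')
      omega
  rw [show z₀ = (z₀ - z * y) + z * y by ring, map_add]
  exact add_mem hdiff hmem

/-- The trace dual of the functions regular over `v` is cut out by the different exponents. -/
theorem forall_trace_mul_mem_iff (v : Place K F) (z : F') :
    (∀ y : F', (∀ w : Place K F', w.restrict F = v → y ∈ ordGE w 0) →
      Algebra.trace F F' (z * y) ∈ ordGE v 0) ↔
    ∀ w : Place K F', w.restrict F = v → z ∈ ordGE w (-(differentExponent F w : ℤ)) := by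
  refine ⟨fun h w hw => ?_, fun h y hy => trace_mem_of_forall_differentExponent v fun w hw => ?_⟩
  · by_contra hz
    obtain ⟨y, h1, h2, h3⟩ := exists_mul_trace_not_mem (F := F) w hz 0
    subst hw
    refine h3 (h y fun w' hw' => ?_)
    by_cases hne : w' = w
    · exact hne ▸ h1
    · exact h2 w' hw' hne
  · simpa using mul_mem_ordGE w (h w hw) (hy w hw)

/-- `d ≥ e - 1`. -/
theorem ramificationIndex_sub_one_le_differentExponent (w : Place K F') :
    w.ramificationIndex F - 1 ≤ differentExponent F w := by
  rw [le_differentExponent_iff]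
  intro z hz hz'
  obtain ⟨t, ht0, ht⟩ := exists_ord_eq_one (w.restrict F)
  have h := trace_mem_ordGE_one (w.restrict F) (z := algebraMap F F' t * z) fun w' hw' => by
    have he := w'.ramificationIndex_pos (F := F)
    have ht' := mem_ordGE_of_le w' (f := algebraMap F F' t)
      (le_of_eq (ord_algebraMap_of_restrict hw' t).symm)
    rw [ht, mul_one] at ht'
    by_cases hne : w' = w
    · subst hne
      refine ordGE_antitone w' ?_ (mul_mem_ordGE w' ht' hz)
      omega
    · exact ordGE_antitone w' (by omega) (mul_mem_ordGE w' ht' (hz' w' hw' hne))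
  rw [trace_algebraMap_mul, mul_mem_ordGE_iff _ ht0, ht] at h
  simpa using h

end Separable

end Fermat.Agent.FF.Diff
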