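import Fermat.Agent.FF.Different

/-!
# Transitivity of the different exponent
-/

set_option autoImplicit false
set_option linter.unusedSectionVars false

noncomputable section

open AlgebraicCurve WithZero Fermat.Agent.FF

namespace Fermat.Agent.FF.Diff

variable {K F F' F'' : Type*} [Field K] [Field F] [Field F'] [Field F'']
  [Algebra K F] [Algebra K F'] [Algebra K F''] [Algebra F F'] [Algebra F' F''] [Algebra F F'']
  [IsScalarTower K F F'] [IsScalarTower K F' F''] [IsScalarTower K F F''] [IsScalarTower F F' F'']
  [FiniteDimensional F F'] [FiniteDimensional F' F''] [FiniteDimensional F F'']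
  [Algebra.IsSeparable F F'] [Algebra.IsSeparable F' F''] [Algebra.IsSeparable F F'']
  [IsFunctionField K F'] [IsFunctionField K F'']

theorem restrict_restrict' (u : Place K F'') :
    (u.restrict F').restrict F = u.restrict F := by
  refine Place.ext (SetLike.ext fun a => ?_)
  simp only [Place.mem_restrict_iff, ← IsScalarTower.algebraMap_apply F F' F'']

/-- Transitivity: `d(u/F) = e(u/F') d(w/F) + d(u/F')`. -/
theorem differentExponent_tower (u : Place K F'') :
    differentExponent F u =
      u.ramificationIndex F' * differentExponent F (u.restrict F') + differentExponent F' u := by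
  classical
  set w := u.restrict F' with hw
  set d := differentExponent F w with hd
  set d' := differentExponent F' u with hd'
  have hv : w.restrict F = u.restrict F := restrict_restrict' u
  refine le_antisymm (not_lt.mp fun hlt => ?_) ?_
  · have hbound := (le_differentExponent_iff u _).mp (Nat.succ_le_of_lt hlt)
    obtain ⟨y₀, hy1, hy2, hy3⟩ := exists_trace_not_mem (F := F) w
    obtain ⟨z₁, hz1, hz2, hz3⟩ := exists_trace_not_mem (F := F') u
    let N : ℕ := (d + 1) * ∑ u' ∈ w.fiber F'', u'.ramificationIndex F'
    obtain ⟨z₁', hp1, hp2⟩ := exists_piece (F := F) u z₁ N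
    have hsame : ∀ u' : Place K F'', u'.restrict F' = w → u'.restrict F = u.restrict F :=
      fun u' hu' => by rw [← restrict_restrict' (F' := F') u', hu', hv]
    set r := Algebra.trace F' F'' z₁' with hr
    have hrw : r ∉ ordGE w 0 := by
      intro hmem
      refine hz3 ?_
      rw [show z₁ = (z₁ - z₁') + z₁' by ring, map_add]
      refine add_mem (trace_mem_ordGE_zero w fun u' hu' => ?_) hmem
      by_cases h : u' = u
      · subst h; exact ordGE_antitone _ (Int.natCast_nonneg N) hp1
      · exact sub_mem (hz2 u' hu' h)
          (ordGE_antitone _ (Int.natCast_nonneg N) (hp2 u' (hsame u' hu') h))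
    have hr0 : r ≠ 0 := fun h => hrw (h ▸ zero_mem _)
    have hrord : w.ord r ≤ -1 := by
      by_contra h
      exact hrw (mem_ordGE_of_le w (by omega))
    obtain ⟨c, hc1, hc2⟩ := exists_piece (F := F) w (y₀ / r) (w.ord r).natAbs
    have hcd : c ∈ ordGE w (-(d : ℤ)) := by
      rw [show c = y₀ / r - (y₀ / r - c) by ring]
      refine sub_mem ?_ (ordGE_antitone w (by omega) hc1)
      have h := mul_mem_ordGE w hy1 (mem_ordGE_of_le w (f := r⁻¹) le_rfl)
      rw [← div_eq_mul_inv, Place.ord_inv] at h
      exact ordGE_antitone w (by omega) h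
    have he : ∀ u' : Place K F'', u'.restrict F' = w →
        (u'.ramificationIndex F' : ℤ) * d ≤ N := fun u' hu' => by
      have h1 := Finset.single_le_sum (f := fun u' : Place K F'' => u'.ramificationIndex F')
        (fun _ _ => Nat.zero_le _) (Place.mem_fiber.mpr hu')
      have : u'.ramificationIndex F' * d ≤ N :=
        (Nat.mul_le_mul h1 (Nat.le_succ d)).trans (le_of_eq (mul_comm _ _))
      exact_mod_cast this
    have hz1' : z₁' ∈ ordGE u (-(d' : ℤ) - 1) := by
      rw [show z₁' = z₁ - (z₁ - z₁') by ring]
      exact sub_mem hz1 (ordGE_antitone u (by omega) hp1)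
    have htr := hbound (algebraMap F' F'' c * z₁') ?_ ?_
    · rw [← Algebra.trace_trace (R := F) (S := F') (T := F''), trace_algebraMap_mul, ← hr] at htr
      refine hy3 ?_
      rw [show y₀ = (y₀ - c * r) + c * r by ring, map_add]
      refine add_mem (trace_mem_ordGE_zero _ fun w' hw' => ?_) (hv.symm ▸ htr)
      by_cases h : w' = w
      · subst h
        rw [show y₀ - c * r = r * (y₀ / r - c) by field_simp]
        exact ordGE_antitone w (by omega) (mul_mem_ordGE w (mem_ordGE_of_le w le_rfl) hc1)
      · refine sub_mem (hy2 w' hw' h) ?_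
        refine ordGE_antitone w' (by omega) (mul_mem_ordGE w' (n := 0) (hc2 w' hw' h) ?_)
        refine trace_mem_ordGE_zero w' fun u' hu' =>
          ordGE_antitone u' (Int.natCast_nonneg N) (hp2 u' ?_ ?_)
        · rw [← restrict_restrict' (F' := F') u', hu', hw', hv]
        · rintro rfl; exact h hu'.symm
    · refine ordGE_antitone u ?_ (mul_mem_ordGE u (algebraMap_mem_ordGE rfl hcd) hz1')
      push_cast
      rw [mul_neg]
      omega
    · intro u' hu' hne
      by_cases h : u'.restrict F' = w
      · refine ordGE_antitone u' ?_
          (mul_mem_ordGE u' (algebraMap_mem_ordGE h hcd) (hp2 u' hu' hne))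
        rw [mul_neg]
        have := he u' h
        omega
      · have hw'v : (u'.restrict F').restrict F = w.restrict F := by
          rw [restrict_restrict', hu', hv]
        refine ordGE_antitone u' ?_ (mul_mem_ordGE u'
          (algebraMap_mem_ordGE rfl (hc2 _ hw'v h)) (hp2 u' hu' hne))
        positivity
  · rw [le_differentExponent_iff]
    intro z hz hz'
    rw [← Algebra.trace_trace (R := F) (S := F') (T := F''), ← hv]
    refine trace_mem_of_forall_differentExponent _ fun w' hw' => ?_
    by_cases h : w' = w
    · subst h
      obtain ⟨s, hs0, hs⟩ := exists_ord_eq (K := K) {w} (fun _ : Place K F' => (d : ℤ))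
      have hsw : w.ord s = (d : ℤ) := hs w (Finset.mem_singleton_self w)
      have hsz : Algebra.trace F' F'' (algebraMap F' F'' s * z) ∈ ordGE w 0 := by
        refine trace_mem_of_forall_differentExponent _ fun u' hu' => ?_
        have hs' : algebraMap F' F'' s ∈ ordGE u' (u'.ramificationIndex F' * (d : ℤ)) :=
          algebraMap_mem_ordGE hu' (mem_ordGE_of_le w hsw.ge)
        by_cases h : u' = u
        · subst h
          refine ordGE_antitone u' ?_ (mul_mem_ordGE u' hs' hz)
          push_cast
          omega
        · refine ordGE_antitone u' ?_ (mul_mem_ordGE u' hs' (hz' u'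
            (by rw [← restrict_restrict' (F' := F') u', hu', hv]) h))
          have : (0 : ℤ) ≤ (u'.ramificationIndex F' : ℤ) * d := by positivity
          omega
      rw [trace_algebraMap_mul, mul_mem_ordGE_iff _ hs0, hsw, zero_sub] at hsz
      exact hsz
    · refine ordGE_antitone w' (by omega)
        (trace_mem_ordGE_zero w' fun u' hu' => hz' u' ?_ ?_)
      · rw [← restrict_restrict' (F' := F') u', hu', hw', hv]
      · rintro rfl; exact h hu'.symm

end Fermat.Agent.FF.Diff
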