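import Fermat.Agent.FF.RiemannRochBasic
import Fermat.Prelude.Def_AlgebraicCurve_IsCurveOver
import Mathlib.RingTheory.Finiteness.Finsupp
import Mathlib.Data.Int.LeastGreatest
import Mathlib.RingTheory.AlgebraTower
import Mathlib.FieldTheory.IntermediateField.Adjoin.Defs
import Mathlib.RingTheory.Algebraic.Basic

/-!
# Finiteness of `L(D)` and `H¹(D)`, and the first form of Riemann-Roch

Given a bound for `deg D - l(D)` this file proves
`l(D) - h¹(D) = deg D + l(0) - genusFF`.
-/

set_option autoImplicit false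

noncomputable section

open AlgebraicCurve WithZero

namespace Fermat.Agent.FF

variable {K F : Type*} [Field K] [Field F] [Algebra K F]

/-! ### Linear algebra helpers -/

theorem finite_and_finrank_of_ker_range {V W : Type*} [AddCommGroup V] [Module K V]
    [AddCommGroup W] [Module K W] (f : V →ₗ[K] W) [Module.Finite K f.ker]
    [Module.Finite K f.range] :
    Module.Finite K V ∧
      Module.finrank K V = Module.finrank K f.ker + Module.finrank K f.range := by
  have : Module.Finite K (V ⧸ f.ker) := Module.Finite.equiv f.quotKerEquivRange.symm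
  have : Module.Finite K V := Module.Finite.of_submodule_quotient f.ker
  exact ⟨this, by rw [← f.finrank_range_add_finrank_ker, add_comm]⟩

theorem finite_and_finrank_ker_comp {U V W : Type*} [AddCommGroup U] [Module K U]
    [AddCommGroup V] [Module K V] [AddCommGroup W] [Module K W]
    (g : U →ₗ[K] V) (hg : Function.Surjective g) (h : V →ₗ[K] W)
    [Module.Finite K g.ker] [Module.Finite K h.ker] :
    Module.Finite K (h.comp g).ker ∧
      Module.finrank K (h.comp g).ker = Module.finrank K g.ker + Module.finrank K h.ker := by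
  let ψ : (h.comp g).ker →ₗ[K] h.ker := g.restrict fun x hx => hx
  have hsurj : Function.Surjective ψ := by
    rintro ⟨y, hy⟩
    obtain ⟨x, rfl⟩ := hg y
    exact ⟨⟨x, hy⟩, rfl⟩
  let e : g.ker ≃ₗ[K] ψ.ker :=
    { toFun := fun x => ⟨⟨x, by
        have hx : g (x : U) = 0 := x.2
        show h (g (x : U)) = 0
        rw [hx, map_zero]⟩, Subtype.ext x.2⟩
      invFun := fun x => ⟨x.1.1, congrArg Subtype.val x.2⟩
      map_add' := fun _ _ => rfl
      map_smul' := fun _ _ => rfl
      left_inv := fun _ => rfl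
      right_inv := fun _ => rfl }
  have : Module.Finite K ψ.ker := Module.Finite.equiv e
  have hr : ψ.range = ⊤ := LinearMap.range_eq_top.mpr hsurj
  have : Module.Finite K ψ.range := Module.Finite.equiv (LinearEquiv.ofTop _ hr).symm
  obtain ⟨h1, h2⟩ := finite_and_finrank_of_ker_range ψ
  refine ⟨h1, ?_⟩
  rw [h2, ← e.finrank_eq, (LinearEquiv.ofTop _ hr).finrank_eq]

/-! ### Divisors -/

variable [∀ v : Place K F, v.FiniteResidue]

omit [∀ v : Place K F, v.FiniteResidue] in
theorem rrDegree_nonneg {D : Divisor K F} (h : 0 ≤ D) : 0 ≤ Divisor.degree D := by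
  have hD : Divisor.degree D = D.sum fun v n => n * (v.deg : ℤ) :=
    Finsupp.liftAddHom_apply _ _
  rw [hD]
  exact Finset.sum_nonneg fun v _ => mul_nonneg (h v) (Nat.cast_nonneg _)

omit [∀ v : Place K F, v.FiniteResidue] in
theorem rrDegree_mono {D E : Divisor K F} (h : D ≤ E) :
    Divisor.degree D ≤ Divisor.degree E := by
  have := rrDegree_nonneg (sub_nonneg.mpr h)
  rwa [map_sub, sub_nonneg] at this

/-- Induction along the divisors above a given one. -/
theorem divisor_le_induction {D : Divisor K F} {P : Divisor K F → Prop} (base : P D)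
    (step : ∀ (E : Divisor K F) (v : Place K F),
      D ≤ E → P E → P (E + Finsupp.single v 1))
    {E : Divisor K F} (h : D ≤ E) : P E := by
  obtain ⟨m, hm⟩ : ∃ m, (Divisor.degree (E - D)).toNat = m := ⟨_, rfl⟩
  induction m using Nat.strong_induction_on generalizing E with
  | _ m ih =>
    rcases eq_or_ne E D with rfl | hne
    · exact base
    obtain ⟨v, hv⟩ := Finsupp.ne_iff.mp hne
    have hlt : D v < E v := lt_of_le_of_ne (h v) (Ne.symm hv)
    have hle : D ≤ E - Finsupp.single v 1 := by
      intro w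
      rcases eq_or_ne w v with rfl | hw
      · simp; omega
      · simpa [Finsupp.single_eq_of_ne hw] using h w
    have h1 : 0 ≤ Divisor.degree (E - Finsupp.single v 1 - D) :=
      rrDegree_nonneg (sub_nonneg.mpr hle)
    have h2 : Divisor.degree (E - Finsupp.single v 1 - D)
        = Divisor.degree (E - D) - (v.deg : ℤ) := by
      simp only [map_sub, Divisor.degree_single]
      ring
    have h3 := placeDeg_pos v
    have := step _ v hle (ih _ (by omega) hle rfl)
    rwa [sub_add_cancel] at this

/-! ### `L(D)` is finite dimensional -/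

/-- `l(D)`. -/
abbrev rrDim (D : Divisor K F) : ℕ := Module.finrank K (riemannRochSpace D)

/-- `h¹(D)`. -/
abbrev h1Dim (D : Divisor K F) : ℕ := Module.finrank K (H1 D)

variable [HasPrincipalDivisors K F]

omit [∀ v : Place K F, v.FiniteResidue] in
theorem riemannRochSpace_eq_bot {D : Divisor K F} (hD : Divisor.degree D < 0) :
    riemannRochSpace D = ⊥ := by
  rw [eq_bot_iff]
  intro f hf
  by_contra hf0
  rw [Submodule.mem_bot] at hf0
  obtain ⟨E, hE, hdeg⟩ := HasPrincipalDivisors.exists_divisor (K := K) f hf0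
  have h0 : 0 ≤ D + E := fun v => by
    have := ((mem_riemannRochSpace_iff.mp hf) v).resolve_left hf0
    rw [Finsupp.add_apply, hE v, Finsupp.coe_zero, Pi.zero_apply]
    omega
  have := rrDegree_nonneg h0
  rw [map_add, hdeg] at this
  omega

omit [HasPrincipalDivisors K F] in
theorem finite_rrLead_range (v : Place K F) (D : Divisor K F) :
    Module.Finite K (rrLead v D).range := by
  have : Module.Finite K v.ResidueField := Place.FiniteResidue.finite
  infer_instance

/-- The kernel of the leading coefficient map is `L(D)`. -/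
def rrLeadKerEquiv (v : Place K F) (D : Divisor K F) :
    riemannRochSpace D ≃ₗ[K] (rrLead v D).ker where
  toFun f := ⟨⟨f, riemannRochSpace_mono (le_add_single_one v D) f.2⟩,
    (rrLead_eq_zero_iff v D _).mpr f.2⟩
  invFun f := ⟨f.1.1, (rrLead_eq_zero_iff v D _).mp f.2⟩
  map_add' _ _ := rfl
  map_smul' _ _ := rfl
  left_inv _ := rfl
  right_inv _ := rfl

variable [Nonempty (Place K F)]

theorem finite_riemannRochSpace (D : Divisor K F) :
    Module.Finite K (riemannRochSpace D) := by
  obtain ⟨P⟩ := ‹Nonempty (Place K F)›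
  set m : ℤ := max (Divisor.degree D + 1) 0 with hm
  have hle : D - Finsupp.single P m ≤ D :=
    sub_le_self _ (Finsupp.single_nonneg.mpr (le_max_right _ _))
  refine divisor_le_induction (P := fun E => Module.Finite K (riemannRochSpace E)) ?_ ?_ hle
  · have hneg : Divisor.degree (D - Finsupp.single P m) < 0 := by
      rw [map_sub, Divisor.degree_single]
      have h3 : (1 : ℤ) ≤ P.deg := by exact_mod_cast placeDeg_pos P
      have : m ≤ m * P.deg := le_mul_of_one_le_right (le_max_right _ _) h3
      omega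
    rw [riemannRochSpace_eq_bot hneg]
    infer_instance
  · intro E v _ hE
    have := finite_rrLead_range v E
    have : Module.Finite K (rrLead v E).ker := Module.Finite.equiv (rrLeadKerEquiv v E)
    exact (finite_and_finrank_of_ker_range (rrLead v E)).1

instance instFiniteRRSpace (D : Divisor K F) :
    Module.Finite K (riemannRochSpace D) :=
  finite_riemannRochSpace D

theorem rrDim_mono {D E : Divisor K F} (h : D ≤ E) : rrDim D ≤ rrDim E :=
  Submodule.finrank_mono (riemannRochSpace_mono h)

theorem one_le_rrDim_zero : 1 ≤ rrDim (0 : Divisor K F) := by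
  have h : (1 : F) ∈ riemannRochSpace (0 : Divisor K F) := fun v => by simp
  have : Nontrivial (riemannRochSpace (0 : Divisor K F)) :=
    ⟨⟨1, h⟩, 0, fun hh => one_ne_zero (congrArg Subtype.val hh)⟩
  exact Module.finrank_pos

theorem rrDim_zero_eq_one_of_deg_eq_one (P : Place K F) (hP : P.deg = 1) :
    rrDim (0 : Divisor K F) = 1 := by
  refine le_antisymm ?_ one_le_rrDim_zero
  have hneg : Divisor.degree (-Finsupp.single P 1 : Divisor K F) < 0 := by simp [hP]
  have hbot := riemannRochSpace_eq_bot hneg
  have : Module.Finite K P.ResidueField := Place.FiniteResidue.finite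
  have hinj : Function.Injective (rrLead P (-Finsupp.single P 1)) := by
    rw [← LinearMap.ker_eq_bot, eq_bot_iff]
    intro f hf
    have h0 := (rrLead_eq_zero_iff P _ f).mp hf
    rw [hbot, Submodule.mem_bot] at h0
    exact (Submodule.mem_bot K).mpr (Subtype.ext h0)
  have := LinearMap.finrank_le_finrank_of_injective hinj
  rw [neg_add_cancel] at this
  exact this.trans hP.le

theorem rrDim_zero_eq_one [IsAlgClosed K] : rrDim (0 : Divisor K F) = 1 :=
  let ⟨P⟩ := ‹Nonempty (Place K F)›
  have : Module.Finite K P.ResidueField := Place.FiniteResidue.finite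
  rrDim_zero_eq_one_of_deg_eq_one P P.deg_eq_one_of_isAlgClosed_of_finite

/-! ### Kernels of `H¹(D) → H¹(E)` -/

theorem finrank_ker_h1Map_single (v : Place K F) (D : Divisor K F) :
    Module.Finite K (h1Map (le_add_single_one v D)).ker ∧
      (Module.finrank K (h1Map (le_add_single_one v D)).ker : ℤ)
        = v.deg - rrDim (D + Finsupp.single v 1) + rrDim D := by
  have : Module.Finite K v.ResidueField := Place.FiniteResidue.finite
  have e : (residueToH1 v D).range ≃ₗ[K] (h1Map (le_add_single_one v D)).ker :=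
    LinearEquiv.ofEq _ _ (range_residueToH1 v D)
  refine ⟨Module.Finite.equiv e, ?_⟩
  rw [← e.finrank_eq]
  have h1 := (residueToH1 v D).finrank_range_add_finrank_ker
  rw [ker_residueToH1] at h1
  have h2 := (rrLead v D).finrank_range_add_finrank_ker
  rw [← (rrLeadKerEquiv v D).finrank_eq] at h2
  have h3 : v.deg = Module.finrank K v.ResidueField := rfl
  simp only [rrDim] at *
  omega

theorem finrank_ker_h1Map {D E : Divisor K F} (h : D ≤ E) :
    Module.Finite K (h1Map h).ker ∧
      (Module.finrank K (h1Map h).ker : ℤ)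
        = (Divisor.degree E - rrDim E) - (Divisor.degree D - rrDim D) := by
  suffices hP : ∀ h : D ≤ E, Module.Finite K (h1Map h).ker ∧
      (Module.finrank K (h1Map h).ker : ℤ)
        = (Divisor.degree E - rrDim E) - (Divisor.degree D - rrDim D) from hP h
  refine divisor_le_induction (P := fun G => ∀ h : D ≤ G, Module.Finite K (h1Map h).ker ∧
      (Module.finrank K (h1Map h).ker : ℤ)
        = (Divisor.degree G - rrDim G) - (Divisor.degree D - rrDim D)) ?_ ?_ h
  · intro h'
    have : (h1Map h').ker = ⊥ := by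
      rw [eq_bot_iff]
      intro x hx
      obtain ⟨α, rfl⟩ := Submodule.Quotient.mk_surjective _ x
      exact hx
    rw [this]
    refine ⟨inferInstance, ?_⟩
    simp
  · intro G v hG ih h'
    obtain ⟨f1, e1⟩ := ih hG
    obtain ⟨f2, e2⟩ := finrank_ker_h1Map_single v G
    obtain ⟨f3, e3⟩ := finite_and_finrank_ker_comp (h1Map hG) (h1Map_surjective hG)
      (h1Map (le_add_single_one v G))
    have hc : (h1Map (le_add_single_one v G)).comp (h1Map hG) = h1Map h' :=
      h1Map_trans hG (le_add_single_one v G)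
    rw [hc] at f3 e3
    refine ⟨f3, ?_⟩
    rw [e3, Nat.cast_add, e1, e2, map_add, Divisor.degree_single]
    ring

theorem degree_sub_rrDim_mono {D E : Divisor K F} (h : D ≤ E) :
    Divisor.degree D - rrDim D ≤ Divisor.degree E - rrDim E := by
  obtain ⟨-, h1⟩ := finrank_ker_h1Map h
  omega

/-! ### Linear equivalence -/

/-- Multiplication by `f ≠ 0`, shifting the divisor. -/
def rrMulEquiv {f : F} (hf : f ≠ 0) {E : Divisor K F} (hE : ∀ v, E v = v.ord f)
    (D : Divisor K F) : riemannRochSpace D ≃ₗ[K] riemannRochSpace (D - E) where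
  toFun g := ⟨f * g, fun v => by
    rw [map_mul, Finsupp.sub_apply, hE v, v.adicValuation_eq_exp_neg_ord hf, sub_eq_neg_add,
      exp_add]
    gcongr
    exact g.2 v⟩
  invFun g := ⟨f⁻¹ * g, fun v => by
    have h := g.2 v
    rw [Finsupp.sub_apply, hE v] at h
    calc v.adicValuation (f⁻¹ * g) ≤ exp (v.ord f) * exp (D v - v.ord f) := by
          rw [map_mul, map_inv₀, v.adicValuation_eq_exp_neg_ord hf, ← exp_neg, neg_neg]
          gcongr
      _ = exp (D v) := by rw [← exp_add, add_sub_cancel]⟩
  map_add' g g' := Subtype.ext (mul_add f (g : F) (g' : F))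
  map_smul' c g := Subtype.ext (mul_smul_comm c f (g : F))
  left_inv g := Subtype.ext (inv_mul_cancel_left₀ hf (g : F))
  right_inv g := Subtype.ext (mul_inv_cancel_left₀ hf (g : F))

omit [∀ v : Place K F, v.FiniteResidue] [HasPrincipalDivisors K F] [Nonempty (Place K F)] in
theorem rrDim_sub_of_ord {f : F} (hf : f ≠ 0) {E : Divisor K F} (hE : ∀ v, E v = v.ord f)
    (D : Divisor K F) : rrDim (D - E) = rrDim D :=
  (rrMulEquiv hf hE D).finrank_eq.symm

/-- An element of `L(G)` other than `0` moves `D` below `D + G`. -/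
theorem exists_le_of_rrDim_pos {G : Divisor K F} (hG : 0 < rrDim G) :
    ∃ (f : F) (E : Divisor K F), f ≠ 0 ∧ (∀ v, E v = v.ord f) ∧ Divisor.degree E = 0 ∧
      0 ≤ G + E := by
  have hne : riemannRochSpace G ≠ ⊥ := fun h => by
    rw [rrDim, Submodule.finrank_eq_zero.mpr h] at hG
    exact lt_irrefl _ hG
  obtain ⟨f, hf, hf0⟩ := Submodule.exists_mem_ne_zero_of_ne_bot hne
  obtain ⟨E, hE, hdeg⟩ := HasPrincipalDivisors.exists_divisor (K := K) f hf0
  refine ⟨f, E, hf0, hE, hdeg, fun v => ?_⟩
  have := ((mem_riemannRochSpace_iff.mp hf) v).resolve_left hf0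
  rw [Finsupp.add_apply, hE v, Finsupp.coe_zero, Pi.zero_apply]
  omega

/-! ### The Riemann bound -/

/-- `deg D - l(D)` is bounded above (Riemann's inequality). -/
class HasRiemannBound (K F : Type*) [Field K] [Field F] [Algebra K F] : Prop where
  exists_bound : ∃ γ : ℤ, ∀ D : Divisor K F, Divisor.degree D - rrDim D ≤ γ

omit [∀ v : Place K F, v.FiniteResidue] [HasPrincipalDivisors K F] [Nonempty (Place K F)] in
theorem exists_max_degree_sub_rrDim [HasRiemannBound K F] :
    ∃ D₀ : Divisor K F, ∀ D : Divisor K F,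
      Divisor.degree D - rrDim D ≤ Divisor.degree D₀ - rrDim D₀ := by
  obtain ⟨γ, hγ⟩ := HasRiemannBound.exists_bound (K := K) (F := F)
  obtain ⟨z, ⟨D₀, rfl⟩, hmax⟩ := Int.exists_greatest_of_bdd
    (P := fun z => ∃ D : Divisor K F, Divisor.degree D - rrDim D = z)
    ⟨γ, fun z ⟨D, hD⟩ => hD ▸ hγ D⟩ ⟨_, 0, rfl⟩
  exact ⟨D₀, fun D => hmax _ ⟨D, rfl⟩⟩

omit [∀ v : Place K F, v.FiniteResidue] [Nonempty (Place K F)] in
/-- Every repartition lies in some `A(E)` with `E` above a given divisor. -/
theorem exists_ge_mem_repartitionsOf (D : Divisor K F) (α : ↥(repartitions K F)) :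
    ∃ E : Divisor K F, D ≤ E ∧ α ∈ repartitionsOf E := by
  classical
  let s : Finset (Place K F) :=
    (mem_repartitions_iff.mp α.2).toFinset ∪ D.support
  refine ⟨Finsupp.onFinset s
    (fun v => max (D v) (log (v.adicValuation ((α : Place K F → F) v)))) (fun v hv => ?_),
    fun v => ?_, fun v => ?_⟩
  · by_contra hvs
    simp only [s, Finset.mem_union, Set.Finite.mem_toFinset, Set.mem_ofPred_eq,
      Finsupp.mem_support_iff, not_or, not_not] at hvs
    rw [hvs.2] at hv
    refine hv (max_eq_left ?_)
    rcases eq_or_ne (v.adicValuation ((α : Place K F → F) v)) 0 with h | h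
    · rw [h, log_zero]
    · rw [log_le_iff_le_exp h, exp_zero]
      exact hvs.1
  · exact le_max_left _ _
  · exact le_exp_log.trans (exp_le_exp.mpr (le_max_right _ _))

variable [HasRiemannBound K F]

theorem exists_divisor_h1_subsingleton :
    ∃ D₀ : Divisor K F, Subsingleton (H1 D₀) ∧
      ∀ D : Divisor K F, Divisor.degree D - rrDim D ≤ Divisor.degree D₀ - rrDim D₀ := by
  obtain ⟨D₀, hD₀⟩ := exists_max_degree_sub_rrDim (K := K) (F := F)
  refine ⟨D₀, subsingleton_of_forall_eq 0 fun x => ?_, hD₀⟩
  obtain ⟨α, rfl⟩ := Submodule.Quotient.mk_surjective _ x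
  obtain ⟨E, hle, hα⟩ := exists_ge_mem_repartitionsOf D₀ α
  obtain ⟨hfin, hrank⟩ := finrank_ker_h1Map hle
  have := hD₀ E
  have h0 : Module.finrank K (h1Map hle).ker = 0 := by omega
  have hbot : (h1Map hle).ker = ⊥ := Submodule.finrank_eq_zero.mp h0
  have hmem : (Submodule.Quotient.mk α : H1 D₀) ∈ (h1Map hle).ker := by
    rw [LinearMap.mem_ker, h1Map_mk]
    exact (Submodule.Quotient.mk_eq_zero _).mpr (Submodule.mem_sup_left hα)
  rwa [hbot, Submodule.mem_bot] at hmem

theorem h1_finite_and_dim (D : Divisor K F) :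
    Module.Finite K (H1 D) ∧
      ((rrDim D : ℤ) - h1Dim D
        = Divisor.degree D + rrDim (0 : Divisor K F) - genusFF K F) := by
  classical
  obtain ⟨D₀, hsub, hmax⟩ := exists_divisor_h1_subsingleton (K := K) (F := F)
  have key : ∀ G : Divisor K F, Module.Finite K (H1 G) ∧
      (h1Dim G : ℤ) = (Divisor.degree D₀ - rrDim D₀) - (Divisor.degree G - rrDim G) := by
    intro G
    obtain ⟨E, hGE, hDE⟩ : ∃ E : Divisor K F, G ≤ E ∧ D₀ ≤ E := ⟨G ⊔ D₀, le_sup_left, le_sup_right⟩
    have : Subsingleton (H1 E) := (h1Map_surjective hDE).subsingleton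
    obtain ⟨hfin, hrank⟩ := finrank_ker_h1Map hGE
    have htop : (h1Map hGE).ker = ⊤ :=
      eq_top_iff.mpr fun x _ => LinearMap.mem_ker.mpr (Subsingleton.elim _ _)
    have e : (h1Map hGE).ker ≃ₗ[K] H1 G := LinearEquiv.ofTop _ htop
    refine ⟨Module.Finite.equiv e, ?_⟩
    have h1 := degree_sub_rrDim_mono hDE
    have h2 := hmax E
    show (Module.finrank K (H1 G) : ℤ) = _
    rw [← e.finrank_eq, hrank]
    omega
  refine ⟨(key D).1, ?_⟩
  have hg : (h1Dim (0 : Divisor K F) : ℤ) = genusFF K F := rfl
  rw [(key D).2, ← hg, (key 0).2, map_zero]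
  ring

instance instFiniteRRH1 (D : Divisor K F) : Module.Finite K (H1 D) :=
  (h1_finite_and_dim D).1

/-- Riemann-Roch, first form. -/
theorem rrDim_sub_h1Dim (D : Divisor K F) :
    (rrDim D : ℤ) - h1Dim D
      = Divisor.degree D + rrDim (0 : Divisor K F) - genusFF K F :=
  (h1_finite_and_dim D).2

/-- Riemann's inequality. -/
theorem degree_add_le_rrDim (D : Divisor K F) :
    Divisor.degree D + rrDim (0 : Divisor K F) - genusFF K F ≤ rrDim D := by
  have := rrDim_sub_h1Dim D
  omega

end Fermat.Agent.FF
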