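import Fermat.Agent.FF.RiemannRochFinite
import Mathlib.LinearAlgebra.Dual.Lemmas

/-!
# Weil differentials and the Riemann-Roch theorem

A Weil differential is a functional on the repartitions killing some `A(D) + F`.
-/

set_option autoImplicit false

noncomputable section

open AlgebraicCurve WithZero

namespace Fermat.Agent.FF

variable {K F : Type*} [Field K] [Field F] [Algebra K F]

/-- The Weil differentials killing `A(D)`: the dual annihilator of `A(D) + F`. -/
def weilDiffOf (D : Divisor K F) : Submodule K (Module.Dual K ↥(repartitions K F)) :=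
  (repartitionsOf D ⊔ principalRepartitions K F).dualAnnihilator

theorem mem_weilDiffOf {D : Divisor K F} {ω : Module.Dual K ↥(repartitions K F)} :
    ω ∈ weilDiffOf D ↔
      (∀ α ∈ repartitionsOf D, ω α = 0) ∧ ∀ f : F, ω (constRep K f) = 0 := by
  rw [weilDiffOf, Submodule.mem_dualAnnihilator]
  constructor
  · intro h
    exact ⟨fun α hα => h α (Submodule.mem_sup_left hα),
      fun f => h _ (Submodule.mem_sup_right (constRep_mem_principalRepartitions f))⟩
  · rintro ⟨h1, h2⟩ w hw
    obtain ⟨α, hα, β, hβ, rfl⟩ := Submodule.mem_sup.mp hw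
    obtain ⟨f, hf⟩ := mem_principalRepartitions_iff.mp hβ
    have hb : β = constRep K f := Subtype.ext hf
    rw [map_add, h1 α hα, hb, h2 f, add_zero]

theorem weilDiffOf_antitone {D E : Divisor K F} (h : D ≤ E) : weilDiffOf E ≤ weilDiffOf D :=
  fun _ hω => mem_weilDiffOf.mpr
    ⟨fun α hα => (mem_weilDiffOf.mp hω).1 α (repartitionsOf_mono h hα), (mem_weilDiffOf.mp hω).2⟩

theorem weilDiffOf_sup {D E : Divisor K F} {ω : Module.Dual K ↥(repartitions K F)}
    (hD : ω ∈ weilDiffOf D) (hE : ω ∈ weilDiffOf E) : ω ∈ weilDiffOf (D ⊔ E) := by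
  classical
  refine mem_weilDiffOf.mpr ⟨fun α hα => ?_, (mem_weilDiffOf.mp hD).2⟩
  let b : Place K F → F := fun v =>
    if v.adicValuation ((α : Place K F → F) v) ≤ exp (D v) then (α : Place K F → F) v else 0
  have hb : ∀ v, v.adicValuation (b v) ≤ exp (D v) := by
    intro v
    simp only [b]
    split
    · assumption
    · simp
  let β : ↥(repartitions K F) := ⟨b, mem_repartitions_of_forall_le_exp D b hb⟩
  have hγ : α - β ∈ repartitionsOf E := by
    intro v
    show v.adicValuation ((α : Place K F → F) v - b v) ≤ exp (E v)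
    simp only [b]
    split
    · simp
    · rename_i hnot
      have h : v.adicValuation ((α : Place K F → F) v) ≤ exp (max (D v) (E v)) := hα v
      rcases max_choice (D v) (E v) with h' | h'
      · exact absurd (h' ▸ h) hnot
      · rw [sub_zero]
        exact h' ▸ h
  have h1 := (mem_weilDiffOf.mp hD).1 β hb
  have h2 := (mem_weilDiffOf.mp hE).1 _ hγ
  rwa [map_sub, h1, sub_zero] at h2

/-- `f ↦ f ω`. -/
def weilMul (ω : Module.Dual K ↥(repartitions K F)) :
    F →ₗ[K] Module.Dual K ↥(repartitions K F) where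
  toFun f := ω.comp (LinearMap.mulLeft K (constRep K f))
  map_add' f g := by
    ext α
    simp [add_mul]
  map_smul' c f := by
    ext α
    simp

theorem weilMul_apply (ω : Module.Dual K ↥(repartitions K F)) (f : F)
    (α : ↥(repartitions K F)) : weilMul ω f α = ω (constRep K f * α) := rfl

theorem constRep_mul (f g : F) :
    constRep (K := K) (f * g) = constRep K f * constRep K g := rfl

theorem weilMul_weilMul (ω : Module.Dual K ↥(repartitions K F)) (f g : F) :
    weilMul (weilMul ω f) g = weilMul ω (f * g) := by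
  ext α
  simp [weilMul_apply, constRep_mul, mul_assoc]

@[simp]
theorem weilMul_one (ω : Module.Dual K ↥(repartitions K F)) : weilMul ω 1 = ω := by
  ext α
  rw [weilMul_apply]
  exact congrArg ω (one_mul α)

theorem weilMul_eq_zero {ω : Module.Dual K ↥(repartitions K F)} (hω : ω ≠ 0) {f : F}
    (h : weilMul ω f = 0) : f = 0 := by
  by_contra hf
  apply hω
  rw [← weilMul_one ω, ← mul_inv_cancel₀ hf, ← weilMul_weilMul, h]
  ext α
  simp [weilMul_apply]

theorem weilMul_mem {D G : Divisor K F} {ω : Module.Dual K ↥(repartitions K F)}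
    (hω : ω ∈ weilDiffOf D) {f : F} (hf : f ∈ riemannRochSpace G) :
    weilMul ω f ∈ weilDiffOf (D - G) := by
  refine mem_weilDiffOf.mpr ⟨fun α hα => (mem_weilDiffOf.mp hω).1 _ fun v => ?_, fun g => ?_⟩
  · show v.adicValuation (f * (α : Place K F → F) v) ≤ exp (D v)
    have h2 := hα v
    rw [Finsupp.sub_apply] at h2
    calc v.adicValuation (f * (α : Place K F → F) v)
        ≤ exp (G v) * exp (D v - G v) := by
          rw [map_mul]
          exact mul_le_mul' (hf v) h2
      _ = exp (D v) := by rw [← exp_add, add_sub_cancel]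
  · rw [weilMul_apply, ← constRep_mul]
    exact (mem_weilDiffOf.mp hω).2 _

/-- A functional killing one `A(D') + F` kills `A(D) + F` iff it kills the local pieces. -/
theorem mem_weilDiffOf_of_local {D D' : Divisor K F} {ω : Module.Dual K ↥(repartitions K F)}
    (hω : ω ∈ weilDiffOf D')
    (h : ∀ (v : Place K F) (f : F), v.adicValuation f ≤ exp (D v) → ω (singleRep v f) = 0) :
    ω ∈ weilDiffOf D := by
  classical
  refine mem_weilDiffOf.mpr ⟨fun α hα => ?_, (mem_weilDiffOf.mp hω).2⟩
  let s : Finset (Place K F) := D.support ∪ D'.support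
  have key : α - ∑ v ∈ s, singleRep v ((α : Place K F → F) v) ∈ repartitionsOf D' := by
    intro w
    have hw : ((∑ v ∈ s, singleRep v ((α : Place K F → F) v) : ↥(repartitions K F)) :
        Place K F → F) w = if w ∈ s then (α : Place K F → F) w else 0 := by
      rw [AddSubmonoidClass.coe_finsetSum, Finset.sum_apply]
      rw [Finset.sum_congr rfl (g := fun v => if w = v then (α : Place K F → F) w else 0)]
      · exact Finset.sum_ite_eq s w fun _ => (α : Place K F → F) w
      · intro v _
        split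
        · next hwv => subst hwv; simp
        · next hwv => exact singleRep_apply_of_ne hwv _
    show w.adicValuation ((α : Place K F → F) w
      - ((∑ v ∈ s, singleRep v ((α : Place K F → F) v) : ↥(repartitions K F)) :
        Place K F → F) w) ≤ exp (D' w)
    rw [hw]
    split
    · simp
    · next hws =>
      simp only [s, Finset.mem_union, Finsupp.mem_support_iff, not_or, not_not] at hws
      have := hα w
      rw [hws.1] at this
      rwa [sub_zero, hws.2]
  have h1 := (mem_weilDiffOf.mp hω).1 _ key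
  rw [map_sub, map_sum, Finset.sum_eq_zero fun v _ => h v _ (hα v), sub_zero] at h1
  exact h1

theorem singleRep_eq_zero_of_mem_weilDiffOf {D : Divisor K F}
    {ω : Module.Dual K ↥(repartitions K F)} (hω : ω ∈ weilDiffOf D) (v : Place K F) (f : F)
    (hf : v.adicValuation f ≤ exp (D v)) : ω (singleRep v f) = 0 :=
  (mem_weilDiffOf.mp hω).1 _ (singleRep_mem_repartitionsOf hf)

/-! ### Riemann-Roch -/

variable [HasPrincipalDivisors K F] [∀ v : Place K F, v.FiniteResidue] [Nonempty (Place K F)]
  [HasRiemannBound K F]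

theorem finite_weilDiffOf (D : Divisor K F) :
    Module.Finite K (weilDiffOf D) ∧ Module.finrank K (weilDiffOf D) = h1Dim D := by
  let e : Module.Dual K (H1 D) ≃ₗ[K] weilDiffOf D :=
    (repartitionsOf D ⊔ principalRepartitions K F).dualQuotEquivDualAnnihilator
  exact ⟨Module.Finite.equiv e, by rw [← e.finrank_eq, Subspace.dual_finrank_eq]⟩

/-- Two Weil differentials are proportional over `F`. -/
theorem exists_weilMul_eq {D₁ D₂ : Divisor K F} {ω₁ ω₂ : Module.Dual K ↥(repartitions K F)}
    (h₁ : ω₁ ∈ weilDiffOf D₁) (h₂ : ω₂ ∈ weilDiffOf D₂) (hne : ω₁ ≠ 0) :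
    ∃ f : F, weilMul ω₁ f = ω₂ := by
  by_contra hno
  obtain ⟨P⟩ := ‹Nonempty (Place K F)›
  obtain ⟨D, hD1, hD2⟩ : ∃ D : Divisor K F, D ≤ D₁ ∧ D ≤ D₂ :=
    ⟨D₁ ⊓ D₂, inf_le_left, inf_le_right⟩
  replace h₁ := weilDiffOf_antitone hD1 h₁
  replace h₂ := weilDiffOf_antitone hD2 h₂
  set d : ℤ := (P.deg : ℤ) with hd
  have hd1 : 1 ≤ d := by have := placeDeg_pos P; omega
  set g : ℤ := (genusFF K F : ℤ) with hg
  set n : ℤ := max (max (Divisor.degree D + 1) (3 * g - Divisor.degree D + 1)) 0 with hn
  let G : Divisor K F := Finsupp.single P n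
  let φ : riemannRochSpace G × riemannRochSpace G →ₗ[K] weilDiffOf (D - G) :=
    (((weilMul ω₁).comp (riemannRochSpace G).subtype).coprod
      ((weilMul ω₂).comp (riemannRochSpace G).subtype)).codRestrict _ fun x =>
        Submodule.add_mem _ (weilMul_mem h₁ x.1.2) (weilMul_mem h₂ x.2.2)
  have hinj : Function.Injective φ := by
    refine (injective_iff_map_eq_zero φ).mpr ?_
    rintro ⟨a, b⟩ hab
    have h0 : weilMul ω₁ (a : F) + weilMul ω₂ (b : F) = 0 := congrArg Subtype.val hab
    by_cases hb : (b : F) = 0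
    · rw [hb, map_zero, add_zero] at h0
      exact Prod.ext (Subtype.ext (weilMul_eq_zero hne h0)) (Subtype.ext hb)
    · exfalso
      apply hno
      refine ⟨-((a : F) * (b : F)⁻¹), ?_⟩
      have : weilMul ω₂ (b : F) = weilMul ω₁ (-(a : F)) := by
        rw [map_neg]
        exact eq_neg_of_add_eq_zero_right h0
      calc weilMul ω₁ (-((a : F) * (b : F)⁻¹))
          = weilMul (weilMul ω₁ (-(a : F))) (b : F)⁻¹ := by rw [weilMul_weilMul, neg_mul]
        _ = ω₂ := by rw [← this, weilMul_weilMul, mul_inv_cancel₀ hb, weilMul_one]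
  obtain ⟨hfin, hrank⟩ := finite_weilDiffOf (D - G)
  have hle := LinearMap.finrank_le_finrank_of_injective hinj
  rw [Module.finrank_prod, hrank] at hle
  have hG : Divisor.degree G = n * d := Divisor.degree_single P n
  have hn0 : 0 ≤ n := le_max_right _ _
  have hnd : n ≤ n * d := le_mul_of_one_le_right hn0 hd1
  have hneg : Divisor.degree (D - G) < 0 := by rw [map_sub, hG]; omega
  have hzero : rrDim (D - G) = 0 :=
    Submodule.finrank_eq_zero.mpr (riemannRochSpace_eq_bot hneg)
  have h3 := rrDim_sub_h1Dim (D - G)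
  have h4 := degree_add_le_rrDim G
  have h5 := one_le_rrDim_zero (K := K) (F := F)
  rw [map_sub, hG, hzero] at h3
  rw [hG] at h4
  simp only [rrDim] at *
  omega

theorem exists_weilDiff_ne_zero :
    ∃ (D : Divisor K F) (ω : Module.Dual K ↥(repartitions K F)),
      ω ∈ weilDiffOf D ∧ ω ≠ 0 := by
  obtain ⟨P⟩ := ‹Nonempty (Place K F)›
  set m : ℤ := max ((rrDim (0 : Divisor K F) : ℤ) - genusFF K F + 1) 1 with hm
  let D : Divisor K F := -Finsupp.single P m
  have hd1 : (1 : ℤ) ≤ P.deg := by exact_mod_cast placeDeg_pos P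
  have hmd : m ≤ m * P.deg := le_mul_of_one_le_right (by omega) hd1
  have hdeg : Divisor.degree D = -(m * P.deg) := by simp [D]
  have hzero : rrDim D = 0 :=
    Submodule.finrank_eq_zero.mpr (riemannRochSpace_eq_bot (by omega))
  have h3 := rrDim_sub_h1Dim D
  rw [hzero, hdeg] at h3
  obtain ⟨hfin, hrank⟩ := finite_weilDiffOf D
  have hne : weilDiffOf D ≠ ⊥ := fun h => by
    rw [Submodule.finrank_eq_zero.mpr h] at hrank
    omega
  obtain ⟨ω, hω, h0⟩ := Submodule.exists_mem_ne_zero_of_ne_bot hne
  exact ⟨D, ω, hω, h0⟩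

/-- The degree of a divisor killed by a nonzero Weil differential is at most `2g - l(0)`. -/
theorem degree_le_of_mem_weilDiffOf {D : Divisor K F}
    {ω : Module.Dual K ↥(repartitions K F)} (hω : ω ∈ weilDiffOf D) (hne : ω ≠ 0) :
    Divisor.degree D ≤ 2 * (genusFF K F : ℤ) - rrDim (0 : Divisor K F) := by
  let φ : riemannRochSpace D →ₗ[K] weilDiffOf (0 : Divisor K F) :=
    ((weilMul ω).comp (riemannRochSpace D).subtype).codRestrict _ fun f => by
      have := weilMul_mem hω f.2
      rwa [sub_self] at this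
  have hinj : Function.Injective φ := by
    refine (injective_iff_map_eq_zero φ).mpr fun f hf => ?_
    exact Subtype.ext (weilMul_eq_zero hne (congrArg Subtype.val hf))
  obtain ⟨hfin, hrank⟩ := finite_weilDiffOf (0 : Divisor K F)
  have hle := LinearMap.finrank_le_finrank_of_injective hinj
  rw [hrank] at hle
  have h4 := degree_add_le_rrDim D
  have hg : h1Dim (0 : Divisor K F) = genusFF K F := rfl
  simp only [rrDim, h1Dim] at *
  omega

omit [HasPrincipalDivisors K F] [Nonempty (Place K F)] [HasRiemannBound K F] in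
theorem eq_of_le_of_degree_le {D E : Divisor K F} (h : D ≤ E)
    (hd : Divisor.degree E ≤ Divisor.degree D) : D = E := by
  by_contra hne
  obtain ⟨v, hv⟩ := Finsupp.ne_iff.mp hne
  have hlt : D v < E v := lt_of_le_of_ne (h v) hv
  have hle : D + Finsupp.single v 1 ≤ E := by
    intro w
    rcases eq_or_ne w v with rfl | hw
    · simp; omega
    · simpa [Finsupp.single_eq_of_ne hw] using h w
  have h1 := rrDegree_mono hle
  rw [map_add, Divisor.degree_single] at h1
  have := placeDeg_pos v
  omega

/-- The divisor of a nonzero Weil differential. -/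
theorem exists_weilDivisor {D₁ : Divisor K F} {ω : Module.Dual K ↥(repartitions K F)}
    (hω : ω ∈ weilDiffOf D₁) (hne : ω ≠ 0) :
    ∃ W : Divisor K F, ∀ D : Divisor K F, ω ∈ weilDiffOf D ↔ D ≤ W := by
  obtain ⟨z, ⟨W, hW, rfl⟩, hmax⟩ := Int.exists_greatest_of_bdd
    (P := fun z => ∃ D : Divisor K F, ω ∈ weilDiffOf D ∧ Divisor.degree D = z)
    ⟨_, fun z ⟨D, hD, hz⟩ => hz ▸ degree_le_of_mem_weilDiffOf hD hne⟩ ⟨_, D₁, hω, rfl⟩
  refine ⟨W, fun D => ⟨fun hD => ?_, fun hD => weilDiffOf_antitone hD hW⟩⟩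
  have hle : Divisor.degree (W ⊔ D) ≤ Divisor.degree W :=
    hmax _ ⟨_, weilDiffOf_sup hW hD, rfl⟩
  have := eq_of_le_of_degree_le (le_sup_left : W ≤ W ⊔ D) hle
  rw [this]
  exact le_sup_right

section Canonical

variable {ω : Module.Dual K ↥(repartitions K F)} {W : Divisor K F}

theorem h1Dim_eq_rrDim_sub (hne : ω ≠ 0) (hW : ∀ D, ω ∈ weilDiffOf D ↔ D ≤ W)
    (D : Divisor K F) : h1Dim D = rrDim (W - D) := by
  have hωW : ω ∈ weilDiffOf W := (hW W).mpr le_rfl
  let φ : riemannRochSpace (W - D) →ₗ[K] weilDiffOf D :=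
    ((weilMul ω).comp (riemannRochSpace (W - D)).subtype).codRestrict _ fun f => by
      have := weilMul_mem hωW f.2
      rwa [sub_sub_cancel] at this
  have hbij : Function.Bijective φ := by
    constructor
    · refine (injective_iff_map_eq_zero φ).mpr fun f hf => ?_
      exact Subtype.ext (weilMul_eq_zero hne (congrArg Subtype.val hf))
    · rintro ⟨η, hη⟩
      obtain ⟨f, rfl⟩ := exists_weilMul_eq hωW hη hne
      rcases eq_or_ne f 0 with rfl | hf
      · exact ⟨0, Subtype.ext (by simp)⟩
      refine ⟨⟨f, fun v => ?_⟩, rfl⟩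
      obtain ⟨E, hE, -⟩ := HasPrincipalDivisors.exists_divisor (K := K) f hf
      have hinv : f⁻¹ ∈ riemannRochSpace E := by
        refine mem_riemannRochSpace_iff.mpr fun w => Or.inr ?_
        rw [w.ord_inv, hE w]
      have hback := weilMul_mem hη hinv
      rw [weilMul_weilMul, mul_inv_cancel₀ hf, weilMul_one] at hback
      have hle := (hW _).mp hback v
      rw [Finsupp.sub_apply, hE v] at hle
      rw [v.adicValuation_eq_exp_neg_ord hf, exp_le_exp, Finsupp.sub_apply]
      omega
  rw [← (finite_weilDiffOf D).2]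
  exact (LinearEquiv.ofBijective φ hbij).finrank_eq.symm

/-- The Riemann-Roch theorem for the divisor of a Weil differential. -/
theorem riemannRoch_weilDivisor (hne : ω ≠ 0) (hW : ∀ D, ω ∈ weilDiffOf D ↔ D ≤ W)
    (D : Divisor K F) :
    (rrDim D : ℤ) - rrDim (W - D)
      = Divisor.degree D + rrDim (0 : Divisor K F) - genusFF K F := by
  rw [← h1Dim_eq_rrDim_sub hne hW D]
  exact rrDim_sub_h1Dim D

theorem rrDim_weilDivisor (hne : ω ≠ 0) (hW : ∀ D, ω ∈ weilDiffOf D ↔ D ≤ W) :
    rrDim W = genusFF K F := by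
  have := h1Dim_eq_rrDim_sub hne hW 0
  rw [sub_zero] at this
  exact this.symm

theorem degree_weilDivisor (hne : ω ≠ 0) (hW : ∀ D, ω ∈ weilDiffOf D ↔ D ≤ W) :
    Divisor.degree W = 2 * (genusFF K F : ℤ) - 2 * rrDim (0 : Divisor K F) := by
  have h1 := riemannRoch_weilDivisor hne hW W
  rw [sub_self, rrDim_weilDivisor hne hW] at h1
  omega

omit [HasPrincipalDivisors K F] [∀ v : Place K F, v.FiniteResidue] [Nonempty (Place K F)]
  [HasRiemannBound K F] in
/-- The divisor is recognised by maximality at every place. -/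
theorem eq_weilDivisor_of_maximal (hW : ∀ D, ω ∈ weilDiffOf D ↔ D ≤ W) {W' : Divisor K F}
    (hmem : ω ∈ weilDiffOf W')
    (hmax : ∀ v : Place K F, ω ∉ weilDiffOf (W' + Finsupp.single v 1)) : W' = W := by
  have hle : W' ≤ W := (hW W').mp hmem
  refine Finsupp.ext fun v => le_antisymm (hle v) ?_
  by_contra hlt
  refine hmax v ((hW _).mpr fun w => ?_)
  rcases eq_or_ne w v with rfl | hw
  · simp only [Finsupp.add_apply, Finsupp.single_eq_same]
    omega
  · simpa [Finsupp.single_eq_of_ne hw] using hle w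

end Canonical

theorem exists_riemannRoch :
    ∃ W : Divisor K F, Divisor.degree W = 2 * (genusFF K F : ℤ) - 2 * rrDim (0 : Divisor K F) ∧
      rrDim W = genusFF K F ∧ (∀ D : Divisor K F, h1Dim D = rrDim (W - D)) ∧
      ∀ D : Divisor K F, (rrDim D : ℤ) - rrDim (W - D)
        = Divisor.degree D + rrDim (0 : Divisor K F) - genusFF K F := by
  obtain ⟨D, ω, hω, hne⟩ := exists_weilDiff_ne_zero (K := K) (F := F)
  obtain ⟨W, hW⟩ := exists_weilDivisor hω hne
  exact ⟨W, degree_weilDivisor hne hW, rrDim_weilDivisor hne hW,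
    h1Dim_eq_rrDim_sub hne hW, riemannRoch_weilDivisor hne hW⟩

end Fermat.Agent.FF
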